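import Fermat.Agent.S05.XId
import Mathlib.RingTheory.Valuation.ValuationSubring

/-!
# The kernel of reduction has no prime-to-residue-characteristic torsion (S05 helper)

`K` a field with a valuation `v`, `W` a Weierstrass curve over `K` with `v`-integral coefficients.
If `P = (x, y)` is a nonsingular affine point with `n • P = 0` and `v n = 1`, then `v x ≤ 1`.

The proof only uses `x`-coordinates: with `s = 1/x` and `s_k = 1/x(kP)` one shows by induction
`s_k ≡ k² s` modulo `{t | v t < v s}`.  No assumption on the residue characteristic (in particular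
`v 2 < 1` is allowed).
-/

set_option autoImplicit false

namespace Fermat.Agent.S05.FG

open WeierstrassCurve WeierstrassCurve.Affine
open Fermat.Agent.S05.XId

variable {K : Type*} [Field K] {Γ₀ : Type*} [LinearOrderedCommGroupWithZero Γ₀]
  (v : Valuation K Γ₀)

/-- The Weierstrass curve `W` has `v`-integral coefficients. -/
def IsIntegralAt (W : Affine K) : Prop :=
  v W.a₁ ≤ 1 ∧ v W.a₂ ≤ 1 ∧ v W.a₃ ≤ 1 ∧ v W.a₄ ≤ 1 ∧ v W.a₆ ≤ 1

lemma v_natCast_le_one (n : ℕ) : v (n : K) ≤ 1 := by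
  induction n with
  | zero => simp
  | succ n ih =>
    push_cast
    exact v.map_add_le ih (by simp)

lemma v_ofNat_le_one (n : ℕ) [n.AtLeastTwo] : v (OfNat.ofNat n : K) ≤ 1 := by
  have := v_natCast_le_one v (OfNat.ofNat n)
  rwa [Nat.cast_ofNat] at this

variable {v}

lemma v_mul_le_one {a b : K} (ha : v a ≤ 1) (hb : v b ≤ 1) : v (a * b) ≤ 1 := by
  rw [map_mul]; exact Left.mul_le_one ha hb

lemma v_pow_le_one {a : K} (ha : v a ≤ 1) (n : ℕ) : v (a ^ n) ≤ 1 := by
  rw [map_pow]; exact pow_le_one' ha n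

lemma v_add_le_one {a b : K} (ha : v a ≤ 1) (hb : v b ≤ 1) : v (a + b) ≤ 1 :=
  v.map_add_le ha hb

lemma v_sub_le_one {a b : K} (ha : v a ≤ 1) (hb : v b ≤ 1) : v (a - b) ≤ 1 :=
  v.map_sub_le ha hb

lemma v_neg_le_one {a : K} (ha : v a ≤ 1) : v (-a) ≤ 1 := by
  rwa [v.map_neg]

/-- `v (a * t) < g` if `v a ≤ 1` and `v t < g`. -/
lemma v_mul_lt_left {a t : K} {g : Γ₀} (ha : v a ≤ 1) (ht : v t < g) : v (a * t) < g := by
  rw [map_mul]; exact mul_lt_of_le_one_of_lt ha ht

lemma v_mul_lt_right {a t : K} {g : Γ₀} (ha : v a ≤ 1) (ht : v t < g) : v (t * a) < g := by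
  rw [mul_comm]; exact v_mul_lt_left ha ht

/-- `v (a * t) < v t` if `v a < 1` and `t ≠ 0`. -/
lemma v_mul_lt_self {a t : K} (ha : v a < 1) (ht : t ≠ 0) : v (a * t) < v t := by
  rw [map_mul]
  exact mul_lt_of_lt_one_left (zero_lt_iff.mpr ((v.ne_zero_iff).mpr ht)) ha

lemma v_mul_lt_of_lt_one_of_le {a t : K} {g : Γ₀} (hg : g ≠ 0) (ha : v a < 1) (ht : v t ≤ g) :
    v (a * t) < g := by
  rw [map_mul]
  calc v a * v t ≤ v a * g := by gcongr
    _ < g := mul_lt_of_lt_one_left (zero_lt_iff.mpr hg) ha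

section coeffs

variable {W : Affine K} (hW : IsIntegralAt v W)
include hW

lemma v_b₂ : v W.b₂ ≤ 1 := by
  obtain ⟨h1, h2, h3, h4, h6⟩ := hW
  rw [WeierstrassCurve.b₂]
  exact v_add_le_one (v_pow_le_one h1 2) (v_mul_le_one (v_ofNat_le_one v 4) h2)

lemma v_b₄ : v W.b₄ ≤ 1 := by
  obtain ⟨h1, h2, h3, h4, h6⟩ := hW
  rw [WeierstrassCurve.b₄]
  exact v_add_le_one (v_mul_le_one (v_ofNat_le_one v 2) h4) (v_mul_le_one h1 h3)

lemma v_b₆ : v W.b₆ ≤ 1 := by
  obtain ⟨h1, h2, h3, h4, h6⟩ := hW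
  rw [WeierstrassCurve.b₆]
  exact v_add_le_one (v_pow_le_one h3 2) (v_mul_le_one (v_ofNat_le_one v 4) h6)

lemma v_b₈ : v W.b₈ ≤ 1 := by
  obtain ⟨h1, h2, h3, h4, h6⟩ := hW
  rw [WeierstrassCurve.b₈]
  refine v_sub_le_one (v_add_le_one (v_sub_le_one (v_add_le_one ?_ ?_) ?_) ?_) ?_
  · exact v_mul_le_one (v_pow_le_one h1 2) h6
  · exact v_mul_le_one (v_mul_le_one (v_ofNat_le_one v 4) h2) h6
  · exact v_mul_le_one (v_mul_le_one h1 h3) h4
  · exact v_mul_le_one h2 (v_pow_le_one h3 2)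
  · exact v_pow_le_one h4 2

end coeffs

section estimates

variable {W : Affine K} (hW : IsIntegralAt v W)
include hW

/-- Generic step: estimate for `1/x(Q+P) + 1/x(Q-P)` in terms of `s = 1/x(P)`, `s' = 1/x(Q)`. -/
lemma step_generic {s s' x₃ x₄ : K} (hs0 : s ≠ 0) (hs'0 : s' ≠ 0) (hs : v s < 1)
    (hs' : v s' ≤ v s)
    (hsum : (s'⁻¹ - s⁻¹) ^ 2 * (x₃ + x₄) = sumNum W s'⁻¹ s⁻¹)
    (hprod : (s'⁻¹ - s⁻¹) ^ 2 * (x₃ * x₄) = prodNum W s'⁻¹ s⁻¹) :
    x₃ ≠ 0 ∧ x₄ ≠ 0 ∧ v (x₃⁻¹ + x₄⁻¹ - 2 * (s + s')) < v s := by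
  have hb2 := v_b₂ hW
  have hb4 := v_b₄ hW
  have hb6 := v_b₆ hW
  have hb8 := v_b₈ hW
  have hs1 : v s ≤ 1 := hs.le
  have hs'1 : v s' ≤ 1 := hs'.trans hs1
  have hs'lt : v s' < 1 := lt_of_le_of_lt hs' hs
  have hss : v (s + s') ≤ 1 := v_add_le_one hs1 hs'1
  have h2 : v (2 : K) ≤ 1 := v_ofNat_le_one v 2
  set V : K := 1 - W.b₄ * s * s' - W.b₆ * s * s' * (s + s') - W.b₈ * (s * s') ^ 2 with hV
  set U : K := 2 * (s + s') + W.b₂ * s * s' + W.b₄ * s * s' * (s + s') + W.b₆ * (s * s') ^ 2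
    with hU
  have e1 : (s'⁻¹ - s⁻¹) ^ 2 * (s * s') ^ 2 = (s - s') ^ 2 := by
    field_simp
  have e2 : sumNum W s'⁻¹ s⁻¹ * (s * s') ^ 2 = U := by
    simp only [sumNum, hU]
    field_simp
  have e3 : prodNum W s'⁻¹ s⁻¹ * (s * s') ^ 2 = V := by
    simp only [prodNum, hV]
    field_simp
  have hsum' : (s - s') ^ 2 * (x₃ + x₄) = U := by
    rw [← e1, ← e2, ← hsum]; ring
  have hprod' : (s - s') ^ 2 * (x₃ * x₄) = V := by
    rw [← e1, ← e3, ← hprod]; ring
  -- `V` is a unit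
  have hV1 : v (V - 1) < 1 := by
    have : V - 1 = -(s' * (s * (W.b₄ + W.b₆ * (s + s') + W.b₈ * (s * s')))) := by
      simp only [hV]; ring
    rw [this, v.map_neg]
    refine v_mul_lt_right ?_ hs'lt
    exact v_mul_le_one hs1 (v_add_le_one (v_add_le_one hb4 (v_mul_le_one hb6 hss))
      (v_mul_le_one hb8 (v_mul_le_one hs1 hs'1)))
  have hVv : v V = 1 := by
    have : V = 1 + (V - 1) := by ring
    rw [this]
    exact v.map_one_add_of_lt hV1
  have hV0 : V ≠ 0 := by
    intro h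
    rw [h, map_zero] at hVv
    exact zero_ne_one hVv
  have h34 : x₃ * x₄ ≠ 0 := by
    intro h
    rw [h, mul_zero] at hprod'
    exact hV0 hprod'.symm
  have hx3 : x₃ ≠ 0 := left_ne_zero_of_mul h34
  have hx4 : x₄ ≠ 0 := right_ne_zero_of_mul h34
  refine ⟨hx3, hx4, ?_⟩
  have key : (x₃⁻¹ + x₄⁻¹ - 2 * (s + s')) * V = U - 2 * (s + s') * V := by
    have : (x₃⁻¹ + x₄⁻¹) * V = U := by
      rw [← hprod', ← hsum']
      field_simp
      ring
    rw [sub_mul, this]
  have hR : U - 2 * (s + s') * V = s' * (s * (W.b₂ + W.b₄ * (s + s') + W.b₆ * (s * s') +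
      2 * (s + s') * (W.b₄ + W.b₆ * (s + s') + W.b₈ * (s * s')))) := by
    simp only [hU, hV]; ring
  have hRv : v (U - 2 * (s + s') * V) < v s := by
    rw [hR]
    refine v_mul_lt_of_lt_one_of_le ((v.ne_zero_iff).mpr hs0) hs'lt ?_
    rw [map_mul]
    refine mul_le_of_le_one_right' ?_
    refine v_add_le_one (v_add_le_one (v_add_le_one hb2 (v_mul_le_one hb4 hss))
      (v_mul_le_one hb6 (v_mul_le_one hs1 hs'1))) ?_
    exact v_mul_le_one (v_mul_le_one h2 hss) (v_add_le_one (v_add_le_one hb4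
      (v_mul_le_one hb6 hss)) (v_mul_le_one hb8 (v_mul_le_one hs1 hs'1)))
  have : v ((x₃⁻¹ + x₄⁻¹ - 2 * (s + s')) * V) < v s := by rw [key]; exact hRv
  rwa [map_mul, hVv, mul_one] at this

/-- Duplication step. -/
lemma step_dbl {s x' : K} (hs0 : s ≠ 0) (hs : v s < 1)
    (h : x' * dblDen W s⁻¹ = dblNum W s⁻¹) :
    x' ≠ 0 ∧ v (x'⁻¹ - 4 * s) < v s := by
  have hb2 := v_b₂ hW
  have hb4 := v_b₄ hW
  have hb6 := v_b₆ hW
  have hb8 := v_b₈ hW
  have hs1 : v s ≤ 1 := hs.le
  have h2 : v (2 : K) ≤ 1 := v_ofNat_le_one v 2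
  have h4 : v (4 : K) ≤ 1 := v_ofNat_le_one v 4
  set V : K := 1 - W.b₄ * s ^ 2 - 2 * W.b₆ * s ^ 3 - W.b₈ * s ^ 4 with hV
  set U : K := 4 * s + W.b₂ * s ^ 2 + 2 * W.b₄ * s ^ 3 + W.b₆ * s ^ 4 with hU
  have e2 : dblDen W s⁻¹ * s ^ 4 = U := by
    simp only [dblDen, hU]
    field_simp
  have e3 : dblNum W s⁻¹ * s ^ 4 = V := by
    simp only [dblNum, hV]
    field_simp
  have h' : x' * U = V := by
    rw [← e2, ← e3, ← h]; ring
  have hV1 : v (V - 1) < 1 := by
    have : V - 1 = -(s * (s * (W.b₄ + 2 * W.b₆ * s + W.b₈ * s ^ 2))) := by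
      simp only [hV]; ring
    rw [this, v.map_neg]
    refine v_mul_lt_right ?_ hs
    exact v_mul_le_one hs1 (v_add_le_one (v_add_le_one hb4 (v_mul_le_one (v_mul_le_one h2 hb6) hs1))
      (v_mul_le_one hb8 (v_pow_le_one hs1 2)))
  have hVv : v V = 1 := by
    have : V = 1 + (V - 1) := by ring
    rw [this]
    exact v.map_one_add_of_lt hV1
  have hV0 : V ≠ 0 := by
    intro h
    rw [h, map_zero] at hVv
    exact zero_ne_one hVv
  have hxU : x' * U ≠ 0 := by rw [h']; exact hV0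
  have hx' : x' ≠ 0 := left_ne_zero_of_mul hxU
  have hU0 : U ≠ 0 := right_ne_zero_of_mul hxU
  refine ⟨hx', ?_⟩
  have key : (x'⁻¹ - 4 * s) * V = U - 4 * s * V := by
    have : x'⁻¹ * V = U := by
      rw [← h']; field_simp
    rw [sub_mul, this]
  have hR : U - 4 * s * V = s * (s * (W.b₂ + 2 * W.b₄ * s + W.b₆ * s ^ 2 +
      4 * (W.b₄ * s + 2 * W.b₆ * s ^ 2 + W.b₈ * s ^ 3))) := by
    simp only [hU, hV]; ring
  have hRv : v (U - 4 * s * V) < v s := by
    rw [hR]
    refine v_mul_lt_of_lt_one_of_le ((v.ne_zero_iff).mpr hs0) hs ?_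
    rw [map_mul]
    refine mul_le_of_le_one_right' ?_
    refine v_add_le_one (v_add_le_one (v_add_le_one hb2 (v_mul_le_one (v_mul_le_one h2 hb4) hs1))
      (v_mul_le_one hb6 (v_pow_le_one hs1 2))) ?_
    exact v_mul_le_one h4 (v_add_le_one (v_add_le_one (v_mul_le_one hb4 hs1)
      (v_mul_le_one (v_mul_le_one h2 hb6) (v_pow_le_one hs1 2)))
      (v_mul_le_one hb8 (v_pow_le_one hs1 3)))
  have : v ((x'⁻¹ - 4 * s) * V) < v s := by rw [key]; exact hRv
  rwa [map_mul, hVv, mul_one] at this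

/-- If `P = (1/s, y)` is 2-torsion and in the kernel of reduction then `v 2 < 1`. -/
lemma v_two_lt_one_of_dblDen_eq_zero {s : K} (hs0 : s ≠ 0) (hs : v s < 1)
    (h : dblDen W s⁻¹ = 0) : v (2 : K) < 1 := by
  have hb2 := v_b₂ hW
  have hb4 := v_b₄ hW
  have hb6 := v_b₆ hW
  have hs1 : v s ≤ 1 := hs.le
  have h2 : v (2 : K) ≤ 1 := v_ofNat_le_one v 2
  have e2 : dblDen W s⁻¹ * s ^ 3 = 4 + W.b₂ * s + 2 * W.b₄ * s ^ 2 + W.b₆ * s ^ 3 := by
    simp only [dblDen]
    field_simp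
  rw [h, zero_mul] at e2
  have h4 : (4 : K) = -(s * (W.b₂ + 2 * W.b₄ * s + W.b₆ * s ^ 2)) := by
    linear_combination -e2
  have hv4 : v (4 : K) < 1 := by
    rw [h4, v.map_neg]
    refine v_mul_lt_right ?_ hs
    exact v_add_le_one (v_add_le_one hb2 (v_mul_le_one (v_mul_le_one h2 hb4) hs1))
      (v_mul_le_one hb6 (v_pow_le_one hs1 2))
  by_contra hcon
  have h21 : v (2 : K) = 1 := le_antisymm h2 (not_lt.mp hcon)
  have : v (4 : K) = 1 := by
    have : (4 : K) = 2 * 2 := by norm_num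
    rw [this, map_mul, h21, mul_one]
  rw [this] at hv4
  exact lt_irrefl _ hv4

end estimates

section main

variable [DecidableEq K] {W : Affine K}

/-- The induction predicate: either `k • P = 0` and `v k < 1`, or `k • P = (xk, yk)` with
`1/xk ≡ k² s` modulo elements of valuation `< v s`. -/
def Good (v : Valuation K Γ₀) (W : Affine K) (P : W.Point) (s : K) (k : ℕ) : Prop :=
  (k • P = 0 ∧ v (k : K) < 1) ∨
  ∃ (xk yk : K) (hk : W.Nonsingular xk yk), k • P = Point.some xk yk hk ∧ xk ≠ 0 ∧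
    v (xk⁻¹ - (k : K) ^ 2 * s) < v s

theorem good_all (hW : IsIntegralAt v W) {x y : K} (h : W.Nonsingular x y) (hx : 1 < v x)
    (k : ℕ) :
    Good v W (Point.some x y h) x⁻¹ k ∧ Good v W (Point.some x y h) x⁻¹ (k + 1) := by
  have hx0 : x ≠ 0 := by
    rintro rfl
    rw [map_zero] at hx
    exact not_lt_zero hx
  have hs0 : x⁻¹ ≠ 0 := inv_ne_zero hx0
  have hs : v x⁻¹ < 1 := by
    rw [map_inv₀]; exact inv_lt_one_of_one_lt₀ hx
  have hvs0 : v x⁻¹ ≠ 0 := (v.ne_zero_iff).mpr hs0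
  have hvspos : 0 < v x⁻¹ := zero_lt_iff.mpr hvs0
  have h2 : v (2 : K) ≤ 1 := v_ofNat_le_one v 2
  induction k with
  | zero =>
    refine ⟨Or.inl ⟨zero_nsmul _, by simp⟩, Or.inr ⟨x, y, h, one_nsmul _, hx0, ?_⟩⟩
    simpa using hvspos
  | succ j ih =>
    obtain ⟨gj, gj1⟩ := ih
    refine ⟨gj1, ?_⟩
    have e1 : (j + 1 + 1) • Point.some x y h = (j + 1) • Point.some x y h + Point.some x y h :=
      succ_nsmul _ (j + 1)
    have e0 : (j + 1) • Point.some x y h = j • Point.some x y h + Point.some x y h :=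
      succ_nsmul _ j
    rcases gj1 with ⟨hQ0, hvk⟩ | ⟨xk, yk, hk, hQ, hxk0, hvk⟩
    · -- `(j+1) P = 0`
      refine Or.inr ⟨x, y, h, by rw [e1, hQ0, zero_add], hx0, ?_⟩
      have : x⁻¹ - ((j + 1 + 1 : ℕ) : K) ^ 2 * x⁻¹ =
          -(((j + 1 : ℕ) : K) * ((((j + 3 : ℕ) : K)) * x⁻¹)) := by
        push_cast; ring
      rw [this, v.map_neg]
      refine v_mul_lt_of_lt_one_of_le hvs0 hvk ?_
      rw [map_mul]
      exact mul_le_of_le_one_left' (v_natCast_le_one v _)
    · by_cases hxk : xk = x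
      · subst hxk
        by_cases hyy : yk = y
        · -- `(j+1) P = P`
          subst hyy
          have hj0 : j • Point.some xk yk h = 0 := by
            have := e0
            rw [hQ] at this
            exact add_eq_right.mp this.symm
          have hvj : v (j : K) < 1 := by
            rcases gj with ⟨-, hvj⟩ | ⟨xj, yj, hj, hjP, -, -⟩
            · exact hvj
            · rw [hj0] at hjP
              exact absurd hjP.symm (Point.some_ne_zero hj)
          by_cases hy2 : yk = W.negY xk yk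
          · -- `2P = 0`
            refine Or.inl ⟨by rw [e1, hQ]; exact Point.add_self_of_Y_eq hy2, ?_⟩
            have hd := dblDen_eq_zero_of_Y_eq h.1 hy2
            have h2lt := v_two_lt_one_of_dblDen_eq_zero hW hs0 hs (by rwa [inv_inv])
            push_cast
            have : (j : K) + 1 + 1 = j + 2 := by ring
            rw [this]
            exact v.map_add_lt hvj h2lt
          · obtain ⟨x', y', h', hPP, hdbl, -⟩ := add_self_some h hy2
            obtain ⟨hx'0, hvx'⟩ := step_dbl hW hs0 hs (x' := x') (by rwa [inv_inv])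
            refine Or.inr ⟨x', y', h', by rw [e1, hQ]; exact hPP, hx'0, ?_⟩
            have : x'⁻¹ - ((j + 1 + 1 : ℕ) : K) ^ 2 * xk⁻¹ =
                (x'⁻¹ - 4 * xk⁻¹) - (j : K) * ((((j + 4 : ℕ) : K)) * xk⁻¹) := by
              push_cast; ring
            rw [this]
            refine v.map_sub_lt hvx' (v_mul_lt_of_lt_one_of_le hvs0 hvj ?_)
            rw [map_mul]
            exact mul_le_of_le_one_left' (v_natCast_le_one v _)
        · -- `(j+1) P = -P ≠ P`
          have hy : yk = W.negY xk y := (Y_eq_of_X_eq hk.1 h.1 rfl).resolve_left hyy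
          have hy2 : y ≠ W.negY xk y := fun hcon => hyy (hy.trans hcon.symm)
          refine Or.inl ⟨by rw [e1, hQ]; exact Point.add_of_Y_eq rfl hy, ?_⟩
          obtain ⟨x', y', h', hPP, hdbl, -⟩ := add_self_some h hy2
          obtain ⟨hx'0, hvx'⟩ := step_dbl hW hs0 hs (x' := x') (by rwa [inv_inv])
          -- `j P = -(2P)`
          have hQneg : Point.some xk yk hk = -Point.some xk y h := by
            rw [Point.neg_some]
            congr 1
          have hjP' : j • Point.some xk y h = -Point.some x' y' h' := by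
            have : j • Point.some xk y h = (j + 1) • Point.some xk y h - Point.some xk y h :=
              eq_sub_of_add_eq e0.symm
            rw [this, hQ, hQneg, ← hPP]
            abel
          rw [Point.neg_some] at hjP'
          have hvj2 : v (x'⁻¹ - (j : K) ^ 2 * xk⁻¹) < v xk⁻¹ := by
            rcases gj with ⟨hj0, -⟩ | ⟨xj, yj, hj, hjP, -, hvj⟩
            · rw [hj0] at hjP'
              exact absurd hjP' (Point.some_ne_zero _).symm
            · rw [hjP'] at hjP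
              have hxx : x' = xj := (Point.some.inj hjP).1
              rw [hxx]
              exact hvj
          -- `v (j * (j+2)) < 1`
          have hA : v ((j : K) * ((j : K) + 2)) < 1 := by
            have e : xk⁻¹ - ((j + 1 : ℕ) : K) ^ 2 * xk⁻¹ = -(((j : K) * ((j : K) + 2)) * xk⁻¹) := by
              push_cast; ring
            rw [e, v.map_neg, map_mul] at hvk
            by_contra hcon
            exact absurd hvk (not_lt.mpr (le_mul_of_one_le_left' (not_lt.mp hcon)))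
          -- `v ((j-2) * (j+2)) < 1`
          have hB : v (((j : K) - 2) * ((j : K) + 2)) < 1 := by
            have e : (((j : K) - 2) * ((j : K) + 2)) * xk⁻¹ =
                (x'⁻¹ - 4 * xk⁻¹) - (x'⁻¹ - (j : K) ^ 2 * xk⁻¹) := by ring
            have hlt : v ((((j : K) - 2) * ((j : K) + 2)) * xk⁻¹) < v xk⁻¹ := by
              rw [e]; exact v.map_sub_lt hvx' hvj2
            rw [map_mul] at hlt
            by_contra hcon
            exact absurd hlt (not_lt.mpr (le_mul_of_one_le_left' (not_lt.mp hcon)))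
          have hle : v ((j : K) + 2) ≤ 1 := v_add_le_one (v_natCast_le_one v j) h2
          push_cast
          have e12 : (j : K) + 1 + 1 = j + 2 := by ring
          rw [e12]
          by_contra hcon
          have h1 : v ((j : K) + 2) = 1 := le_antisymm hle (not_lt.mp hcon)
          rw [map_mul, h1, mul_one] at hA hB
          have h2lt : v (2 : K) < 1 := by
            have : (2 : K) = (j : K) - ((j : K) - 2) := by ring
            rw [this]
            exact v.map_sub_lt hA hB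
          exact hcon (v.map_add_lt hA h2lt)
      · -- generic case
        obtain ⟨x₃, y₃, x₄, y₄, h₃, h₄, hadd, hsub, hsum, hprod⟩ := add_sub_some hk h hxk
        have hjP' : j • Point.some x y h = Point.some x₄ y₄ h₄ := by
          have : j • Point.some x y h = (j + 1) • Point.some x y h - Point.some x y h :=
            eq_sub_of_add_eq e0.symm
          rw [this, hQ, hsub]
        have hvj : v (x₄⁻¹ - (j : K) ^ 2 * x⁻¹) < v x⁻¹ := by
          rcases gj with ⟨hj0, -⟩ | ⟨xj, yj, hj, hjP, -, hvj⟩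
          · rw [hj0] at hjP'
            exact absurd hjP' (Point.some_ne_zero _).symm
          · rw [hjP'] at hjP
            have hxx : x₄ = xj := (Point.some.inj hjP).1
            rw [hxx]
            exact hvj
        have hs' : v xk⁻¹ ≤ v x⁻¹ := by
          have e : xk⁻¹ = (xk⁻¹ - ((j + 1 : ℕ) : K) ^ 2 * x⁻¹) + ((j + 1 : ℕ) : K) ^ 2 * x⁻¹ := by
            ring
          rw [e]
          refine v.map_add_le hvk.le ?_
          rw [map_mul]
          exact mul_le_of_le_one_left' (v_pow_le_one (v_natCast_le_one v _) 2)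
        obtain ⟨hx₃0, -, hv34⟩ := step_generic hW (s := x⁻¹) (s' := xk⁻¹) (x₃ := x₃) (x₄ := x₄)
          hs0 (inv_ne_zero hxk0) hs hs' (by rwa [inv_inv, inv_inv]) (by rwa [inv_inv, inv_inv])
        refine Or.inr ⟨x₃, y₃, h₃, by rw [e1, hQ]; exact hadd, hx₃0, ?_⟩
        have e : x₃⁻¹ - ((j + 1 + 1 : ℕ) : K) ^ 2 * x⁻¹ =
            (x₃⁻¹ + x₄⁻¹ - 2 * (x⁻¹ + xk⁻¹)) - (x₄⁻¹ - (j : K) ^ 2 * x⁻¹) +
              2 * (xk⁻¹ - ((j + 1 : ℕ) : K) ^ 2 * x⁻¹) := by
          push_cast; ring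
        rw [e]
        exact v.map_add_lt (v.map_sub_lt hv34 hvj) (v_mul_lt_left h2 hvk)

/-- **No torsion in the kernel of reduction.** If `W` has `v`-integral coefficients, `n` is a
`v`-unit and `n • (x, y) = 0`, then `x` is `v`-integral. -/
theorem v_x_le_one_of_nsmul_eq_zero (hW : IsIntegralAt v W) {x y : K} (h : W.Nonsingular x y)
    {n : ℕ} (hn : v (n : K) = 1) (hP : n • Point.some x y h = 0) : v x ≤ 1 := by
  by_contra hx
  rcases (good_all hW h (not_le.mp hx) n).1 with ⟨-, hlt⟩ | ⟨xk, yk, hk, hkP, -, -⟩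
  · rw [hn] at hlt
    exact lt_irrefl _ hlt
  · rw [hP] at hkP
    exact Point.some_ne_zero hk hkP.symm

/-- Point form of `v_x_le_one_of_nsmul_eq_zero`. -/
theorem eq_zero_or_v_x_le_one_of_nsmul_eq_zero (hW : IsIntegralAt v W) (P : W.Point)
    {n : ℕ} (hn : v (n : K) = 1) (hP : n • P = 0) :
    P = 0 ∨ ∃ (x y : K) (h : W.Nonsingular x y), P = Point.some x y h ∧ v x ≤ 1 := by
  rcases P with _ | ⟨x, y, h⟩
  · exact Or.inl rfl
  · exact Or.inr ⟨x, y, h, rfl, v_x_le_one_of_nsmul_eq_zero hW h hn hP⟩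

/-- A point in the kernel of reduction (`1 < v x`) killed by a `v`-unit integer does not exist. -/
theorem nsmul_ne_zero_of_one_lt_v_x (hW : IsIntegralAt v W) {x y : K} (h : W.Nonsingular x y)
    (hx : 1 < v x) {n : ℕ} (hn : v (n : K) = 1) : n • Point.some x y h ≠ 0 := fun hP =>
  absurd (v_x_le_one_of_nsmul_eq_zero hW h hn hP) (not_le.mpr hx)

/-- Integer-multiple version. -/
theorem v_x_le_one_of_zsmul_eq_zero (hW : IsIntegralAt v W) {x y : K} (h : W.Nonsingular x y)
    {n : ℕ} (hn : v (n : K) = 1) (hP : (n : ℤ) • Point.some x y h = 0) : v x ≤ 1 :=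
  v_x_le_one_of_nsmul_eq_zero hW h hn (by rwa [natCast_zsmul] at hP)

omit [DecidableEq K] in
/-- The `y`-coordinate of an affine point with `v`-integral `x`-coordinate is `v`-integral. -/
theorem v_y_le_one_of_v_x_le_one (hW : IsIntegralAt v W) {x y : K} (h : W.Equation x y)
    (hx : v x ≤ 1) : v y ≤ 1 := by
  obtain ⟨h1, h2, h3, h4, h6⟩ := hW
  rw [Affine.equation_iff] at h
  by_contra hy
  have hy1 : 1 < v y := not_le.mp hy
  have hy0 : v y ≠ 0 := (zero_lt_one.trans hy1).ne'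
  -- `y² = -(a₁ x + a₃) y + (x³ + a₂ x² + a₄ x + a₆)`, so `v y ^ 2 ≤ v y`
  have e : y ^ 2 = -((W.a₁ * x + W.a₃) * y) + (x ^ 3 + W.a₂ * x ^ 2 + W.a₄ * x + W.a₆) := by
    linear_combination h
  have hA : v ((W.a₁ * x + W.a₃) * y) ≤ v y := by
    rw [map_mul]
    exact mul_le_of_le_one_left' (v_add_le_one (v_mul_le_one h1 hx) h3)
  have hB : v (x ^ 3 + W.a₂ * x ^ 2 + W.a₄ * x + W.a₆) ≤ v y :=
    (v_add_le_one (v_add_le_one (v_add_le_one (v_pow_le_one hx 3)
      (v_mul_le_one h2 (v_pow_le_one hx 2))) (v_mul_le_one h4 hx)) h6).trans hy1.le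
  have hle : v (y ^ 2) ≤ v y := by
    rw [e]
    exact v.map_add_le (by rwa [v.map_neg]) hB
  rw [map_pow, sq] at hle
  have : v y * v y ≤ 1 * v y := by rwa [one_mul]
  have := le_of_mul_le_mul_right this (zero_lt_iff.mpr hy0)
  exact hy this

end main

section subring

variable {K : Type*} [Field K] [DecidableEq K] {W : Affine K}

/-- `ValuationSubring` form: if the coefficients of `W` lie in `A`, the natural number `n` is a
unit of `A` (i.e. `(n : K) ∉ A.nonunits`), and `n • (x, y) = 0`, then `x ∈ A` and `y ∈ A`. -/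
theorem mem_of_nsmul_eq_zero (A : ValuationSubring K)
    (h₁ : W.a₁ ∈ A) (h₂ : W.a₂ ∈ A) (h₃ : W.a₃ ∈ A) (h₄ : W.a₄ ∈ A) (h₆ : W.a₆ ∈ A)
    {x y : K} (h : W.Nonsingular x y) {n : ℕ} (hn : (n : K) ∉ A.nonunits)
    (hP : n • Point.some x y h = 0) : x ∈ A ∧ y ∈ A := by
  have hW : IsIntegralAt A.valuation W :=
    ⟨(A.valuation_le_one_iff _).mpr h₁, (A.valuation_le_one_iff _).mpr h₂,
      (A.valuation_le_one_iff _).mpr h₃, (A.valuation_le_one_iff _).mpr h₄,
      (A.valuation_le_one_iff _).mpr h₆⟩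
  have hn1 : A.valuation (n : K) = 1 := by
    refine le_antisymm (v_natCast_le_one _ n) (not_lt.mp ?_)
    rwa [← ValuationSubring.mem_nonunits_iff]
  have hx := v_x_le_one_of_nsmul_eq_zero hW h hn1 hP
  exact ⟨(A.valuation_le_one_iff _).mp hx,
    (A.valuation_le_one_iff _).mp (v_y_le_one_of_v_x_le_one hW h.1 hx)⟩

end subring

end Fermat.Agent.S05.FG
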