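import Fermat.Agent.S05.SameRed
import Fermat.Agent.S05.FG

/-!
# (C1b): the kernel of reduction `E₁` has no `n`-torsion for `n` a `v`-unit

Adapter exposing `Fermat.Agent.S05.FG` in the shared vocabulary of
`Fermat.Agent.S05.SameRed` (`IntegralCoeffs`, `InKer`).
-/

set_option autoImplicit false

namespace Fermat.Agent.S05.C1b

open WeierstrassCurve WeierstrassCurve.Affine
open Fermat.Agent.S05

variable {K : Type*} [Field K] [DecidableEq K]
  {Γ₀ : Type*} [LinearOrderedCommGroupWithZero Γ₀]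
  {W : Affine K} {v : Valuation K Γ₀}

omit [DecidableEq K] in
lemma isIntegralAt_of_integralCoeffs (hW : SameRed.IntegralCoeffs W v) : FG.IsIntegralAt v W :=
  ⟨hW.a₁, hW.a₂, hW.a₃, hW.a₄, hW.a₆⟩

/-- **(C1b)** `E₁` has no `n`-torsion when `v n = 1` (no hypothesis on `v 2`, `n` arbitrary). -/
theorem eq_zero_of_inKer_of_nsmul_eq_zero (hW : SameRed.IntegralCoeffs W v) (n : ℕ)
    (hn : v (n : K) = 1) (P : W.Point) (hP : SameRed.InKer W v P) (h : n • P = 0) : P = 0 := by
  rcases P with _ | ⟨x, y, hxy⟩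
  · rfl
  · exact absurd (FG.v_x_le_one_of_nsmul_eq_zero (isIntegralAt_of_integralCoeffs hW) hxy hn h)
      (not_le.mpr hP)

/-- Integer-multiple form of (C1b), as consumed by `GoodRed`. -/
theorem eq_zero_of_inKer_of_zsmul_eq_zero (hW : SameRed.IntegralCoeffs W v) (n : ℕ)
    (hn : v (n : K) = 1) (P : W.Point) (hP : SameRed.InKer W v P) (h : (n : ℤ) • P = 0) :
    P = 0 :=
  eq_zero_of_inKer_of_nsmul_eq_zero hW n hn P hP (by rwa [natCast_zsmul] at h)

/-- A torsion point of order prime to the residue characteristic is integral. -/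
theorem val_x_le_one_of_nsmul_eq_zero (hW : SameRed.IntegralCoeffs W v) {n : ℕ}
    (hn : v (n : K) = 1) {x y : K} (hxy : W.Nonsingular x y) (h : n • Point.some x y hxy = 0) :
    v x ≤ 1 ∧ v y ≤ 1 := by
  have hx := FG.v_x_le_one_of_nsmul_eq_zero (isIntegralAt_of_integralCoeffs hW) hxy hn h
  exact ⟨hx, FG.v_y_le_one_of_v_x_le_one (isIntegralAt_of_integralCoeffs hW) hxy.1 hx⟩

end Fermat.Agent.S05.C1b
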