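import Mathlib.AlgebraicGeometry.EllipticCurve.Affine.Point
import Mathlib.RingTheory.Valuation.ValuationSubring
import Mathlib.RingTheory.Valuation.RamificationGroup
import Mathlib.Tactic

/-!
# S05, piece (C2): integral points with the same nonsingular reduction differ by a point of `E₁`

Abstract setting: `K` a field, `v : Valuation K Γ₀`, `W` a Weierstrass curve over `K` with
`v`-integral coefficients.
-/

set_option autoImplicit false

namespace Fermat.Agent.S05.SameRed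

open WeierstrassCurve WeierstrassCurve.Affine

set_option linter.unusedSectionVars false
set_option linter.unusedVariables false

variable {K : Type*} [Field K] [DecidableEq K]
  {Γ₀ : Type*} [LinearOrderedCommGroupWithZero Γ₀]

/-- The coefficients of `W` are `v`-integral. -/
structure IntegralCoeffs (W : Affine K) (v : Valuation K Γ₀) : Prop where
  a₁ : v W.a₁ ≤ 1
  a₂ : v W.a₂ ≤ 1
  a₃ : v W.a₃ ≤ 1
  a₄ : v W.a₄ ≤ 1
  a₆ : v W.a₆ ≤ 1

/-- The "kernel of reduction" `E₁`: the point at infinity together with the affine points whose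
`x`-coordinate is not `v`-integral. -/
def InKer (W : Affine K) (v : Valuation K Γ₀) : W.Point → Prop
  | .zero => True
  | .some x _ _ => 1 < v x

variable {W : Affine K} {v : Valuation K Γ₀}

@[simp] lemma inKer_zero : InKer W v 0 := trivial

@[simp] lemma inKer_some {x y : K} (h : W.Nonsingular x y) :
    InKer W v (Point.some x y h) ↔ 1 < v x := Iff.rfl

lemma val_add_le_one {a b : K} (ha : v a ≤ 1) (hb : v b ≤ 1) : v (a + b) ≤ 1 :=
  (v.map_add a b).trans (max_le ha hb)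

lemma val_sub_le_one {a b : K} (ha : v a ≤ 1) (hb : v b ≤ 1) : v (a - b) ≤ 1 :=
  (v.map_sub a b).trans (max_le ha hb)

lemma val_mul_le_one {a b : K} (ha : v a ≤ 1) (hb : v b ≤ 1) : v (a * b) ≤ 1 := by
  rw [map_mul]; exact mul_le_one' ha hb

lemma val_mul_lt_one_left {a b : K} (ha : v a < 1) (hb : v b ≤ 1) : v (a * b) < 1 := by
  rw [map_mul]; exact (mul_le_of_le_one_right' hb).trans_lt ha

lemma val_mul_lt_one_right {a b : K} (ha : v a ≤ 1) (hb : v b < 1) : v (a * b) < 1 := by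
  rw [map_mul]; exact (mul_le_of_le_one_left' ha).trans_lt hb

lemma val_add_lt_one {a b : K} (ha : v a < 1) (hb : v b < 1) : v (a + b) < 1 :=
  (v.map_add a b).trans_lt (max_lt ha hb)

lemma val_natCast_le_one (n : ℕ) : v (n : K) ≤ 1 := by
  induction n with
  | zero => simp
  | succ n ih => push_cast; exact val_add_le_one ih (by simp)

/-- If `a ≡ b mod 𝔪` and `v b = 1`-ness: `v a = 1 ↔ v b = 1` is what we need in the form:
`v (a - b) < 1` and `v a = 1` imply `v b = 1`. -/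
lemma val_eq_one_of_sub_lt {a b : K} (hab : v (a - b) < 1) (ha : v a = 1) : v b = 1 := by
  have : b = a + -(a - b) := by ring
  rw [this, v.map_add_eq_of_lt_left (by rwa [Valuation.map_neg, ha]), ha]

lemma val_lt_one_of_sub_lt {a b : K} (hab : v (a - b) < 1) (ha : v a < 1) : v b < 1 := by
  have : b = a + -(a - b) := by ring
  rw [this]
  exact val_add_lt_one ha (by rwa [Valuation.map_neg])

/-- If the slope is non-integral, then so is the `x`-coordinate of the sum. -/
theorem one_lt_val_addX (hW : IntegralCoeffs W v) {x₁ x₂ ℓ : K} (hx₁ : v x₁ ≤ 1)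
    (hx₂ : v x₂ ≤ 1) (hℓ : 1 < v ℓ) : 1 < v (W.addX x₁ x₂ ℓ) := by
  have hℓ0 : 0 < v ℓ := lt_trans zero_lt_one hℓ
  have h2 : v ℓ < v (ℓ ^ 2) := by
    rw [map_pow, pow_two]
    exact lt_mul_of_one_lt_left hℓ0 hℓ
  have h3 : v (W.a₁ * ℓ) ≤ v ℓ := by
    rw [map_mul]; exact mul_le_of_le_one_left' hW.a₁
  have h4 : v (ℓ ^ 2 + W.a₁ * ℓ) = v (ℓ ^ 2) :=
    v.map_add_eq_of_lt_left (h3.trans_lt h2)
  have h5 : v (W.a₂ + x₁ + x₂) ≤ 1 := val_add_le_one (val_add_le_one hW.a₂ hx₁) hx₂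
  have h6 : W.addX x₁ x₂ ℓ = (ℓ ^ 2 + W.a₁ * ℓ) + -(W.a₂ + x₁ + x₂) := by
    simp only [Affine.addX]; ring
  rw [h6, v.map_add_eq_of_lt_left (by
    rw [Valuation.map_neg, h4]; exact h5.trans_lt (hℓ.trans h2)), h4]
  exact hℓ.trans h2

/-- **(C2)** Two integral affine points whose coordinates are congruent modulo the maximal ideal
and whose common reduction is nonsingular differ by a point in the kernel of reduction. -/
theorem inKer_sub_of_same_reduction (hW : IntegralCoeffs W v) {x₁ y₁ x₂ y₂ : K}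
    (h₁ : W.Nonsingular x₁ y₁) (h₂ : W.Nonsingular x₂ y₂)
    (hx₁ : v x₁ ≤ 1) (hy₁ : v y₁ ≤ 1) (hx₂ : v x₂ ≤ 1) (hy₂ : v y₂ ≤ 1)
    (hx : v (x₁ - x₂) < 1) (hy : v (y₁ - y₂) < 1)
    (hns : v (W.a₁ * y₁ - (3 * x₁ ^ 2 + 2 * W.a₂ * x₁ + W.a₄)) = 1 ∨
      v (2 * y₁ + W.a₁ * x₁ + W.a₃) = 1) :
    InKer W v (Point.some x₁ y₁ h₁ - Point.some x₂ y₂ h₂) := by
  rw [sub_eq_add_neg, Point.neg_some]
  -- abbreviations
  set n : K := y₁ + y₂ + W.a₁ * x₂ + W.a₃ with hn
  set g : K := x₁ ^ 2 + x₁ * x₂ + x₂ ^ 2 + W.a₂ * (x₁ + x₂) + W.a₄ - W.a₁ * y₁ with hg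
  have hnegY : W.negY x₂ y₂ = -y₂ - W.a₁ * x₂ - W.a₃ := rfl
  have e₁ := (Affine.equation_iff x₁ y₁).mp h₁.1
  have e₂ := (Affine.equation_iff x₂ y₂).mp h₂.1
  -- the key identity
  have key : (y₁ - y₂) * n = (x₁ - x₂) * g := by
    simp only [hn, hg]; linear_combination e₁ - e₂
  -- congruences
  have hn_cong : v (n - (2 * y₁ + W.a₁ * x₁ + W.a₃)) < 1 := by
    have : n - (2 * y₁ + W.a₁ * x₁ + W.a₃) = -(y₁ - y₂) + -(W.a₁ * (x₁ - x₂)) := by
      simp only [hn]; ring
    rw [this]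
    exact val_add_lt_one (by rwa [Valuation.map_neg])
      (by rw [Valuation.map_neg]; exact val_mul_lt_one_right hW.a₁ hx)
  have hg_cong : v (g + (W.a₁ * y₁ - (3 * x₁ ^ 2 + 2 * W.a₂ * x₁ + W.a₄))) < 1 := by
    have : g + (W.a₁ * y₁ - (3 * x₁ ^ 2 + 2 * W.a₂ * x₁ + W.a₄)) =
        -((x₁ - x₂) * (x₁ + (x₁ + x₂) + W.a₂)) := by
      simp only [hg]; ring
    rw [this, Valuation.map_neg]
    exact val_mul_lt_one_left hx
      (val_add_le_one (val_add_le_one hx₁ (val_add_le_one hx₁ hx₂)) hW.a₂)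
  by_cases hxx : x₁ = x₂
  · -- same `x`-coordinate
    rcases Affine.Y_eq_of_X_eq h₁.1 h₂.1 hxx with hyy | hyy
    · -- `P₁ = P₂`
      subst hxx; subst hyy
      rw [Point.add_of_Y_eq rfl (by rw [Affine.negY_negY])]
      exact inKer_zero
    · -- `P₁ = -P₂`, so the difference is `2 P₁`
      subst hxx
      by_cases hyy' : y₁ = y₂
      · subst hyy'
        rw [Point.add_of_Y_eq rfl (by rw [Affine.negY_negY])]
        exact inKer_zero
      · have hne : y₁ ≠ W.negY x₁ (W.negY x₁ y₂) := by rwa [Affine.negY_negY]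
        rw [Point.add_of_Y_ne hne, inKer_some]
        apply one_lt_val_addX hW hx₁ hx₁
        rw [Affine.slope_of_Y_ne rfl hne]
        -- denominator: `y₁ - negY x₁ y₁ = 2 y₁ + a₁ x₁ + a₃ = y₁ - y₂`
        have hden : y₁ - W.negY x₁ y₁ = y₁ - y₂ := by
          rw [hyy, hnegY]; simp only [Affine.negY]; ring
        have hden' : 2 * y₁ + W.a₁ * x₁ + W.a₃ = y₁ - y₂ := by
          rw [hyy, hnegY]; ring
        have hY : v (2 * y₁ + W.a₁ * x₁ + W.a₃) < 1 := by rw [hden']; exact hy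
        have hX : v (W.a₁ * y₁ - (3 * x₁ ^ 2 + 2 * W.a₂ * x₁ + W.a₄)) = 1 := by
          rcases hns with h | h
          · exact h
          · exact absurd h hY.ne
        have hnum : v (3 * x₁ ^ 2 + 2 * W.a₂ * x₁ + W.a₄ - W.a₁ * y₁) = 1 := by
          rw [← Valuation.map_neg, neg_sub]; exact hX
        have hd0 : y₁ - y₂ ≠ 0 := sub_ne_zero.mpr hyy'
        rw [hden, map_div₀, hnum, one_div]
        exact (one_lt_inv₀ ((Valuation.pos_iff v).mpr hd0)).mpr hy
  · -- distinct `x`-coordinates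
    rw [Point.add_of_X_ne hxx, inKer_some]
    apply one_lt_val_addX hW hx₁ hx₂
    rw [Affine.slope_of_X_ne hxx]
    have hd0 : x₁ - x₂ ≠ 0 := sub_ne_zero.mpr hxx
    have hnum : y₁ - W.negY x₂ y₂ = n := by rw [hnegY]; simp only [hn]; ring
    rw [hnum, map_div₀, one_lt_div₀ ((Valuation.pos_iff v).mpr hd0)]
    by_cases hY : v (2 * y₁ + W.a₁ * x₁ + W.a₃) = 1
    · -- `n` is a unit
      have hn1 : v n = 1 := by
        have h := hn_cong
        rw [← Valuation.map_neg, neg_sub] at h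
        exact val_eq_one_of_sub_lt h hY
      rw [hn1]; exact hx
    · have hX : v (W.a₁ * y₁ - (3 * x₁ ^ 2 + 2 * W.a₂ * x₁ + W.a₄)) = 1 :=
        hns.resolve_right hY
      -- `g` is a unit
      have hg1 : v g = 1 := by
        have h : v (-(W.a₁ * y₁ - (3 * x₁ ^ 2 + 2 * W.a₂ * x₁ + W.a₄)) - g) < 1 := by
          rw [← Valuation.map_neg]
          convert hg_cong using 2; ring
        have h' : v (-(W.a₁ * y₁ - (3 * x₁ ^ 2 + 2 * W.a₂ * x₁ + W.a₄))) = 1 := by
          rw [Valuation.map_neg]; exact hX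
        exact val_eq_one_of_sub_lt h h'
      have hvkey : v (y₁ - y₂) * v n = v (x₁ - x₂) := by
        rw [← map_mul, key, map_mul, hg1, mul_one]
      have hn0 : n ≠ 0 := by
        intro h0
        rw [h0, mul_zero] at key
        rcases mul_eq_zero.mp key.symm with h | h
        · exact hd0 h
        · rw [h, map_zero] at hg1; exact zero_ne_one hg1
      have hvn : 0 < v n := (Valuation.pos_iff v).mpr hn0
      rw [← hvkey]
      exact mul_lt_of_lt_one_left hvn hy

end Fermat.Agent.S05.SameRed
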