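import Fermat.Agent.S05.SameRed
import Fermat.Prelude.Def_FLTPrelim_GaloisRep

/-!
# S05: inertia fixes torsion points with nonsingular reduction (abstract form)
-/

set_option autoImplicit false
set_option linter.unusedSectionVars false
set_option linter.unusedVariables false

namespace Fermat.Agent.S05.GoodRed

open WeierstrassCurve WeierstrassCurve.Affine Fermat.Agent.S05.SameRed

section general

variable {K : Type*} [Field K] [DecidableEq K]
  {Γ₀ : Type*} [LinearOrderedCommGroupWithZero Γ₀]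
  {W : Affine K} {v : Valuation K Γ₀}

/-- On a curve with integral coefficients, a point with integral `x` has integral `y`. -/
lemma val_y_le_one (hW : IntegralCoeffs W v) {x y : K} (h : W.Equation x y) (hx : v x ≤ 1) :
    v y ≤ 1 := by
  by_contra hy
  rw [not_le] at hy
  have e := (Affine.equation_iff x y).mp h
  have hy0 : 0 < v y := lt_trans zero_lt_one hy
  have h2 : v y < v (y ^ 2) := by
    rw [map_pow, pow_two]; exact lt_mul_of_one_lt_left hy0 hy
  have h3 : v (W.a₁ * x * y + W.a₃ * y) ≤ v y := by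
    have : W.a₁ * x * y + W.a₃ * y = (W.a₁ * x + W.a₃) * y := by ring
    rw [this, map_mul]
    exact mul_le_of_le_one_left' (val_add_le_one (val_mul_le_one hW.a₁ hx) hW.a₃)
  have h4 : v (y ^ 2 + W.a₁ * x * y + W.a₃ * y) = v (y ^ 2) := by
    rw [add_assoc]; exact v.map_add_eq_of_lt_left (h3.trans_lt h2)
  have h5 : v (x ^ 3 + W.a₂ * x ^ 2 + W.a₄ * x + W.a₆) ≤ 1 := by
    have hx2 : v (x ^ 2) ≤ 1 := by rw [pow_two]; exact val_mul_le_one hx hx
    have hx3 : v (x ^ 3) ≤ 1 := by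
      have : x ^ 3 = x ^ 2 * x := by ring
      rw [this]; exact val_mul_le_one hx2 hx
    exact val_add_le_one (val_add_le_one (val_add_le_one hx3 (val_mul_le_one hW.a₂ hx2))
      (val_mul_le_one hW.a₄ hx)) hW.a₆
  rw [e] at h4
  rw [h4] at h5
  exact absurd (hy.trans h2) (not_lt.mpr h5)

/-- The discriminant lies in the ideal generated by `a₃, a₄, a₆`. -/
lemma Δ_eq_a₃_a₄_a₆ {R : Type*} [CommRing R] (W : WeierstrassCurve R) :
    W.Δ = W.a₃ * (-W.b₂ ^ 2 * (-W.a₁ * W.a₄ + W.a₂ * W.a₃) - 8 * W.b₄ ^ 2 * W.a₁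
        - 27 * W.a₃ * W.b₆ + 9 * W.b₂ * W.b₆ * W.a₁)
      + W.a₄ * (W.b₂ ^ 2 * W.a₄ - 16 * W.b₄ ^ 2 + 18 * W.b₂ * W.b₆)
      + W.a₆ * (-W.b₂ ^ 3 - 108 * W.b₆) := by
  simp only [WeierstrassCurve.Δ, WeierstrassCurve.b₂, WeierstrassCurve.b₄, WeierstrassCurve.b₆,
    WeierstrassCurve.b₈]
  ring

/-- If the discriminant is a unit, every integral point has nonsingular reduction. -/
theorem nonsingular_reduction_of_val_Δ (hW : IntegralCoeffs W v) (hΔ : v W.Δ = 1) {x y : K}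
    (h : W.Equation x y) (hx : v x ≤ 1) :
    v (W.a₁ * y - (3 * x ^ 2 + 2 * W.a₂ * x + W.a₄)) = 1 ∨
      v (2 * y + W.a₁ * x + W.a₃) = 1 := by
  have hy : v y ≤ 1 := val_y_le_one hW h hx
  -- work in the subring of integers
  let O : Subring K := v.integer
  have mO : ∀ {t : K}, t ∈ O ↔ v t ≤ 1 := Iff.rfl
  have hxO : x ∈ O := hx
  have hyO : y ∈ O := hy
  have h1O : W.a₁ ∈ O := hW.a₁
  have h2O : W.a₂ ∈ O := hW.a₂
  have h3O : W.a₃ ∈ O := hW.a₃
  have h4O : W.a₄ ∈ O := hW.a₄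
  have h6O : W.a₆ ∈ O := hW.a₆
  have hX : v (W.a₁ * y - (3 * x ^ 2 + 2 * W.a₂ * x + W.a₄)) ≤ 1 := by
    change _ ∈ O
    exact sub_mem (mul_mem h1O hyO) (add_mem (add_mem (mul_mem (ofNat_mem O 3) (pow_mem hxO 2))
      (mul_mem (mul_mem (ofNat_mem O 2) h2O) hxO)) h4O)
  have hY : v (2 * y + W.a₁ * x + W.a₃) ≤ 1 := by
    change _ ∈ O
    exact add_mem (add_mem (mul_mem (ofNat_mem O 2) hyO) (mul_mem h1O hxO)) h3O
  by_contra hcon
  rw [not_or] at hcon
  have hX' : v (W.a₁ * y - (3 * x ^ 2 + 2 * W.a₂ * x + W.a₄)) < 1 := lt_of_le_of_ne hX hcon.1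
  have hY' : v (2 * y + W.a₁ * x + W.a₃) < 1 := lt_of_le_of_ne hY hcon.2
  -- translated curve
  set W' : WeierstrassCurve K := VariableChange.mk 1 x 0 y • W with hW'
  have hΔ' : W'.Δ = W.Δ := by
    rw [hW', variableChange_Δ]; simp
  have ha₁ : W'.a₁ = W.a₁ := by rw [hW', variableChange_a₁]; simp
  have ha₂ : W'.a₂ = W.a₂ + 3 * x := by rw [hW', variableChange_a₂]; simp
  have ha₃ : W'.a₃ = 2 * y + W.a₁ * x + W.a₃ := by rw [hW', variableChange_a₃]; simp; ring
  have ha₄ : W'.a₄ = -(W.a₁ * y - (3 * x ^ 2 + 2 * W.a₂ * x + W.a₄)) := by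
    rw [hW', variableChange_a₄]; simp; ring
  have ha₆ : W'.a₆ = 0 := by
    rw [hW', variableChange_a₆]; simp
    have e := (Affine.equation_iff x y).mp h
    linear_combination -e
  have h1O' : W'.a₁ ∈ O := by rw [ha₁]; exact h1O
  have h2O' : W'.a₂ ∈ O := by rw [ha₂]; exact add_mem h2O (mul_mem (ofNat_mem O 3) hxO)
  have h3O' : W'.a₃ ∈ O := by rw [ha₃]; exact hY
  have h4O' : W'.a₄ ∈ O := by rw [ha₄]; exact neg_mem hX
  have hb₂ : W'.b₂ ∈ O := by
    simp only [WeierstrassCurve.b₂]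
    exact add_mem (pow_mem h1O' 2) (mul_mem (ofNat_mem O 4) h2O')
  have hb₄ : W'.b₄ ∈ O := by
    simp only [WeierstrassCurve.b₄]
    exact add_mem (mul_mem (ofNat_mem O 2) h4O') (mul_mem h1O' h3O')
  have hb₆ : W'.b₆ ∈ O := by
    simp only [WeierstrassCurve.b₆, ha₆]
    exact add_mem (pow_mem h3O' 2) (mul_mem (ofNat_mem O 4) (zero_mem O))
  have hP : (-W'.b₂ ^ 2 * (-W'.a₁ * W'.a₄ + W'.a₂ * W'.a₃) - 8 * W'.b₄ ^ 2 * W'.a₁
        - 27 * W'.a₃ * W'.b₆ + 9 * W'.b₂ * W'.b₆ * W'.a₁) ∈ O := by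
    refine add_mem (sub_mem (sub_mem (mul_mem (neg_mem (pow_mem hb₂ 2))
      (add_mem (mul_mem (neg_mem h1O') h4O') (mul_mem h2O' h3O')))
      (mul_mem (mul_mem (ofNat_mem O 8) (pow_mem hb₄ 2)) h1O'))
      (mul_mem (mul_mem (ofNat_mem O 27) h3O') hb₆))
      (mul_mem (mul_mem (mul_mem (ofNat_mem O 9) hb₂) hb₆) h1O')
  have hQ : (W'.b₂ ^ 2 * W'.a₄ - 16 * W'.b₄ ^ 2 + 18 * W'.b₂ * W'.b₆) ∈ O := by
    refine add_mem (sub_mem (mul_mem (pow_mem hb₂ 2) h4O')
      (mul_mem (ofNat_mem O 16) (pow_mem hb₄ 2)))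
      (mul_mem (mul_mem (ofNat_mem O 18) hb₂) hb₆)
  have hlt : v W'.Δ < 1 := by
    rw [Δ_eq_a₃_a₄_a₆ W', ha₆, zero_mul, add_zero]
    refine val_add_lt_one (val_mul_lt_one_left ?_ hP) (val_mul_lt_one_left ?_ hQ)
    · rw [ha₃]; exact hY'
    · rw [ha₄, Valuation.map_neg]; exact hX'
  rw [hΔ', hΔ] at hlt
  exact lt_irrefl _ hlt

end general

section galois

variable {R S K : Type*} [CommRing R] [CommRing S] [Field K] [DecidableEq K]
  [Algebra R S] [Algebra R K] [Algebra S K] [IsScalarTower R S K]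
  {Γ₀ : Type*} [LinearOrderedCommGroupWithZero Γ₀]
  {W' : Affine R} {v : Valuation K Γ₀}

lemma smul_some (σ : K ≃ₐ[S] K) {x y : K} (h : (W'⁄K).Nonsingular x y) :
    σ • Point.some x y h = Point.some (σ x) (σ y)
      ((W'.baseChange_nonsingular σ.toAlgHom.injective x y).mpr h) :=
  rfl

lemma val_apply_le_one {σ : K ≃ₐ[S] K} (hσ : ∀ t : K, v t ≤ 1 → v (σ t - t) < 1) {t : K}
    (ht : v t ≤ 1) : v (σ t) ≤ 1 := by
  have : σ t = (σ t - t) + t := by ring
  rw [this]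
  exact val_add_le_one (hσ t ht).le ht

/-- **Inertia fixes torsion points with nonsingular reduction.**
`hσ` says that `σ` acts trivially on the residue field; `hC1` says that the kernel of reduction
has no `n`-torsion. -/
theorem smul_eq_self_of_nonsingular_reduction (hW : IntegralCoeffs (W'⁄K) v)
    (σ : K ≃ₐ[S] K) (hσ : ∀ t : K, v t ≤ 1 → v (σ t - t) < 1) (n : ℤ)
    (hC1 : ∀ Q : (W'⁄K).Point, InKer (W'⁄K) v Q → n • Q = 0 → Q = 0)
    {x y : K} (h : (W'⁄K).Nonsingular x y) (hx : v x ≤ 1)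
    (hns : v ((W'⁄K).a₁ * y - (3 * x ^ 2 + 2 * (W'⁄K).a₂ * x + (W'⁄K).a₄)) = 1 ∨
      v (2 * y + (W'⁄K).a₁ * x + (W'⁄K).a₃) = 1)
    (hP : n • Point.some x y h = 0) :
    σ • Point.some x y h = Point.some x y h := by
  have hy : v y ≤ 1 := val_y_le_one hW h.1 hx
  have hker : InKer (W'⁄K) v (Point.some x y h - σ • Point.some x y h) := by
    rw [smul_some]
    refine inKer_sub_of_same_reduction hW h _ hx hy (val_apply_le_one hσ hx)
      (val_apply_le_one hσ hy) ?_ ?_ hns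
    · rw [← Valuation.map_neg, neg_sub]; exact hσ x hx
    · rw [← Valuation.map_neg, neg_sub]; exact hσ y hy
  have hn : n • (Point.some x y h - σ • Point.some x y h) = 0 := by
    rw [smul_sub, ← Point.algEquiv_smul_zsmul, hP, smul_zero, sub_zero]
  have := hC1 _ hker hn
  exact (sub_eq_zero.mp this).symm

/-- **Good reduction case**: if the discriminant is a `v`-unit, `σ` acts trivially on the residue
field and the kernel of reduction has no `n`-torsion, then `σ` fixes every `n`-torsion point. -/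
theorem smul_eq_self_of_good_reduction (hW : IntegralCoeffs (W'⁄K) v)
    (hΔ : v (W'⁄K).Δ = 1)
    (σ : K ≃ₐ[S] K) (hσ : ∀ t : K, v t ≤ 1 → v (σ t - t) < 1) (n : ℤ)
    (hC1 : ∀ Q : (W'⁄K).Point, InKer (W'⁄K) v Q → n • Q = 0 → Q = 0)
    (P : (W'⁄K).Point) (hP : n • P = 0) : σ • P = P := by
  rcases P with _ | ⟨x, y, h⟩
  · exact smul_zero σ
  · have hx : v x ≤ 1 := by
      by_contra hx
      rw [not_le] at hx
      exact Point.some_ne_zero h (hC1 _ ((inKer_some h).mpr hx) hP)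
    exact smul_eq_self_of_nonsingular_reduction hW σ hσ n hC1 h hx
      (nonsingular_reduction_of_val_Δ hW hΔ h.1 hx) hP

end galois

end Fermat.Agent.S05.GoodRed
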