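import Mathlib.AlgebraicGeometry.EllipticCurve.Affine.Point
import Mathlib.Tactic

/-!
# x-only addition formulas for Mathlib's affine points on a Weierstrass curve

For a Weierstrass curve `W` over a field, with `twoF x = 4x³ + b₂x² + 2b₄x + b₆` and
`eta x y = 2y + a₁x + a₃` (so `eta² = twoF` on the curve), we prove, for affine points
`P = (x₁, y₁)`, `Q = (x₂, y₂)` with `x₁ ≠ x₂`:

* `4 (x₁ - x₂)² x(P + Q) = 2 sumNum - 2 η₁ η₂`,
* `4 (x₁ - x₂)² x(P - Q) = 2 sumNum + 2 η₁ η₂`,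
* `(x₁ - x₂)² (x(P + Q) + x(P - Q)) = sumNum`,
* `(x₁ - x₂)² (x(P + Q) x(P - Q)) = prodNum`,

and the duplication formula `twoF x * x(2P) = dupNum x`.
-/

set_option autoImplicit false

namespace Fermat.Agent.S05.XOnly

open WeierstrassCurve

variable {F : Type*} [Field F] (W : WeierstrassCurve.Affine F)

/-- `4x³ + b₂x² + 2b₄x + b₆`, the square of `2y + a₁x + a₃` on the curve. -/
def twoF (x : F) : F := 4 * x ^ 3 + W.b₂ * x ^ 2 + 2 * W.b₄ * x + W.b₆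

/-- `2y + a₁x + a₃`. -/
def eta (x y : F) : F := 2 * y + W.a₁ * x + W.a₃

/-- Numerator of `x(P+Q) + x(P-Q)`. -/
def sumNum (x₁ x₂ : F) : F :=
  2 * (x₁ + x₂) * (x₁ * x₂) + W.b₂ * (x₁ * x₂) + W.b₄ * (x₁ + x₂) + W.b₆

/-- Numerator of `x(P+Q) * x(P-Q)`. -/
def prodNum (x₁ x₂ : F) : F :=
  (x₁ * x₂) ^ 2 - W.b₄ * (x₁ * x₂) - W.b₆ * (x₁ + x₂) - W.b₈

/-- Numerator of `x(2P)`. -/
def dupNum (x : F) : F := x ^ 4 - W.b₄ * x ^ 2 - 2 * W.b₆ * x - W.b₈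

lemma eta_sq {x y : F} (h : W.Equation x y) : eta W x y ^ 2 = twoF W x := by
  rw [Affine.equation_iff] at h
  simp only [eta, twoF, WeierstrassCurve.b₂, WeierstrassCurve.b₄, WeierstrassCurve.b₆]
  linear_combination 4 * h

lemma eta_negY (x y : F) : eta W x (W.negY x y) = - eta W x y := by
  simp only [eta, Affine.negY]
  ring

lemma sumNum_sq_sub (x₁ x₂ : F) :
    sumNum W x₁ x₂ ^ 2 - twoF W x₁ * twoF W x₂ = 4 * (x₁ - x₂) ^ 2 * prodNum W x₁ x₂ := by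
  have hb := W.b_relation
  simp only [sumNum, twoF, prodNum]
  linear_combination ((x₁ - x₂) ^ 2) * hb

lemma eta_ne_zero_of_Y_ne {x y : F} (hy : y ≠ W.negY x y) : eta W x y ≠ 0 := by
  intro h0
  apply hy
  simp only [eta] at h0
  simp only [Affine.negY]
  linear_combination h0

lemma eta_eq_zero_of_Y_eq {x y : F} (hy : y = W.negY x y) : eta W x y = 0 := by
  simp only [Affine.negY] at hy
  simp only [eta]
  linear_combination hy

lemma Y_eq_negY_of_eta_eq_zero {x y : F} (h0 : eta W x y = 0) : y = W.negY x y := by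
  by_contra hy
  exact eta_ne_zero_of_Y_ne W hy h0

variable [DecidableEq F]

lemma addX_of_X_ne {x₁ x₂ y₁ y₂ : F} (hx : x₁ ≠ x₂) (h₁ : W.Equation x₁ y₁)
    (h₂ : W.Equation x₂ y₂) :
    4 * (x₁ - x₂) ^ 2 * W.addX x₁ x₂ (W.slope x₁ x₂ y₁ y₂) =
      2 * sumNum W x₁ x₂ - 2 * eta W x₁ y₁ * eta W x₂ y₂ := by
  rw [Affine.equation_iff] at h₁ h₂
  have hd : x₁ - x₂ ≠ 0 := sub_ne_zero.mpr hx
  rw [Affine.slope_of_X_ne hx]
  simp only [Affine.addX, sumNum, eta, WeierstrassCurve.b₂, WeierstrassCurve.b₄,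
    WeierstrassCurve.b₆]
  field_simp
  linear_combination 4 * h₁ + 4 * h₂

lemma addX_neg_of_X_ne {x₁ x₂ y₁ y₂ : F} (hx : x₁ ≠ x₂) (h₁ : W.Equation x₁ y₁)
    (h₂ : W.Equation x₂ y₂) :
    4 * (x₁ - x₂) ^ 2 * W.addX x₁ x₂ (W.slope x₁ x₂ y₁ (W.negY x₂ y₂)) =
      2 * sumNum W x₁ x₂ + 2 * eta W x₁ y₁ * eta W x₂ y₂ := by
  rw [addX_of_X_ne W hx h₁ ((Affine.equation_neg x₂ y₂).mpr h₂), eta_negY]
  ring

lemma slope_mul_eta {x y : F} (hy : y ≠ W.negY x y) :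
    W.slope x x y y * eta W x y = 3 * x ^ 2 + 2 * W.a₂ * x + W.a₄ - W.a₁ * y := by
  have hη : eta W x y ≠ 0 := eta_ne_zero_of_Y_ne W hy
  have h2 : y - W.negY x y = eta W x y := by
    simp only [eta, Affine.negY]; ring
  rw [Affine.slope_of_Y_ne rfl hy, h2, div_mul_cancel₀ _ hη]

lemma addX_of_Y_ne {x y : F} (h : W.Equation x y) (hy : y ≠ W.negY x y) :
    twoF W x * W.addX x x (W.slope x x y y) = dupNum W x := by
  have hℓ := slope_mul_eta W hy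
  rw [← eta_sq W h]
  rw [Affine.equation_iff] at h
  generalize W.slope x x y y = ℓ at hℓ ⊢
  simp only [Affine.addX, dupNum, eta, WeierstrassCurve.b₄,
    WeierstrassCurve.b₆, WeierstrassCurve.b₈] at hℓ ⊢
  linear_combination (ℓ * (2 * y + W.a₁ * x + W.a₃) + (3 * x ^ 2 + 2 * W.a₂ * x + W.a₄ - W.a₁ * y)
    + W.a₁ * (2 * y + W.a₁ * x + W.a₃)) * hℓ + (-(W.a₁ ^ 2 + 4 * W.a₂ + 8 * x)) * h

open WeierstrassCurve.Affine in
/-- Chord case: for affine points with distinct `x`-coordinates, both `P + Q` and `P - Q` are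
affine and their `x`-coordinates are given by the classical formulas. -/
theorem add_sub_of_X_ne {x₁ x₂ y₁ y₂ : F} (h₁ : W.Nonsingular x₁ y₁) (h₂ : W.Nonsingular x₂ y₂)
    (hx : x₁ ≠ x₂) :
    ∃ (xp yp xm ym : F) (hp : W.Nonsingular xp yp) (hm : W.Nonsingular xm ym),
      Point.some x₁ y₁ h₁ + Point.some x₂ y₂ h₂ = Point.some xp yp hp ∧
      Point.some x₁ y₁ h₁ - Point.some x₂ y₂ h₂ = Point.some xm ym hm ∧
      4 * (x₁ - x₂) ^ 2 * xp = 2 * sumNum W x₁ x₂ - 2 * eta W x₁ y₁ * eta W x₂ y₂ ∧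
      4 * (x₁ - x₂) ^ 2 * xm = 2 * sumNum W x₁ x₂ + 2 * eta W x₁ y₁ * eta W x₂ y₂ := by
  refine ⟨_, _, _, _, nonsingular_add h₁ h₂ fun hxy => hx hxy.left,
    nonsingular_add h₁ ((nonsingular_neg ..).mpr h₂) fun hxy => hx hxy.left,
    Point.add_of_X_ne hx, ?_, addX_of_X_ne W hx h₁.1 h₂.1, addX_neg_of_X_ne W hx h₁.1 h₂.1⟩
  rw [sub_eq_add_neg, Point.neg_some, Point.add_of_X_ne hx]

omit [DecidableEq F] in
/-- Sum and product of the `x`-coordinates of `P ± Q` (characteristic `≠ 2`). -/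
theorem sum_prod_of_add_sub {x₁ x₂ y₁ y₂ xp xm : F} (h2 : (2 : F) ≠ 0)
    (h₁ : W.Equation x₁ y₁) (h₂ : W.Equation x₂ y₂)
    (hp : 4 * (x₁ - x₂) ^ 2 * xp = 2 * sumNum W x₁ x₂ - 2 * eta W x₁ y₁ * eta W x₂ y₂)
    (hm : 4 * (x₁ - x₂) ^ 2 * xm = 2 * sumNum W x₁ x₂ + 2 * eta W x₁ y₁ * eta W x₂ y₂) :
    (x₁ - x₂) ^ 2 * (xp + xm) = sumNum W x₁ x₂ ∧
      (x₁ - x₂) ^ 2 * ((x₁ - x₂) ^ 2 * (xp * xm)) = (x₁ - x₂) ^ 2 * prodNum W x₁ x₂ := by
  have h4 : (4 : F) ≠ 0 := by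
    have : (4 : F) = 2 * 2 := by norm_num
    rw [this]; exact mul_ne_zero h2 h2
  have e₁ := eta_sq W h₁
  have e₂ := eta_sq W h₂
  have hs := sumNum_sq_sub W x₁ x₂
  constructor
  · apply mul_left_cancel₀ h4
    linear_combination hp + hm
  · apply mul_left_cancel₀ h4
    apply mul_left_cancel₀ h4
    linear_combination hp * (4 * (x₁ - x₂) ^ 2 * xm) +
      (2 * sumNum W x₁ x₂ - 2 * eta W x₁ y₁ * eta W x₂ y₂) * hm + 4 * hs
      - 4 * eta W x₂ y₂ ^ 2 * e₁ - 4 * twoF W x₁ * e₂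

open WeierstrassCurve.Affine in
/-- Tangent case: if `2y + a₁x + a₃ ≠ 0` then `P + P` is affine with `x`-coordinate
`dupNum / twoF`. -/
theorem add_self_of_eta_ne {x y : F} (h : W.Nonsingular x y) (hη : eta W x y ≠ 0) :
    ∃ (x' y' : F) (h' : W.Nonsingular x' y'),
      Point.some x y h + Point.some x y h = Point.some x' y' h' ∧
      twoF W x * x' = dupNum W x := by
  have hy : y ≠ W.negY x y := fun hy => hη (eta_eq_zero_of_Y_eq W hy)
  exact ⟨_, _, nonsingular_add h h fun hxy => hy hxy.right, Point.add_self_of_Y_ne hy,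
    addX_of_Y_ne W h.1 hy⟩

end Fermat.Agent.S05.XOnly
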