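/-
S05 final assembly, part B (helper665): the slope lemma.
Two integral points `P = (x, y)`, `P' = (x', y')` with
`v (x' - x) < v η` and `v (η' - η) < v η` (`η = 2y + a₁x + a₃`) differ by a point of `E₁`.
-/
import Fermat.Agent.S05.SameRed

set_option autoImplicit false

namespace Fermat.Agent.S05.Assemble

open WeierstrassCurve WeierstrassCurve.Affine
open Fermat.Agent.S05.SameRed

set_option linter.unusedSectionVars false
set_option linter.unusedVariables false

variable {K : Type*} [Field K] [DecidableEq K]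
  {Γ₀ : Type*} [LinearOrderedCommGroupWithZero Γ₀]
variable {W : Affine K} {v : Valuation K Γ₀}

/-- **(B)** the slope lemma. -/
theorem inKer_sub_of_eta (hW : IntegralCoeffs W v) (h2 : v (2 : K) = 1) {x y x' y' : K}
    (h : W.Nonsingular x y) (h' : W.Nonsingular x' y') (hx : v x ≤ 1) (hx' : v x' ≤ 1)
    (hxx : v (x' - x) < v (2 * y + W.a₁ * x + W.a₃))
    (hηη : v ((2 * y' + W.a₁ * x' + W.a₃) - (2 * y + W.a₁ * x + W.a₃)) <
      v (2 * y + W.a₁ * x + W.a₃)) :
    InKer W v (Point.some x' y' h' - Point.some x y h) := by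
  rw [sub_eq_add_neg, Point.neg_some]
  set η : K := 2 * y + W.a₁ * x + W.a₃ with hη
  set η' : K := 2 * y' + W.a₁ * x' + W.a₃ with hη'
  have hnegY : W.negY x y = -y - W.a₁ * x - W.a₃ := rfl
  have hη0 : η ≠ 0 := by
    intro h0
    rw [h0, map_zero] at hxx
    exact not_lt_zero hxx
  have hvη : 0 < v η := (Valuation.pos_iff v).mpr hη0
  have hv2η : v (2 * η) = v η := by rw [map_mul, h2, one_mul]
  by_cases hxe : x' = x
  · subst hxe
    rcases Affine.Y_eq_of_X_eq h'.1 h.1 rfl with hyy | hyy
    · subst hyy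
      rw [Point.add_of_Y_eq rfl (by rw [Affine.negY_negY])]
      exact inKer_zero
    · exfalso
      have : η' - η = -(2 * η) := by
        simp only [hη, hη', hyy, hnegY]; ring
      rw [this, Valuation.map_neg, hv2η] at hηη
      exact lt_irrefl _ hηη
  · rw [Point.add_of_X_ne hxe, inKer_some]
    apply one_lt_val_addX hW hx' hx
    rw [Affine.slope_of_X_ne hxe]
    have hd0 : x' - x ≠ 0 := sub_ne_zero.mpr hxe
    have hnum : y' - W.negY x y = ((2 * η + (η' - η)) + -(W.a₁ * (x' - x))) / 2 := by
      have h20 : (2 : K) ≠ 0 := by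
        intro h0; rw [h0, map_zero] at h2; exact zero_ne_one h2
      rw [hnegY]; simp only [hη, hη']; field_simp; ring
    have hv1 : v (2 * η + (η' - η)) = v η := by
      rw [v.map_add_eq_of_lt_left (by rw [hv2η]; exact hηη), hv2η]
    have hv2 : v (W.a₁ * (x' - x)) < v η := by
      rw [map_mul]
      exact (mul_le_of_le_one_left' hW.a₁).trans_lt hxx
    have hv3 : v ((2 * η + (η' - η)) + -(W.a₁ * (x' - x))) = v η := by
      rw [v.map_add_eq_of_lt_left (by rw [Valuation.map_neg, hv1]; exact hv2), hv1]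
    rw [hnum, map_div₀, map_div₀, hv3, h2, div_one,
      one_lt_div₀ ((Valuation.pos_iff v).mpr hd0)]
    exact hxx

end Fermat.Agent.S05.Assemble
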