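/-
S05 final assembly, core (helper665): the abstract Galois argument.
-/
import Fermat.Agent.S05.AssembleB

set_option autoImplicit false

namespace Fermat.Agent.S05.Assemble

open WeierstrassCurve WeierstrassCurve.Affine
open Fermat.Agent.S05.SameRed

set_option linter.unusedSectionVars false
set_option linter.unusedVariables false

variable {K : Type*} [Field K] [DecidableEq K]
  {Γ₀ : Type*} [LinearOrderedCommGroupWithZero Γ₀]
variable {W : Affine K} {v : Valuation K Γ₀}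

/-- The roots of the 2-division cubic `4x³ + b₂x² + 2b₄x + b₆ = 4 (x - r₁)(x - r₂)(x - r₃)`. -/
structure Roots (W : Affine K) (r₁ r₂ r₃ : K) : Prop where
  b₂ : W.b₂ = -4 * (r₁ + r₂ + r₃)
  b₄ : 2 * W.b₄ = 4 * (r₁ * r₂ + r₁ * r₃ + r₂ * r₃)
  b₆ : W.b₆ = -4 * (r₁ * r₂ * r₃)

lemma Roots.swap₁₂ {r₁ r₂ r₃ : K} (h : Roots W r₁ r₂ r₃) : Roots W r₂ r₁ r₃ :=
  ⟨by rw [h.b₂]; ring, by rw [h.b₄]; ring, by rw [h.b₆]; ring⟩

lemma Roots.swap₁₃ {r₁ r₂ r₃ : K} (h : Roots W r₁ r₂ r₃) : Roots W r₃ r₂ r₁ :=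
  ⟨by rw [h.b₂]; ring, by rw [h.b₄]; ring, by rw [h.b₆]; ring⟩

lemma Roots.eta_sq {r₁ r₂ r₃ : K} (hr : Roots W r₁ r₂ r₃) {x y : K} (h : W.Equation x y) :
    (2 * y + W.a₁ * x + W.a₃) ^ 2 = 4 * ((x - r₁) * (x - r₂) * (x - r₃)) := by
  have e := (Affine.equation_iff x y).mp h
  have hb₂ := hr.b₂
  have hb₄ := hr.b₄
  have hb₆ := hr.b₆
  simp only [WeierstrassCurve.b₂, WeierstrassCurve.b₄, WeierstrassCurve.b₆] at hb₂ hb₄ hb₆
  linear_combination 4 * e + x ^ 2 * hb₂ + x * hb₄ + hb₆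

lemma Roots.four_WX {r₁ r₂ r₃ : K} (hr : Roots W r₁ r₂ r₃) (x y : K) :
    4 * (W.a₁ * y - (3 * x ^ 2 + 2 * W.a₂ * x + W.a₄)) =
      2 * W.a₁ * (2 * y + W.a₁ * x + W.a₃) -
        4 * ((x - r₂) * (x - r₃) + (x - r₁) * (x - r₃) + (x - r₁) * (x - r₂)) := by
  have hb₂ := hr.b₂
  have hb₄ := hr.b₄
  simp only [WeierstrassCurve.b₂, WeierstrassCurve.b₄] at hb₂ hb₄
  linear_combination (-2 * x) * hb₂ - hb₄

lemma val_four (h2 : v (2 : K) = 1) : v (4 : K) = 1 := by
  have : (4 : K) = 2 * 2 := by norm_num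
  rw [this, map_mul, h2, one_mul]

lemma val_eq_one_of_sub_lt' {a b : K} (hab : v (a - b) < 1) (hb : v b = 1) : v a = 1 := by
  have : a = b + (a - b) := by ring
  rw [this, v.map_add_eq_of_lt_left (by rw [hb]; exact hab), hb]

/-- If `x ≡ r₁` and `r₁` is a simple root modulo the maximal ideal, then `W_X` is a unit at a
point with `η` in the maximal ideal. -/
lemma Roots.val_WX_eq_one {r₁ r₂ r₃ : K} (hr : Roots W r₁ r₂ r₃) (hW : IntegralCoeffs W v)
    (h2 : v (2 : K) = 1) {x y : K} (hx : v x ≤ 1) (hr₁ : v r₁ ≤ 1) (hr₂ : v r₂ ≤ 1)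
    (hr₃ : v r₃ ≤ 1)
    (hη : v (2 * y + W.a₁ * x + W.a₃) < 1) (h1 : v (x - r₁) < 1) (h12 : v (r₁ - r₂) = 1)
    (h13 : v (r₁ - r₃) = 1) :
    v (W.a₁ * y - (3 * x ^ 2 + 2 * W.a₂ * x + W.a₄)) = 1 := by
  have h4 := val_four (v := v) h2
  have key := hr.four_WX x y
  have hx2 : v (x - r₂) = 1 := by
    apply val_eq_one_of_sub_lt' (b := r₁ - r₂) _ h12
    have : x - r₂ - (r₁ - r₂) = x - r₁ := by ring
    rw [this]; exact h1
  have hx3 : v (x - r₃) = 1 := by
    apply val_eq_one_of_sub_lt' (b := r₁ - r₃) _ h13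
    have : x - r₃ - (r₁ - r₃) = x - r₁ := by ring
    rw [this]; exact h1
  have hmain : v ((x - r₂) * (x - r₃)) = 1 := by rw [map_mul, hx2, hx3, one_mul]
  have hsmall : v ((x - r₁) * (x - r₃) + (x - r₁) * (x - r₂)) < 1 := by
    apply val_add_lt_one
    · exact val_mul_lt_one_left h1 hx3.le
    · exact val_mul_lt_one_left h1 hx2.le
  have hF : v ((x - r₂) * (x - r₃) + (x - r₁) * (x - r₃) + (x - r₁) * (x - r₂)) = 1 := by
    rw [add_assoc, v.map_add_eq_of_lt_left (by rw [hmain]; exact hsmall), hmain]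
  have h4F : v (4 * ((x - r₂) * (x - r₃) + (x - r₁) * (x - r₃) + (x - r₁) * (x - r₂))) = 1 := by
    rw [map_mul, h4, hF, one_mul]
  have hsm2 : v (2 * W.a₁ * (2 * y + W.a₁ * x + W.a₃)) < 1 := by
    apply val_mul_lt_one_right _ hη
    rw [map_mul, h2, one_mul]; exact hW.a₁
  have : v (4 * (W.a₁ * y - (3 * x ^ 2 + 2 * W.a₂ * x + W.a₄))) = 1 := by
    rw [key, sub_eq_add_neg, add_comm,
      v.map_add_eq_of_lt_left (by rw [Valuation.map_neg, h4F]; exact hsm2),
      Valuation.map_neg, h4F]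
  rwa [map_mul, h4, one_mul] at this

/-- If `x` is integral and `(x, y)` is on an integral curve then `y` is integral. -/
lemma val_y_le_one (hW : IntegralCoeffs W v) {x y : K} (h : W.Equation x y) (hx : v x ≤ 1) :
    v y ≤ 1 := by
  by_contra hy
  rw [not_le] at hy
  rw [equation_iff] at h
  have hy2 : y ^ 2 = x ^ 3 + W.a₂ * x ^ 2 + W.a₄ * x + W.a₆ - W.a₁ * x * y - W.a₃ * y := by
    linear_combination h
  have hvy2 : v (y ^ 2) = v y ^ 2 := map_pow v y 2
  have h0 : (0 : Γ₀) < v y := lt_trans zero_lt_one hy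
  have hlt : v y < v y ^ 2 := by
    rw [pow_two]; exact lt_mul_of_one_lt_left h0 hy
  have h1y : (1 : Γ₀) ≤ v y := hy.le
  have hle : v (x ^ 3 + W.a₂ * x ^ 2 + W.a₄ * x + W.a₆ - W.a₁ * x * y - W.a₃ * y) ≤ v y := by
    have hx3 : v (x ^ 3) ≤ 1 := by rw [map_pow]; exact pow_le_one' hx 3
    have hx2' : v (x ^ 2) ≤ 1 := by rw [map_pow]; exact pow_le_one' hx 2
    have hx2 : v (W.a₂ * x ^ 2) ≤ 1 := val_mul_le_one hW.a₂ hx2'
    have hx1 : v (W.a₄ * x) ≤ 1 := val_mul_le_one hW.a₄ hx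
    have hxy : v (W.a₁ * x * y) ≤ v y := by
      rw [map_mul]; exact mul_le_of_le_one_left' (val_mul_le_one hW.a₁ hx)
    have hy1 : v (W.a₃ * y) ≤ v y := by
      rw [map_mul]; exact mul_le_of_le_one_left' hW.a₃
    refine (v.map_sub _ _).trans (max_le ((v.map_sub _ _).trans (max_le ?_ hxy)) hy1)
    refine (v.map_add _ _).trans (max_le ((v.map_add _ _).trans (max_le ?_ (hx1.trans h1y)))
      (hW.a₆.trans h1y))
    exact (v.map_add _ _).trans (max_le (hx3.trans h1y) (hx2.trans h1y))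
  rw [← hy2, hvy2] at hle
  exact absurd hle (not_le.mpr hlt)

lemma val_eta_le_one (hW : IntegralCoeffs W v) (h2 : v (2 : K) = 1) {x y : K}
    (hx : v x ≤ 1) (hy : v y ≤ 1) : v (2 * y + W.a₁ * x + W.a₃) ≤ 1 :=
  val_add_le_one (val_add_le_one (val_mul_le_one h2.le hy) (val_mul_le_one hW.a₁ hx)) hW.a₃

/-- (C1b) in hypothesis form. -/
def KerTorsionFree (W : Affine K) (v : Valuation K Γ₀) (n : ℕ) : Prop :=
  ∀ P : W.Point, InKer W v P → n • P = 0 → P = 0

/-- A torsion point is integral. -/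
lemma val_x_le_one_of_torsion {n : ℕ} (hC1 : KerTorsionFree W v n) {x y : K}
    (h : W.Nonsingular x y) (hP : n • Point.some x y h = 0) : v x ≤ 1 := by
  by_contra hx
  rw [not_le] at hx
  exact Point.some_ne_zero h (hC1 _ hx hP)

/-- For an odd torsion point with nonsingular reduction, `η` is a unit. -/
lemma val_eta_eq_one_of_torsion (hW : IntegralCoeffs W v) (h2 : v (2 : K) = 1) {n : ℕ}
    (hn : Odd n) (hC1 : KerTorsionFree W v n) {x y : K}
    (h : W.Nonsingular x y) (hP : n • Point.some x y h = 0)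
    (hNR : v (2 * y + W.a₁ * x + W.a₃) < 1 →
      v (W.a₁ * y - (3 * x ^ 2 + 2 * W.a₂ * x + W.a₄)) = 1) :
    v (2 * y + W.a₁ * x + W.a₃) = 1 := by
  have hx : v x ≤ 1 := val_x_le_one_of_torsion hC1 h hP
  have hy : v y ≤ 1 := val_y_le_one hW h.1 hx
  have hle := val_eta_le_one hW h2 hx hy
  rcases hle.lt_or_eq with hlt | heq
  swap
  · exact heq
  exfalso
  have hX := hNR hlt
  have hneg : W.Nonsingular x (W.negY x y) := (Affine.nonsingular_neg ..).mpr h
  have hnegY : W.negY x y = -y - W.a₁ * x - W.a₃ := rfl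
  have hyn : v (W.negY x y) ≤ 1 := by
    rw [hnegY]
    exact val_sub_le_one (val_sub_le_one (by rwa [Valuation.map_neg])
      (val_mul_le_one hW.a₁ hx)) hW.a₃
  have hker := inKer_sub_of_same_reduction hW h hneg hx hy hx hyn (by simp)
    (by
      have : y - W.negY x y = 2 * y + W.a₁ * x + W.a₃ := by rw [hnegY]; ring
      rw [this]; exact hlt) (Or.inl hX)
  rw [← Point.neg_some h, sub_neg_eq_add] at hker
  have h2P : n • (Point.some x y h + Point.some x y h) = 0 := by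
    rw [smul_add, hP, add_zero]
  have hzero := hC1 _ hker h2P
  obtain ⟨k, hk⟩ := hn
  have : Point.some x y h = 0 := by
    have h3 : n • Point.some x y h = k • (Point.some x y h + Point.some x y h) +
        Point.some x y h := by
      rw [hk, add_smul, one_smul, mul_comm, mul_smul, two_smul]
    rw [hP, hzero, smul_zero, zero_add] at h3
    exact h3.symm
  exact Point.some_ne_zero h this

/-- The core Galois argument: if `x - e` and `η` are both "`c` times integral", with `c`, `e`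
fixed by `σ` and `η / c` a unit, then the torsion point `(x, y)` is fixed. -/
theorem fixed_of_scaled (hW : IntegralCoeffs W v) (h2 : v (2 : K) = 1)
    (σ : K →+* K) (hres : ∀ z, v z ≤ 1 → v (σ z - z) < 1)
    (hσ₁ : σ W.a₁ = W.a₁) (hσ₃ : σ W.a₃ = W.a₃)
    (τ : W.Point →+ W.Point)
    (hτ : ∀ (x y : K) (h : W.Nonsingular x y),
      ∃ h' : W.Nonsingular (σ x) (σ y), τ (Point.some x y h) = Point.some (σ x) (σ y) h')
    {n : ℕ} (hC1 : KerTorsionFree W v n) {x y : K}
    (h : W.Nonsingular x y) (hP : n • Point.some x y h = 0)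
    {c e : K} (hc : σ c = c) (he : σ e = e)
    (hηc : v (2 * y + W.a₁ * x + W.a₃) = v c) (hxc : v (x - e) ≤ v c) :
    τ (Point.some x y h) = Point.some x y h := by
  have hx : v x ≤ 1 := val_x_le_one_of_torsion hC1 h hP
  have hy : v y ≤ 1 := val_y_le_one hW h.1 hx
  obtain ⟨h', hτP⟩ := hτ x y h
  set η : K := 2 * y + W.a₁ * x + W.a₃ with hη
  have hx' : v (σ x) ≤ 1 := by
    have : σ x = x + (σ x - x) := by ring
    rw [this]; exact val_add_le_one hx (hres x hx).le
  by_cases hc0 : c = 0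
  · -- then `η = 0`, so `P` is 2-torsion; also `x = e` is fixed, and `y` is determined by `x`
    rw [hc0, map_zero] at hηc hxc
    have hη0 : η = 0 := (map_eq_zero v).mp hηc
    have hxe : x = e := sub_eq_zero.mp ((map_eq_zero v).mp (le_antisymm hxc zero_le))
    have h20 : (2 : K) ≠ 0 := by
      intro h0; rw [h0, map_zero] at h2; exact zero_ne_one h2
    have hσx : σ x = x := by rw [hxe, he]
    have hyeq : y = -(W.a₁ * x + W.a₃) / 2 := by
      field_simp
      linear_combination hη0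
    have hσy : σ y = y := by
      have : σ y = -(σ W.a₁ * σ x + σ W.a₃) / σ 2 := by
        conv_lhs => rw [hyeq]
        simp only [map_div₀, map_neg, map_add, map_mul]
      rw [this, hσ₁, hσ₃, hσx, map_ofNat, ← hyeq]
    rw [hτP]
    congr 1
  have hvc : 0 < v c := (Valuation.pos_iff v).mpr hc0
  -- `x = e + c ε`, `η = c θ`
  set ε : K := (x - e) / c with hε
  set θ : K := η / c with hθ
  have hεv : v ε ≤ 1 := by
    rw [hε, map_div₀]; exact (div_le_one₀ hvc).mpr hxc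
  have hθv : v θ ≤ 1 := by
    rw [hθ, map_div₀, hηc, div_self hvc.ne']
  have hxε : x = e + c * ε := by rw [hε]; field_simp; ring
  have hηθ : η = c * θ := by rw [hθ]; field_simp
  have hσxx : σ x - x = c * (σ ε - ε) := by
    conv_lhs => rw [hxε]
    simp only [map_add, map_mul, hc, he]; ring
  have hση : (2 * σ y + W.a₁ * σ x + W.a₃) = σ η := by
    simp only [hη, map_add, map_mul, hσ₁, hσ₃, map_ofNat]
  have hσηη : σ η - η = c * (σ θ - θ) := by
    conv_lhs => rw [hηθ]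
    simp only [map_mul, hc]; ring
  have hlt1 : v (σ x - x) < v η := by
    rw [hσxx, map_mul, hηc]
    exact mul_lt_of_lt_one_right hvc (hres ε hεv)
  have hlt2 : v ((2 * σ y + W.a₁ * σ x + W.a₃) - η) < v η := by
    rw [hση, hσηη, map_mul, hηc]
    exact mul_lt_of_lt_one_right hvc (hres θ hθv)
  have hker := inKer_sub_of_eta hW h2 h h' hx hx' hlt1 hlt2
  have htors : n • (Point.some (σ x) (σ y) h' - Point.some x y h) = 0 := by
    rw [smul_sub, hP, sub_zero, ← hτP, ← map_nsmul, hP, map_zero]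
  have := hC1 _ hker htors
  rw [hτP]
  exact sub_eq_zero.mp this

end Fermat.Agent.S05.Assemble
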