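/-
S05 final assembly (helper665): the two abstract theorems [Good] and [Node].
-/
import Fermat.Agent.S05.AssembleCore

set_option autoImplicit false

namespace Fermat.Agent.S05.Assemble

open WeierstrassCurve WeierstrassCurve.Affine
open Fermat.Agent.S05.SameRed

set_option linter.unusedSectionVars false
set_option linter.unusedVariables false

variable {K : Type*} [Field K] [DecidableEq K]
  {Γ₀ : Type*} [LinearOrderedCommGroupWithZero Γ₀]
variable {W : Affine K} {v : Valuation K Γ₀}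

/-- (C3c) in hypothesis form. -/
def NodeTorsion (W : Affine K) (v : Valuation K Γ₀) (e₁ α : K) (n : ℕ) : Prop :=
  ∀ (x y : K) (h : W.Nonsingular x y), n • Point.some x y h = 0 → v (x - e₁) < 1 →
    v α < v (x - e₁) ∧ ∃ j : ℕ, v (x - e₁) ^ n = v α ^ (2 * j)

lemma pow_eq_pow_imp_eq {a b : Γ₀} {n : ℕ} (hn : n ≠ 0) (h : a ^ n = b ^ n) : a = b := by
  rcases lt_trichotomy a b with hlt | heq | hgt
  · exact absurd h (pow_lt_pow_left₀ hlt zero_le hn).ne
  · exact heq
  · exact absurd h (pow_lt_pow_left₀ hgt zero_le hn).ne'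

lemma val_sub_eq_of_lt {a b : K} (h : v b < v a) : v (a - b) = v a := by
  rw [sub_eq_add_neg]
  exact v.map_add_eq_of_lt_left (by rwa [Valuation.map_neg])

lemma val_sub_eq_of_lt' {a b : K} (h : v a < v b) : v (a - b) = v b := by
  rw [← Valuation.map_neg, neg_sub]
  exact val_sub_eq_of_lt h

/-- If the product of three integral elements lies in the maximal ideal, one of them does. -/
lemma exists_lt_one_of_mul {a b c : K} (ha : v a ≤ 1) (hb : v b ≤ 1) (hc : v c ≤ 1)
    (h : v (a * b * c) < 1) : v a < 1 ∨ v b < 1 ∨ v c < 1 := by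
  by_contra hcon
  simp only [not_or, not_lt] at hcon
  obtain ⟨h1, h2, h3⟩ := hcon
  have ha1 : v a = 1 := le_antisymm ha h1
  have hb1 : v b = 1 := le_antisymm hb h2
  have hc1 : v c = 1 := le_antisymm hc h3
  rw [map_mul, map_mul, ha1, hb1, hc1, one_mul, one_mul] at h
  exact lt_irrefl _ h

lemma val_eta_sq_lt_one {a : K} (h : v a < 1) : v (a ^ 2) < 1 := by
  rw [map_pow]
  exact pow_lt_one' h (by norm_num)

/-- **[Good]** If the three roots of the 2-division cubic are integral and pairwise distinct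
modulo the maximal ideal, an inertia-like `σ` fixes all odd torsion points prime to the
residue characteristic. -/
theorem fixed_of_good (hW : IntegralCoeffs W v) (h2 : v (2 : K) = 1)
    (σ : K →+* K) (hres : ∀ z, v z ≤ 1 → v (σ z - z) < 1)
    (hσ₁ : σ W.a₁ = W.a₁) (hσ₃ : σ W.a₃ = W.a₃)
    (τ : W.Point →+ W.Point)
    (hτ : ∀ (x y : K) (h : W.Nonsingular x y),
      ∃ h' : W.Nonsingular (σ x) (σ y), τ (Point.some x y h) = Point.some (σ x) (σ y) h')
    {n : ℕ} (hn : Odd n) (hC1 : KerTorsionFree W v n)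
    {r₁ r₂ r₃ : K} (hr : Roots W r₁ r₂ r₃) (hr₁ : v r₁ ≤ 1) (hr₂ : v r₂ ≤ 1) (hr₃ : v r₃ ≤ 1)
    (h12 : v (r₁ - r₂) = 1) (h13 : v (r₁ - r₃) = 1) (h23 : v (r₂ - r₃) = 1)
    (P : W.Point) (hP : n • P = 0) : τ P = P := by
  rcases P with _ | ⟨x, y, h⟩
  · exact map_zero τ
  have hx : v x ≤ 1 := val_x_le_one_of_torsion hC1 h hP
  have hy : v y ≤ 1 := val_y_le_one hW h.1 hx
  have h4 := val_four (v := v) h2
  have h21 : v (r₂ - r₁) = 1 := by rw [← Valuation.map_neg, neg_sub]; exact h12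
  have h31 : v (r₃ - r₁) = 1 := by rw [← Valuation.map_neg, neg_sub]; exact h13
  have h32 : v (r₃ - r₂) = 1 := by rw [← Valuation.map_neg, neg_sub]; exact h23
  have hη1 : v (2 * y + W.a₁ * x + W.a₃) = 1 := by
    apply val_eta_eq_one_of_torsion hW h2 hn hC1 h hP
    intro hη
    have hsq := val_eta_sq_lt_one hη
    rw [hr.eta_sq h.1, map_mul, h4, one_mul] at hsq
    rcases exists_lt_one_of_mul (val_sub_le_one hx hr₁) (val_sub_le_one hx hr₂)
      (val_sub_le_one hx hr₃) hsq with h1 | h1 | h1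
    · exact hr.val_WX_eq_one hW h2 hx hr₁ hr₂ hr₃ hη h1 h12 h13
    · exact hr.swap₁₂.val_WX_eq_one hW h2 hx hr₂ hr₁ hr₃ hη h1 h21 h23
    · exact hr.swap₁₃.val_WX_eq_one hW h2 hx hr₃ hr₂ hr₁ hη h1 h32 h31
  exact fixed_of_scaled hW h2 σ hres hσ₁ hσ₃ τ hτ hC1 h hP (c := 1) (e := 0)
    (map_one σ) (map_zero σ) (by rw [hη1, map_one]) (by rw [sub_zero, map_one]; exact hx)

/-- **[Node]** The multiplicative case. -/
theorem fixed_of_node (hW : IntegralCoeffs W v) (h2 : v (2 : K) = 1)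
    (σ : K →+* K) (hres : ∀ z, v z ≤ 1 → v (σ z - z) < 1)
    (hσ₁ : σ W.a₁ = W.a₁) (hσ₃ : σ W.a₃ = W.a₃)
    (τ : W.Point →+ W.Point)
    (hτ : ∀ (x y : K) (h : W.Nonsingular x y),
      ∃ h' : W.Nonsingular (σ x) (σ y), τ (Point.some x y h) = Point.some (σ x) (σ y) h')
    {n : ℕ} (hn : Odd n) (hC1 : KerTorsionFree W v n)
    {e₁ α β : K} (hr : Roots W e₁ (e₁ + α) (e₁ + β)) (he₁ : v e₁ ≤ 1) (hα : v α < 1)
    (hβ : v β = 1) (hσe : σ e₁ = e₁)
    {π : K} (hσπ : σ π = π) (hπ : v π ^ n = v α ^ 2)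
    (hC3 : NodeTorsion W v e₁ α n)
    (P : W.Point) (hP : n • P = 0) : τ P = P := by
  rcases P with _ | ⟨x, y, h⟩
  · exact map_zero τ
  have hx : v x ≤ 1 := val_x_le_one_of_torsion hC1 h hP
  have hy : v y ≤ 1 := val_y_le_one hW h.1 hx
  have h4 := val_four (v := v) h2
  have hn0 : n ≠ 0 := hn.pos.ne'
  have hxe : v (x - e₁) ≤ 1 := val_sub_le_one hx he₁
  have hr₂ : v (e₁ + α) ≤ 1 := val_add_le_one he₁ hα.le
  have hr₃ : v (e₁ + β) ≤ 1 := val_add_le_one he₁ hβ.le
  have hβα : v (β - α) = 1 := by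
    rw [val_sub_eq_of_lt (by rw [hβ]; exact hα), hβ]
  rcases hxe.lt_or_eq with hlt | heq
  · -- off `E₀`
    obtain ⟨hαx, j, hj⟩ := hC3 x y h hP hlt
    have hvc : v (π ^ j) = v (x - e₁) := by
      apply pow_eq_pow_imp_eq hn0
      rw [hj, map_pow, ← pow_mul, mul_comm, pow_mul, hπ, ← pow_mul]
    have hxα : v (x - (e₁ + α)) = v (x - e₁) := by
      have : x - (e₁ + α) = (x - e₁) - α := by ring
      rw [this, val_sub_eq_of_lt hαx]
    have hxβ : v (x - (e₁ + β)) = 1 := by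
      have : x - (e₁ + β) = (x - e₁) - β := by ring
      rw [this, val_sub_eq_of_lt' (by rw [hβ]; exact hlt), hβ]
    have hη : v (2 * y + W.a₁ * x + W.a₃) = v (π ^ j) := by
      apply pow_eq_pow_imp_eq (n := 2) (by norm_num)
      rw [← map_pow, hr.eta_sq h.1, map_mul, map_mul, map_mul, h4, hxα, hxβ, hvc]
      simp [pow_two]
    exact fixed_of_scaled hW h2 σ hres hσ₁ hσ₃ τ hτ hC1 h hP (c := π ^ j) (e := e₁)
      (by rw [map_pow, hσπ]) hσe hη (by rw [hvc])
  · -- on `E₀`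
    have hη1 : v (2 * y + W.a₁ * x + W.a₃) = 1 := by
      apply val_eta_eq_one_of_torsion hW h2 hn hC1 h hP
      intro hη
      have hsq := val_eta_sq_lt_one hη
      rw [hr.eta_sq h.1, map_mul, h4, one_mul] at hsq
      have hxα : v (x - (e₁ + α)) = 1 := by
        have : x - (e₁ + α) = (x - e₁) - α := by ring
        rw [this, val_sub_eq_of_lt (by rw [heq]; exact hα), heq]
      have h3 : v (x - (e₁ + β)) < 1 := by
        rw [map_mul, map_mul, heq, hxα, one_mul, one_mul] at hsq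
        exact hsq
      have h31 : v (e₁ + β - e₁) = 1 := by
        have : e₁ + β - e₁ = β := by ring
        rw [this, hβ]
      have h32 : v (e₁ + β - (e₁ + α)) = 1 := by
        have : e₁ + β - (e₁ + α) = β - α := by ring
        rw [this, hβα]
      exact hr.swap₁₃.val_WX_eq_one hW h2 hx hr₃ hr₂ he₁ hη h3 h32 h31
    exact fixed_of_scaled hW h2 σ hres hσ₁ hσ₃ τ hτ hC1 h hP (c := 1) (e := 0)
      (map_one σ) (map_zero σ) (by rw [hη1, map_one]) (by rw [sub_zero, map_one]; exact hx)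

end Fermat.Agent.S05.Assemble
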