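/-
S05 final assembly (helper665): the concrete part for the Frey curve over `AlgebraicClosure ℚ`.
-/
import Fermat.Statements.S05
import Fermat.Agent.S05.AssembleMain

set_option autoImplicit false

namespace Fermat.Agent.S05.Assemble

open WeierstrassCurve WeierstrassCurve.Affine WeierstrassCurve.Affine.Point
open Fermat.Agent.S05.SameRed

set_option linter.unusedSectionVars false
set_option linter.unusedVariables false

/-- `ℚ̄`. -/
abbrev Qb : Type := AlgebraicClosure ℚ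

section inertia

variable (A : ValuationSubring Qb)

/-- Elements of the inertia group act trivially on the residue field. -/
lemma inertia_res {σ : Qb ≃ₐ[ℚ] Qb} (hσ : σ ∈ A.inertiaSubgroupIn ℚ) (z : Qb)
    (hz : A.valuation z ≤ 1) : A.valuation (σ z - z) < 1 := by
  obtain ⟨g, hg, rfl⟩ := hσ
  have hzA : z ∈ A := (A.valuation_le_one_iff z).mp hz
  have h1 : MulSemiringAction.toRingAut (A.decompositionSubgroup ℚ)
      (IsLocalRing.ResidueField A) g = 1 := hg
  have h2 : g • (IsLocalRing.residue A ⟨z, hzA⟩) = IsLocalRing.residue A ⟨z, hzA⟩ := by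
    have := congrArg (fun f => f (IsLocalRing.residue A ⟨z, hzA⟩)) h1
    simpa using this
  rw [← IsLocalRing.ResidueField.residue_smul] at h2
  have h3 : (g • (⟨z, hzA⟩ : A)) - ⟨z, hzA⟩ ∈ IsLocalRing.maximalIdeal A := by
    rw [← Ideal.Quotient.eq]
    exact h2
  rw [ValuationSubring.valuation_lt_one_iff] at h3
  exact h3

variable {A}

lemma val_int_le_one (n : ℤ) : A.valuation (n : Qb) ≤ 1 :=
  (A.valuation_le_one_iff _).mpr (intCast_mem A n)

lemma val_nat_le_one (n : ℕ) : A.valuation (n : Qb) ≤ 1 :=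
  (A.valuation_le_one_iff _).mpr (natCast_mem A n)

/-- An integer divisible by `q` lies in the maximal ideal. -/
lemma val_int_lt_one {q : ℕ} (hq : A.LiesOverPrime q) {n : ℤ} (hn : (q : ℤ) ∣ n) :
    A.valuation (n : Qb) < 1 := by
  obtain ⟨m, rfl⟩ := hn
  have hq' : A.valuation (q : Qb) < 1 := (A.mem_nonunits_iff).mp hq
  push_cast
  rw [map_mul]
  exact (mul_le_of_le_one_right' (val_int_le_one m)).trans_lt hq'

/-- An integer prime to `q` is a unit. -/
lemma val_int_eq_one {q : ℕ} (hq : A.LiesOverPrime q) (hqp : q.Prime) {n : ℤ}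
    (hn : ¬ (q : ℤ) ∣ n) : A.valuation (n : Qb) = 1 := by
  have hq' : A.valuation (q : Qb) < 1 := (A.mem_nonunits_iff).mp hq
  have hcop : IsCoprime (q : ℤ) n := by
    have hp : Prime (q : ℤ) := Nat.prime_iff_prime_int.mp hqp
    exact (Prime.coprime_iff_not_dvd hp).mpr hn
  obtain ⟨u, w, huw⟩ := hcop
  have h1 : (u : Qb) * (q : Qb) + (w : Qb) * (n : Qb) = 1 := by exact_mod_cast congrArg (Int.cast : ℤ → Qb) huw
  have hsmall : A.valuation ((u : Qb) * (q : Qb)) < 1 := by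
    rw [map_mul]
    exact (mul_le_of_le_one_left' (val_int_le_one u)).trans_lt hq'
  have hwn : A.valuation ((w : Qb) * (n : Qb)) = 1 := by
    have : (w : Qb) * (n : Qb) = 1 + -((u : Qb) * (q : Qb)) := by linear_combination h1
    rw [this, (A.valuation).map_add_eq_of_lt_left (by rw [Valuation.map_neg, map_one]; exact hsmall),
      map_one]
  rw [map_mul] at hwn
  refine le_antisymm (val_int_le_one n) ?_
  calc (1 : A.ValueGroup) = A.valuation (w : Qb) * A.valuation (n : Qb) := hwn.symm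
    _ ≤ 1 * A.valuation (n : Qb) := mul_le_mul_left (val_int_le_one w) _
    _ = A.valuation (n : Qb) := one_mul _

lemma val_nat_eq_one {q : ℕ} (hq : A.LiesOverPrime q) (hqp : q.Prime) {n : ℕ}
    (hn : ¬ q ∣ n) : A.valuation (n : Qb) = 1 := by
  have := val_int_eq_one hq hqp (n := (n : ℤ)) (by exact_mod_cast hn)
  simpa using this

end inertia

end Fermat.Agent.S05.Assemble

namespace Fermat.Agent.S05.Assemble

open WeierstrassCurve WeierstrassCurve.Affine WeierstrassCurve.Affine.Point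
open Fermat.Agent.S05.SameRed

set_option linter.unusedSectionVars false
set_option linter.unusedVariables false

section frey

variable (P : FreyPackage)

/-- `a ^ p` in `ℚ̄`. -/
noncomputable def fA : Qb := ((P.a ^ P.p : ℤ) : Qb)
/-- `b ^ p` in `ℚ̄`. -/
noncomputable def fB : Qb := ((P.b ^ P.p : ℤ) : Qb)
/-- `c ^ p` in `ℚ̄`. -/
noncomputable def fC : Qb := ((P.c ^ P.p : ℤ) : Qb)

lemma fA_add_fB : fA P + fB P = fC P := by
  simp only [fA, fB, fC]
  exact_mod_cast congrArg (Int.cast : ℤ → Qb) P.hFLT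

lemma frey_a₁ : (P.freyCurve⁄Qb).a₁ = 1 := by
  simp [FreyPackage.freyCurve, WeierstrassCurve.baseChange]

lemma frey_a₃ : (P.freyCurve⁄Qb).a₃ = 0 := by
  simp [FreyPackage.freyCurve, WeierstrassCurve.baseChange]

lemma frey_a₆ : (P.freyCurve⁄Qb).a₆ = 0 := by
  simp [FreyPackage.freyCurve, WeierstrassCurve.baseChange]

lemma frey_a₂ : (P.freyCurve⁄Qb).a₂ = (fB P - 1 - fA P) / 4 := by
  simp [FreyPackage.freyCurve, WeierstrassCurve.baseChange, fA, fB]

lemma frey_a₄ : (P.freyCurve⁄Qb).a₄ = -(fA P) * (fB P) / 16 := by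
  simp [FreyPackage.freyCurve, WeierstrassCurve.baseChange, fA, fB]

lemma four_ne_zero_Qb : (4 : Qb) ≠ 0 := by norm_num

lemma frey_roots : Roots (P.freyCurve⁄Qb) 0 (fA P / 4) (-(fB P) / 4) := by
  refine ⟨?_, ?_, ?_⟩
  · simp only [WeierstrassCurve.b₂, frey_a₁, frey_a₂]
    field_simp
    ring
  · simp only [WeierstrassCurve.b₄, frey_a₁, frey_a₃, frey_a₄]
    field_simp
    ring
  · simp only [WeierstrassCurve.b₆, frey_a₃, frey_a₆]
    ring

variable {P}
variable {A : ValuationSubring Qb}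

lemma val_two_eq_one {q : ℕ} (hq : A.LiesOverPrime q) (hqp : q.Prime) (hq2 : q ≠ 2) :
    A.valuation (2 : Qb) = 1 := by
  have := val_nat_eq_one hq hqp (n := 2)
    (fun h => hq2 ((Nat.prime_dvd_prime_iff_eq hqp Nat.prime_two).mp h))
  simpa using this

lemma val_four_eq_one {q : ℕ} (hq : A.LiesOverPrime q) (hqp : q.Prime) (hq2 : q ≠ 2) :
    A.valuation (4 : Qb) = 1 :=
  val_four (val_two_eq_one hq hqp hq2)

lemma val_sixteen_eq_one {q : ℕ} (hq : A.LiesOverPrime q) (hqp : q.Prime) (hq2 : q ≠ 2) :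
    A.valuation (16 : Qb) = 1 := by
  have : (16 : Qb) = 4 * 4 := by norm_num
  rw [this, map_mul, val_four_eq_one hq hqp hq2, one_mul]

lemma val_p_eq_one {q : ℕ} (hq : A.LiesOverPrime q) (hqp : q.Prime) (hne : q ≠ P.p) :
    A.valuation (P.p : Qb) = 1 :=
  val_nat_eq_one hq hqp (fun h => hne ((Nat.prime_dvd_prime_iff_eq hqp P.pp).mp h))

lemma val_fA_le_one : A.valuation (fA P) ≤ 1 := val_int_le_one _
lemma val_fB_le_one : A.valuation (fB P) ≤ 1 := val_int_le_one _
lemma val_fC_le_one : A.valuation (fC P) ≤ 1 := val_int_le_one _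

lemma frey_integral {q : ℕ} (hq : A.LiesOverPrime q) (hqp : q.Prime) (hq2 : q ≠ 2) :
    IntegralCoeffs (P.freyCurve⁄Qb) A.valuation := by
  have h4 := val_four_eq_one hq hqp hq2
  have h16 := val_sixteen_eq_one hq hqp hq2
  refine ⟨?_, ?_, ?_, ?_, ?_⟩
  · rw [frey_a₁, map_one]
  · rw [frey_a₂, map_div₀, h4, div_one]
    exact val_sub_le_one (val_sub_le_one val_fB_le_one (by rw [map_one])) val_fA_le_one
  · rw [frey_a₃, _root_.map_zero]; exact zero_le_one
  · rw [frey_a₄, map_div₀, h16, div_one, map_mul, Valuation.map_neg]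
    exact mul_le_one' val_fA_le_one val_fB_le_one
  · rw [frey_a₆, _root_.map_zero]; exact zero_le_one

lemma int_pow_dvd_iff {q : ℕ} (hqp : q.Prime) (a : ℤ) {n : ℕ} (hn : n ≠ 0) :
    (q : ℤ) ∣ a ^ n ↔ (q : ℤ) ∣ a := by
  have hp : Prime (q : ℤ) := Nat.prime_iff_prime_int.mp hqp
  exact ⟨fun h => hp.dvd_of_dvd_pow h, fun h => dvd_pow h hn⟩

lemma val_fA_eq_one {q : ℕ} (hq : A.LiesOverPrime q) (hqp : q.Prime) (h : ¬ (q : ℤ) ∣ P.a) :
    A.valuation (fA P) = 1 :=
  val_int_eq_one hq hqp (fun h' => h ((int_pow_dvd_iff hqp _ P.hp0).mp h'))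

lemma val_fB_eq_one {q : ℕ} (hq : A.LiesOverPrime q) (hqp : q.Prime) (h : ¬ (q : ℤ) ∣ P.b) :
    A.valuation (fB P) = 1 :=
  val_int_eq_one hq hqp (fun h' => h ((int_pow_dvd_iff hqp _ P.hp0).mp h'))

lemma val_fC_eq_one {q : ℕ} (hq : A.LiesOverPrime q) (hqp : q.Prime) (h : ¬ (q : ℤ) ∣ P.c) :
    A.valuation (fC P) = 1 :=
  val_int_eq_one hq hqp (fun h' => h ((int_pow_dvd_iff hqp _ P.hp0).mp h'))

lemma val_fA_lt_one {q : ℕ} (hq : A.LiesOverPrime q) (h : (q : ℤ) ∣ P.a) :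
    A.valuation (fA P) < 1 :=
  val_int_lt_one hq (dvd_pow h P.hp0)

lemma val_fB_lt_one {q : ℕ} (hq : A.LiesOverPrime q) (h : (q : ℤ) ∣ P.b) :
    A.valuation (fB P) < 1 :=
  val_int_lt_one hq (dvd_pow h P.hp0)

lemma val_fC_lt_one {q : ℕ} (hq : A.LiesOverPrime q) (h : (q : ℤ) ∣ P.c) :
    A.valuation (fC P) < 1 :=
  val_int_lt_one hq (dvd_pow h P.hp0)

/-- A prime cannot divide two of `a`, `b`, `c`. -/
lemma not_dvd_of_gcd_eq_one {q : ℕ} (hqp : q.Prime) {x y : ℤ} (hg : gcd x y = 1)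
    (hx : (q : ℤ) ∣ x) : ¬ (q : ℤ) ∣ y := by
  intro hy
  have h1 : (q : ℤ) ∣ gcd x y := dvd_gcd hx hy
  rw [hg] at h1
  have hp : Prime (q : ℤ) := Nat.prime_iff_prime_int.mp hqp
  exact hp.not_dvd_one h1

end frey

end Fermat.Agent.S05.Assemble
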