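/-
S05 final assembly (helper665): `P.GaloisRepUnramifiedAt q` from the two abstract facts
(C1b) = `HC1` and (C3c) = `HC3`.
-/
import Fermat.Agent.S05.AssembleFrey

set_option autoImplicit false

namespace Fermat.Agent.S05.Assemble

open WeierstrassCurve WeierstrassCurve.Affine WeierstrassCurve.Affine.Point
open Fermat.Agent.S05.SameRed

set_option linter.unusedSectionVars false
set_option linter.unusedVariables false

/-- (C1b) specialised to `ℚ̄`: the kernel of reduction has no odd torsion prime to the residue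
characteristic. -/
def HC1 : Prop :=
  ∀ (A : ValuationSubring Qb) (W : Affine Qb), IntegralCoeffs W A.valuation →
    A.valuation (2 : Qb) = 1 → ∀ n : ℕ, Odd n → A.valuation (n : Qb) = 1 →
    KerTorsionFree W A.valuation n

/-- (C3c) specialised to `ℚ̄`. -/
def HC3 : Prop :=
  ∀ (A : ValuationSubring Qb) (W : Affine Qb), IntegralCoeffs W A.valuation →
    A.valuation (2 : Qb) = 1 → ∀ e₁ α β : Qb, Roots W e₁ (e₁ + α) (e₁ + β) →
    A.valuation e₁ ≤ 1 → α ≠ 0 → A.valuation α < 1 → A.valuation β = 1 →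
    ∀ n : ℕ, Odd n → A.valuation (n : Qb) = 1 → KerTorsionFree W A.valuation n →
    NodeTorsion W A.valuation e₁ α n

lemma fA_ne_zero (P : FreyPackage) : fA P ≠ 0 := by
  simp only [fA]
  exact_mod_cast pow_ne_zero _ P.ha0

lemma fB_ne_zero (P : FreyPackage) : fB P ≠ 0 := by
  simp only [fB]
  exact_mod_cast pow_ne_zero _ P.hb0

lemma fC_ne_zero (P : FreyPackage) : fC P ≠ 0 := by
  simp only [fC]
  exact_mod_cast pow_ne_zero _ P.hc0

lemma sigma_int (σ : Qb ≃ₐ[ℚ] Qb) (n : ℤ) : σ (n : Qb) = (n : Qb) := map_intCast σ n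

lemma sigma_fA (P : FreyPackage) (σ : Qb ≃ₐ[ℚ] Qb) : σ (fA P) = fA P := sigma_int σ _
lemma sigma_fB (P : FreyPackage) (σ : Qb ≃ₐ[ℚ] Qb) : σ (fB P) = fB P := sigma_int σ _
lemma sigma_fC (P : FreyPackage) (σ : Qb ≃ₐ[ℚ] Qb) : σ (fC P) = fC P := sigma_int σ _

lemma val_div_four {A : ValuationSubring Qb} (h4 : A.valuation (4 : Qb) = 1) (z : Qb) :
    A.valuation (z / 4) = A.valuation z := by
  rw [map_div₀, h4, div_one]

lemma val_neg_div_four {A : ValuationSubring Qb} (h4 : A.valuation (4 : Qb) = 1) (z : Qb) :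
    A.valuation (-z / 4) = A.valuation z := by
  rw [map_div₀, h4, div_one, Valuation.map_neg]

/-- `v (π) ^ p = v (α) ^ 2` for `π = t ^ 2`, `α = ± t ^ p / 4`. -/
lemma val_sq_pow {A : ValuationSubring Qb} (t : ℤ) (p : ℕ) :
    A.valuation (((t ^ 2 : ℤ) : Qb)) ^ p = A.valuation (((t ^ p : ℤ) : Qb)) ^ 2 := by
  push_cast
  rw [map_pow, map_pow, ← pow_mul, ← pow_mul, mul_comm]

theorem unramified_of (h1 : HC1) (h3 : HC3) (P : FreyPackage) {q : ℕ} (hq : q.Prime)
    (hq2 : q ≠ 2) (hqp : q ≠ P.p) : P.GaloisRepUnramifiedAt q := by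
  intro A hA σ hσ x
  obtain ⟨pt, hpt⟩ := x
  apply Subtype.ext
  show Point.map (W' := P.freyCurve) σ.toAlgHom pt = pt
  have hP : P.p • pt = 0 := by
    have := (Submodule.mem_torsionBy_iff _ _).mp hpt
    rwa [natCast_zsmul] at this
  have hW := frey_integral (P := P) hA hq hq2
  have h2 := val_two_eq_one hA hq hq2
  have h4 := val_four_eq_one hA hq hq2
  have hp := val_p_eq_one (P := P) hA hq hqp
  have hodd : Odd P.p := P.hp_odd
  have hC1 := h1 A (P.freyCurve⁄Qb) hW h2 P.p hodd hp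
  have hres := inertia_res A hσ
  have hσ₁ : (σ : Qb →+* Qb) (P.freyCurve⁄Qb).a₁ = (P.freyCurve⁄Qb).a₁ := by
    rw [frey_a₁]; exact map_one _
  have hσ₃ : (σ : Qb →+* Qb) (P.freyCurve⁄Qb).a₃ = (P.freyCurve⁄Qb).a₃ := by
    rw [frey_a₃]; exact _root_.map_zero _
  have hτ : ∀ (x y : Qb) (h : (P.freyCurve⁄Qb).Nonsingular x y),
      ∃ h' : (P.freyCurve⁄Qb).Nonsingular ((σ : Qb →+* Qb) x) ((σ : Qb →+* Qb) y),
        Point.map (W' := P.freyCurve) σ.toAlgHom (Point.some x y h) =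
          Point.some ((σ : Qb →+* Qb) x) ((σ : Qb →+* Qb) y) h' := by
    intro x y h
    exact ⟨_, Point.map_some (W' := P.freyCurve) σ.toAlgHom h⟩
  have hroots := frey_roots P
  by_cases ha : (q : ℤ) ∣ P.a
  · -- node at `x ≡ 0`, small root `a^p / 4`
    have hb : ¬ (q : ℤ) ∣ P.b := not_dvd_of_gcd_eq_one hq P.hgcdab ha
    have hr : Roots (P.freyCurve⁄Qb) 0 (0 + fA P / 4) (0 + -(fB P) / 4) := by
      simpa using hroots
    have hα : A.valuation (fA P / 4) < 1 := by
      rw [val_div_four h4]; exact val_fA_lt_one hA ha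
    have hβ : A.valuation (-(fB P) / 4) = 1 := by
      rw [val_neg_div_four h4]; exact val_fB_eq_one hA hq hb
    have hα0 : fA P / 4 ≠ 0 := div_ne_zero (fA_ne_zero P) four_ne_zero_Qb
    have hπ : A.valuation (((P.a ^ 2 : ℤ) : Qb)) ^ P.p = A.valuation (fA P / 4) ^ 2 := by
      rw [val_div_four h4]; exact val_sq_pow _ _
    have hC3 := h3 A (P.freyCurve⁄Qb) hW h2 0 (fA P / 4) (-(fB P) / 4) hr
      (by rw [_root_.map_zero]; exact zero_le_one) hα0 hα hβ P.p hodd hp hC1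
    exact fixed_of_node hW h2 (σ : Qb →+* Qb) hres hσ₁ hσ₃ _ hτ hodd hC1 hr
      (by rw [_root_.map_zero]; exact zero_le_one) hα hβ (_root_.map_zero _)
      (π := ((P.a ^ 2 : ℤ) : Qb)) (sigma_int σ _) hπ hC3 pt hP
  by_cases hb : (q : ℤ) ∣ P.b
  · -- node at `x ≡ 0`, small root `-b^p / 4`
    have hr : Roots (P.freyCurve⁄Qb) 0 (0 + -(fB P) / 4) (0 + fA P / 4) := by
      have := hroots.swap₁₂.swap₁₃.swap₁₂
      simpa using this
    have hα : A.valuation (-(fB P) / 4) < 1 := by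
      rw [val_neg_div_four h4]; exact val_fB_lt_one hA hb
    have hβ : A.valuation (fA P / 4) = 1 := by
      rw [val_div_four h4]; exact val_fA_eq_one hA hq ha
    have hα0 : -(fB P) / 4 ≠ 0 := div_ne_zero (neg_ne_zero.mpr (fB_ne_zero P)) four_ne_zero_Qb
    have hπ : A.valuation (((P.b ^ 2 : ℤ) : Qb)) ^ P.p = A.valuation (-(fB P) / 4) ^ 2 := by
      rw [val_neg_div_four h4]; exact val_sq_pow _ _
    have hC3 := h3 A (P.freyCurve⁄Qb) hW h2 0 (-(fB P) / 4) (fA P / 4) hr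
      (by rw [_root_.map_zero]; exact zero_le_one) hα0 hα hβ P.p hodd hp hC1
    exact fixed_of_node hW h2 (σ : Qb →+* Qb) hres hσ₁ hσ₃ _ hτ hodd hC1 hr
      (by rw [_root_.map_zero]; exact zero_le_one) hα hβ (_root_.map_zero _)
      (π := ((P.b ^ 2 : ℤ) : Qb)) (sigma_int σ _) hπ hC3 pt hP
  by_cases hc : (q : ℤ) ∣ P.c
  · -- node at `x ≡ a^p / 4 ≡ -b^p / 4`, small root difference `-c^p / 4`
    have hABC := fA_add_fB P
    have hr : Roots (P.freyCurve⁄Qb) (fA P / 4) (fA P / 4 + -(fC P) / 4)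
        (fA P / 4 + -(fA P) / 4) := by
      have h' := hroots.swap₁₂
      have e1 : fA P / 4 + -(fC P) / 4 = -(fB P) / 4 := by rw [← hABC]; ring
      have e2 : fA P / 4 + -(fA P) / 4 = 0 := by ring
      rw [e1, e2]
      exact hroots.swap₁₃.swap₁₂
    have he : A.valuation (fA P / 4) ≤ 1 := by
      rw [val_div_four h4]; exact val_fA_le_one
    have hα : A.valuation (-(fC P) / 4) < 1 := by
      rw [val_neg_div_four h4]; exact val_fC_lt_one hA hc
    have hβ : A.valuation (-(fA P) / 4) = 1 := by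
      rw [val_neg_div_four h4]; exact val_fA_eq_one hA hq ha
    have hα0 : -(fC P) / 4 ≠ 0 := div_ne_zero (neg_ne_zero.mpr (fC_ne_zero P)) four_ne_zero_Qb
    have hπ : A.valuation (((P.c ^ 2 : ℤ) : Qb)) ^ P.p = A.valuation (-(fC P) / 4) ^ 2 := by
      rw [val_neg_div_four h4]; exact val_sq_pow _ _
    have hσe : (σ : Qb →+* Qb) (fA P / 4) = fA P / 4 := by
      simp only [fA, map_div₀, map_intCast, map_ofNat]
    have hC3 := h3 A (P.freyCurve⁄Qb) hW h2 (fA P / 4) (-(fC P) / 4) (-(fA P) / 4) hr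
      he hα0 hα hβ P.p hodd hp hC1
    exact fixed_of_node hW h2 (σ : Qb →+* Qb) hres hσ₁ hσ₃ _ hτ hodd hC1 hr
      he hα hβ hσe
      (π := ((P.c ^ 2 : ℤ) : Qb)) (sigma_int σ _) hπ hC3 pt hP
  · -- good reduction
    have hA1 := val_fA_eq_one hA hq ha
    have hB1 := val_fB_eq_one hA hq hb
    have hC1' := val_fC_eq_one hA hq hc
    have hABC := fA_add_fB P
    refine fixed_of_good hW h2 (σ : Qb →+* Qb) hres hσ₁ hσ₃ _ hτ hodd hC1 hroots
      (by rw [_root_.map_zero]; exact zero_le_one)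
      (by rw [val_div_four h4]; exact val_fA_le_one)
      (by rw [val_neg_div_four h4]; exact val_fB_le_one) ?_ ?_ ?_ pt hP
    · have : (0 : Qb) - fA P / 4 = -(fA P) / 4 := by ring
      rw [this, val_neg_div_four h4]; exact hA1
    · have : (0 : Qb) - -(fB P) / 4 = fB P / 4 := by ring
      rw [this, val_div_four h4]; exact hB1
    · have : fA P / 4 - -(fB P) / 4 = fC P / 4 := by rw [← hABC]; ring
      rw [this, val_div_four h4]; exact hC1'

end Fermat.Agent.S05.Assemble
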