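import Fermat.Agent.S05.CompPoint
import Mathlib.FieldTheory.IsAlgClosed.Basic

/-!
# Torsion points near the node: the crux (C3c)

For an odd `n` and an `n`-torsion point `P = (x, y)` reducing to the node `x ≡ e₁`,
the valuation of `x - e₁` lies strictly between `v α` and `1`, and `v (x - e₁) ^ n` is an even
power of `v α`.
-/

set_option autoImplicit false

namespace Fermat.Agent.S05.Comp

open WeierstrassCurve WeierstrassCurve.Affine

variable {K : Type*} [Field K] {Γ₀ : Type*} [LinearOrderedCommGroupWithZero Γ₀]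
  {v : Valuation K Γ₀}

lemma cls_eq_one_iff (α : K) (g : Γ₀) :
    cls v α g = 1 ↔ ∃ k : ℤ, (toU (v α) ^ 2) ^ k = toU g := by
  rw [cls, QuotientGroup.eq_one_iff, Subgroup.mem_zpowers_iff]

/-- If `cls g = 1` with `g ≠ 0` then `g` is an even (integral) power of `v α`. -/
lemma exists_zpow_of_cls_eq_one {α : K} (hα0 : α ≠ 0) {g : Γ₀} (hg : g ≠ 0)
    (h : cls v α g = 1) : ∃ k : ℤ, g = (v α ^ 2) ^ k := by
  have h0 : v α ≠ 0 := (Valuation.ne_zero_iff v).mpr hα0
  obtain ⟨k, hk⟩ := (cls_eq_one_iff α g).mp h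
  refine ⟨k, ?_⟩
  have := congrArg (fun u : Γ₀ˣ => (u : Γ₀)) hk
  simp only [Units.val_zpow_eq_zpow_val, Units.val_pow_eq_pow_val, toU_coe h0, toU_coe hg] at this
  exact this.symm

/-- An element `g < 1` which is an integral power of `m < 1` is a natural power. -/
lemma exists_pow_of_zpow {m g : Γ₀} (hm0 : m ≠ 0) (hm : m < 1) (hg : g < 1) {k : ℤ}
    (h : g = m ^ k) : ∃ j : ℕ, g = m ^ j := by
  rcases le_or_gt 0 k with hk | hk
  · refine ⟨k.toNat, ?_⟩
    rw [h]
    conv_lhs => rw [← Int.toNat_of_nonneg hk]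
    exact zpow_natCast m k.toNat
  · exfalso
    have h1 : 1 ≤ m ^ k := by
      have : m ^ k = (m ^ (-k).toNat)⁻¹ := by
        rw [← zpow_natCast, Int.toNat_of_nonneg (by omega), zpow_neg, inv_inv]
      rw [this]
      apply (one_le_inv₀ (pow_pos (zero_lt_iff.mpr hm0) _)).mpr
      exact pow_le_one₀ zero_le hm.le
    rw [← h] at h1
    exact absurd h1 (not_le.mpr hg)

lemma cls_alpha_ne_one {α : K} (hα0 : α ≠ 0) (hα : v α < 1) : cls v α (v α) ≠ 1 := by
  have h0 : v α ≠ 0 := (Valuation.ne_zero_iff v).mpr hα0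
  have hpos : 0 < v α := zero_lt_iff.mpr h0
  intro h
  obtain ⟨k, hk⟩ := exists_zpow_of_cls_eq_one hα0 h0 h
  have hsq0 : v α ^ 2 ≠ 0 := pow_ne_zero 2 h0
  have hsq1 : v α ^ 2 < 1 := pow_lt_one₀ zero_le hα (by norm_num)
  obtain ⟨j, hj⟩ := exists_pow_of_zpow hsq0 hsq1 hα hk
  rw [← pow_mul] at hj
  rcases Nat.eq_zero_or_pos j with h0j | hjpos
  · rw [h0j, mul_zero, pow_zero] at hj
    exact absurd hj hα.ne
  · have : v α ^ (2 * j) < v α := by
      calc v α ^ (2 * j) ≤ v α ^ 2 := pow_le_pow_of_le_one zero_le hα.le (by omega)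
        _ = v α * v α := pow_two _
        _ < v α * 1 := mul_lt_mul_of_pos_left hα hpos
        _ = v α := mul_one _
    exact absurd hj.symm this.ne

namespace NodalModel

variable {W : Affine K} [DecidableEq K]

/-- **(C3c)**, model form. -/
theorem torsion_near_node (M : NodalModel v W) {n : ℕ} (hn : Odd n) {x y : K}
    (h : W.Nonsingular x y) (hP : n • Point.some x y h = 0) (hx : v (x - M.e) < 1) :
    v M.α < v (x - M.e) ∧ ∃ j : ℕ, v (x - M.e) ^ n = v M.α ^ (2 * j) := by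
  have h0 : v M.α ≠ 0 := (Valuation.ne_zero_iff v).mpr M.hα0
  have hμ : 0 < v M.α := zero_lt_iff.mpr h0
  have hc : M.comp (Point.some x y h) ^ n = 1 := by
    rw [← M.comp_nsmul, hP, comp_zero]
  rw [comp_some] at hc
  have hE := (M.equation_iff x y).mp h.1
  have hxi : M.xi x = x - M.e := rfl
  have hsq0 : v M.α ^ 2 ≠ 0 := pow_ne_zero 2 h0
  have hsq1 : v M.α ^ 2 < 1 := pow_lt_one₀ zero_le M.hα (by norm_num)
  have hnpos : 0 < n := hn.pos
  -- the main computation for a middle-range point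
  have main : v M.α < v (x - M.e) → cls v M.α (v (x - M.e)) ^ n = 1 →
      ∃ j : ℕ, v (x - M.e) ^ n = v M.α ^ (2 * j) := by
    intro hlo hcls
    have hr0 : v (x - M.e) ≠ 0 := (hμ.trans hlo).ne'
    have hrn0 : v (x - M.e) ^ n ≠ 0 := pow_ne_zero n hr0
    have hcls' : cls v M.α (v (x - M.e) ^ n) = 1 := by
      rw [← hcls, cls, cls, toU_pow hr0]; rfl
    obtain ⟨k, hk⟩ := exists_zpow_of_cls_eq_one M.hα0 hrn0 hcls'
    have hlt : v (x - M.e) ^ n < 1 := pow_lt_one₀ zero_le hx hnpos.ne'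
    obtain ⟨j, hj⟩ := exists_pow_of_zpow hsq0 hsq1 hlt hk
    exact ⟨j, by rw [hj, ← pow_mul]⟩
  rcases compXY_cases M.h2 M.hα M.hβ M.hγ hE with ⟨hZ, -⟩ | ⟨hM, e⟩ | ⟨hlo, hhi, -, e⟩ |
    ⟨hlo, hhi, -, e⟩
  · rw [hxi] at hZ
    exact absurd hZ (not_le.mpr hx)
  · exfalso
    rw [e] at hc
    obtain ⟨m, rfl⟩ := hn
    have hsq : cls v M.α (v M.α) ^ 2 = 1 :=
      (pow_two _).trans (cls_alpha_mul_self v M.α M.hα0)
    rw [pow_succ, pow_mul, hsq, one_pow, one_mul] at hc
    exact cls_alpha_ne_one M.hα0 M.hα hc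
  · rw [hxi] at hlo
    rw [e, hxi] at hc
    exact ⟨hlo, main hlo hc⟩
  · rw [hxi] at hlo
    rw [e, hxi, inv_pow, inv_eq_one] at hc
    exact ⟨hlo, main hlo hc⟩

end NodalModel

/-- **(C3c)** in the integrator's interface (#944), with the extra datum of a square root `γ`
of `-β` (available in an algebraically closed field). No integrality of the coefficients is
needed. -/
theorem c3c_of_sqrt {W : Affine K} [DecidableEq K] (h2 : v (2 : K) = 1) (e₁ α β γ : K)
    (hγ : γ ^ 2 = -β)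
    (hb2 : W.b₂ = -4 * (3 * e₁ + α + β))
    (hb4 : 2 * W.b₄ = 4 * (e₁ * (e₁ + α) + e₁ * (e₁ + β) + (e₁ + α) * (e₁ + β)))
    (hb6 : W.b₆ = -4 * (e₁ * (e₁ + α) * (e₁ + β)))
    (hα0 : α ≠ 0) (hα : v α < 1) (hβ : v β = 1) (n : ℕ) (hn : Odd n)
    (x y : K) (h : W.Nonsingular x y) (hP : n • Point.some x y h = 0)
    (hx : v (x - e₁) < 1) :
    v α < v (x - e₁) ∧ ∃ j : ℕ, v (x - e₁) ^ n = v α ^ (2 * j) := by
  have h20 : (2 : K) ≠ 0 := by
    intro h0; rw [h0, map_zero] at h2; exact zero_ne_one h2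
  have h40 : (4 : K) ≠ 0 := by
    have : (4 : K) = 2 * 2 := by norm_num
    rw [this]; exact mul_ne_zero h20 h20
  let M : NodalModel v W :=
    { e := e₁, α := α, β := β, γ := γ, h2 := h2, hα := hα, hα0 := hα0, hβ := hβ, hγ := hγ
      hb2 := by
        have := hb2
        rw [WeierstrassCurve.b₂] at this
        field_simp
        linear_combination this
      hb4 := by
        have := hb4
        rw [WeierstrassCurve.b₄] at this
        have this' : 2 * W.a₄ + W.a₁ * W.a₃ =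
            2 * (e₁ * (e₁ + α) + e₁ * (e₁ + β) + (e₁ + α) * (e₁ + β)) :=
          mul_left_cancel₀ h20 (by linear_combination this)
        field_simp
        linear_combination this'
      hb6 := by
        have := hb6
        rw [WeierstrassCurve.b₆] at this
        field_simp
        linear_combination this }
  exact M.torsion_near_node hn h hP hx

/-- **(C3c)** over an algebraically closed field, exactly in the integrator's interface. -/
theorem c3c [IsAlgClosed K] {W : Affine K} [DecidableEq K] (h2 : v (2 : K) = 1) (e₁ α β : K)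
    (hb2 : W.b₂ = -4 * (3 * e₁ + α + β))
    (hb4 : 2 * W.b₄ = 4 * (e₁ * (e₁ + α) + e₁ * (e₁ + β) + (e₁ + α) * (e₁ + β)))
    (hb6 : W.b₆ = -4 * (e₁ * (e₁ + α) * (e₁ + β)))
    (hα0 : α ≠ 0) (hα : v α < 1) (hβ : v β = 1) (n : ℕ) (hn : Odd n)
    (x y : K) (h : W.Nonsingular x y) (hP : n • Point.some x y h = 0)
    (hx : v (x - e₁) < 1) :
    v α < v (x - e₁) ∧ ∃ j : ℕ, v (x - e₁) ^ n = v α ^ (2 * j) := by
  obtain ⟨γ, hγ⟩ := IsAlgClosed.exists_pow_nat_eq (-β) (n := 2) (by norm_num)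
  exact c3c_of_sqrt h2 e₁ α β γ hγ hb2 hb4 hb6 hα0 hα hβ n hn x y h hP hx

end Fermat.Agent.S05.Comp
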