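import Mathlib.AlgebraicGeometry.EllipticCurve.Affine.Point

/-!
# Algebraic identities in the `(z, w) = (-x/y, -1/y)` chart

Helper file for statement S05: pure field identities (no valuations).
-/

set_option autoImplicit false

namespace Fermat.Agent.S05.H245

open WeierstrassCurve WeierstrassCurve.Affine

variable {K : Type*} [Field K] (W : WeierstrassCurve.Affine K)

/-- The Weierstrass equation in the chart `z = -x/y`, `w = -1/y`. -/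
def ZWEq (z w : K) : Prop :=
  w = z ^ 3 + W.a₁ * z * w + W.a₂ * z ^ 2 * w + W.a₃ * w ^ 2 + W.a₄ * z * w ^ 2 + W.a₆ * w ^ 3

/-- numerator of the slope in the `(z, w)` chart -/
def slN (z₁ z₂ w₁ : K) : K :=
  z₂ ^ 2 + z₁ * z₂ + z₁ ^ 2 + W.a₁ * w₁ + W.a₂ * (z₁ + z₂) * w₁ + W.a₄ * w₁ ^ 2

/-- the small part of the denominator of the slope in the `(z, w)` chart -/
def slE (z₂ w₁ w₂ : K) : K :=
  W.a₁ * z₂ + W.a₂ * z₂ ^ 2 + W.a₃ * (w₂ + w₁) + W.a₄ * z₂ * (w₂ + w₁) +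
    W.a₆ * (w₂ ^ 2 + w₂ * w₁ + w₁ ^ 2)

/-- denominator of the slope in the `(z, w)` chart -/
def slD (z₂ w₁ w₂ : K) : K := 1 - slE W z₂ w₁ w₂

/-- leading coefficient of the cubic in `z` cut out by the line `w = l z + n` -/
def cf3 (l : K) : K := 1 + W.a₂ * l + W.a₄ * l ^ 2 + W.a₆ * l ^ 3

/-- the small part of `cf3` -/
def cf3E (l : K) : K := W.a₂ * l + W.a₄ * l ^ 2 + W.a₆ * l ^ 3

/-- second coefficient of the cubic in `z` cut out by the line `w = l z + n` -/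
def cf2 (l n : K) : K :=
  W.a₁ * l + W.a₂ * n + W.a₃ * l ^ 2 + 2 * W.a₄ * l * n + 3 * W.a₆ * l ^ 2 * n

variable {W}

lemma cf3_eq (l : K) : cf3 W l = 1 + cf3E W l := by
  unfold cf3 cf3E; ring

lemma zwEq_of_equation {x y : K} (h : W.Equation x y) (hy : y ≠ 0) :
    ZWEq W (-x / y) (-1 / y) := by
  rw [equation_iff] at h
  unfold ZWEq
  field_simp
  linear_combination (-1 : K) * h

lemma key_identity {z₁ z₂ w₁ w₂ : K} (h₁ : ZWEq W z₁ w₁) (h₂ : ZWEq W z₂ w₂) :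
    (w₂ - w₁) * slD W z₂ w₁ w₂ = (z₂ - z₁) * slN W z₁ z₂ w₁ := by
  unfold ZWEq at h₁ h₂
  unfold slD slE slN
  linear_combination h₂ - h₁


/-- Vieta in the `z`-coordinate, from Vieta in the `x`-coordinate. -/
lemma vieta_z {x₁ x₂ x₃ l n : K}
    (h₁ : x₁ + x₂ + x₃ = l ^ 2 + W.a₁ * l - W.a₂)
    (h₂ : x₁ * x₂ + x₁ * x₃ + x₂ * x₃ = W.a₄ - 2 * l * n - W.a₁ * n - W.a₃ * l)
    (h₃ : x₁ * x₂ * x₃ = n ^ 2 + W.a₃ * n - W.a₆) :
    (l * x₁ + n) * (l * x₂ + n) * (l * x₃ + n) =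
        n ^ 3 - W.a₂ * n ^ 2 * l + W.a₄ * n * l ^ 2 - W.a₆ * l ^ 3 ∧
      x₁ * (l * x₂ + n) * (l * x₃ + n) + x₂ * (l * x₁ + n) * (l * x₃ + n) +
          x₃ * (l * x₁ + n) * (l * x₂ + n) =
        -W.a₁ * n ^ 2 * l - W.a₂ * n ^ 2 + 2 * W.a₄ * n * l + W.a₃ * n * l ^ 2 -
          3 * W.a₆ * l ^ 2 := by
  constructor
  · linear_combination n ^ 2 * l * h₁ + n * l ^ 2 * h₂ + l ^ 3 * h₃
  · linear_combination n ^ 2 * h₁ + 2 * n * l * h₂ + 3 * l ^ 2 * h₃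

variable [DecidableEq K]

/-- Vieta in the `x`-coordinate, extracted from Mathlib's `addPolynomial_slope`. -/
lemma vieta_x {x₁ x₂ y₁ y₂ : K} (h₁ : W.Equation x₁ y₁) (h₂ : W.Equation x₂ y₂)
    (hxy : ¬(x₁ = x₂ ∧ y₁ = W.negY x₂ y₂)) :
    let l := W.slope x₁ x₂ y₁ y₂
    let n := y₁ - l * x₁
    let x₃ := W.addX x₁ x₂ l
    x₁ + x₂ + x₃ = l ^ 2 + W.a₁ * l - W.a₂ ∧
    x₁ * x₂ + x₁ * x₃ + x₂ * x₃ = W.a₄ - 2 * l * n - W.a₁ * n - W.a₃ * l ∧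
    x₁ * x₂ * x₃ = n ^ 2 + W.a₃ * n - W.a₆ := by
  intro l n x₃
  have h := addPolynomial_slope h₁ h₂ hxy
  rw [addPolynomial_eq, neg_inj, Cubic.prod_X_sub_C_eq, Cubic.toPoly_injective] at h
  have hc := congrArg Cubic.c h
  have hd := congrArg Cubic.d h
  simp only at hc hd
  refine ⟨?_, ?_, ?_⟩
  · simp only [x₃, addX]; ring
  · linear_combination -hc
  · linear_combination hd

/-- chord case: the Mathlib slope in terms of the line `w = l z + n` in the `(z, w)` chart. -/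
lemma slope_chord {x₁ x₂ y₁ y₂ l n : K} (hx : x₁ ≠ x₂) (hy₁ : y₁ ≠ 0) (hy₂ : y₂ ≠ 0)
    (hl₁ : -1 / y₁ = l * (-x₁ / y₁) + n) (hl₂ : -1 / y₂ = l * (-x₂ / y₂) + n) :
    n ≠ 0 ∧ W.slope x₁ x₂ y₁ y₂ = l / n ∧ y₁ - W.slope x₁ x₂ y₁ y₂ * x₁ = -1 / n ∧
      y₂ - W.slope x₁ x₂ y₁ y₂ * x₂ = -1 / n := by
  have e₁ : n * y₁ = l * x₁ - 1 := by
    field_simp at hl₁
    linear_combination -hl₁
  have e₂ : n * y₂ = l * x₂ - 1 := by
    field_simp at hl₂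
    linear_combination -hl₂
  have hn : n ≠ 0 := by
    rintro rfl
    have h3 : l * (x₁ - x₂) = 0 := by linear_combination e₂ - e₁
    rcases mul_eq_zero.mp h3 with h | h
    · rw [h] at e₁; simp at e₁
    · exact hx (sub_eq_zero.mp h)
  have hxx : x₁ - x₂ ≠ 0 := sub_ne_zero.mpr hx
  have hs : W.slope x₁ x₂ y₁ y₂ = l / n := by
    rw [slope_of_X_ne hx, div_eq_div_iff hxx hn]
    linear_combination e₁ - e₂
  refine ⟨hn, hs, ?_, ?_⟩
  · rw [hs]; field_simp; linear_combination e₁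
  · rw [hs]; field_simp; linear_combination e₂


/-- tangent case: the Mathlib slope in terms of the line `w = l z + n` in the `(z, w)` chart. -/
lemma slope_tangent {x y l : K} (h : W.Equation x y) (hy : y ≠ 0) (hny : y ≠ W.negY x y)
    (hD : slD W (-x / y) (-1 / y) (-1 / y) ≠ 0)
    (hl : l * slD W (-x / y) (-1 / y) (-1 / y) = slN W (-x / y) (-x / y) (-1 / y)) :
    (-1 / y - l * (-x / y)) ≠ 0 ∧ W.slope x x y y = l / (-1 / y - l * (-x / y)) ∧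
      y - W.slope x x y y * x = -1 / (-1 / y - l * (-x / y)) := by
  have hden : y - W.negY x y ≠ 0 := sub_ne_zero.mpr hny
  have hden' : 2 * y + W.a₁ * x + W.a₃ ≠ 0 := by
    intro h0; apply hden; simp only [negY]; linear_combination h0
  rw [equation_iff] at h
  have hnD : (-1 / y - l * (-x / y)) * slD W (-x / y) (-1 / y) (-1 / y) =
      (2 * y + W.a₁ * x + W.a₃) / y ^ 2 := by
    have : (-1 / y - l * (-x / y)) * slD W (-x / y) (-1 / y) (-1 / y) =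
        (-1 / y) * slD W (-x / y) (-1 / y) (-1 / y) - (-x / y) * slN W (-x / y) (-x / y) (-1 / y) := by
      rw [← hl]; ring
    rw [this]
    unfold slD slE slN
    field_simp
    linear_combination (-3 : K) * h
  have hn : (-1 / y - l * (-x / y)) ≠ 0 := by
    intro h0
    rw [h0, zero_mul] at hnD
    have : (2 * y + W.a₁ * x + W.a₃) / y ^ 2 ≠ 0 := div_ne_zero hden' (pow_ne_zero _ hy)
    exact this hnD.symm
  have hN : slN W (-x / y) (-x / y) (-1 / y) =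
      (3 * x ^ 2 + 2 * W.a₂ * x + W.a₄ - W.a₁ * y) / y ^ 2 := by
    unfold slN
    field_simp
    ring
  have hs : W.slope x x y y = l / (-1 / y - l * (-x / y)) := by
    rw [slope_of_Y_ne rfl hny]
    rw [div_eq_div_iff hden hn]
    have e1 : l = slN W (-x / y) (-x / y) (-1 / y) / slD W (-x / y) (-1 / y) (-1 / y) := by
      rw [eq_div_iff hD]; exact hl
    have e2 : (-1 / y - l * (-x / y)) =
        (2 * y + W.a₁ * x + W.a₃) / y ^ 2 / slD W (-x / y) (-1 / y) (-1 / y) := by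
      rw [eq_div_iff hD]; exact hnD
    rw [e2, e1, hN]
    simp only [negY]
    field_simp
    ring
  refine ⟨hn, hs, ?_⟩
  have e3 : (-1 / y - l * (-x / y)) = (l * x - 1) / y := by field_simp; ring
  have hn' : l * x - 1 ≠ 0 := by
    intro h0; apply hn; rw [e3, h0, zero_div]
  rw [hs, e3]
  field_simp
  ring


/-- The line data in both cases (chord and tangent). -/
lemma slope_line {x₁ x₂ y₁ y₂ l : K} (h₁ : W.Equation x₁ y₁) (h₂ : W.Equation x₂ y₂)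
    (hy₁ : y₁ ≠ 0) (hy₂ : y₂ ≠ 0) (hxy : ¬(x₁ = x₂ ∧ y₁ = W.negY x₂ y₂))
    (hD : slD W (-x₂ / y₂) (-1 / y₁) (-1 / y₂) ≠ 0)
    (hl : l * slD W (-x₂ / y₂) (-1 / y₁) (-1 / y₂) = slN W (-x₁ / y₁) (-x₂ / y₂) (-1 / y₁)) :
    (-1 / y₁ - l * (-x₁ / y₁)) ≠ 0 ∧
      W.slope x₁ x₂ y₁ y₂ = l / (-1 / y₁ - l * (-x₁ / y₁)) ∧
      y₁ - W.slope x₁ x₂ y₁ y₂ * x₁ = -1 / (-1 / y₁ - l * (-x₁ / y₁)) ∧
      y₂ - W.slope x₁ x₂ y₁ y₂ * x₂ = -1 / (-1 / y₁ - l * (-x₁ / y₁)) := by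
  by_cases hx : x₁ = x₂
  · have hy : y₁ ≠ W.negY x₂ y₂ := fun h => hxy ⟨hx, h⟩
    have hyy : y₁ = y₂ := Y_eq_of_Y_ne h₁ h₂ hx hy
    subst hx; subst hyy
    obtain ⟨a, b, c⟩ := slope_tangent h₁ hy₁ hy hD hl
    exact ⟨a, b, c, c⟩
  · have hz₁ := zwEq_of_equation h₁ hy₁
    have hz₂ := zwEq_of_equation h₂ hy₂
    have key := key_identity hz₁ hz₂
    have hl₂ : -1 / y₂ = l * (-x₂ / y₂) + (-1 / y₁ - l * (-x₁ / y₁)) := by
      have : (-1 / y₂ - (-1 / y₁) - l * (-x₂ / y₂ - (-x₁ / y₁))) *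
          slD W (-x₂ / y₂) (-1 / y₁) (-1 / y₂) = 0 := by
        linear_combination key - (-x₂ / y₂ - (-x₁ / y₁)) * hl
      rcases mul_eq_zero.mp this with h | h
      · linear_combination h
      · exact absurd h hD
    have hl₁ : -1 / y₁ = l * (-x₁ / y₁) + (-1 / y₁ - l * (-x₁ / y₁)) := by ring
    exact slope_chord hx hy₁ hy₂ hl₁ hl₂

/-- The third intersection point of the line through two points, in the `(z, w)` chart. -/
theorem third_point {x₁ x₂ y₁ y₂ l : K} (h₁ : W.Equation x₁ y₁) (h₂ : W.Equation x₂ y₂)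
    (hy₁ : y₁ ≠ 0) (hy₂ : y₂ ≠ 0) (hxy : ¬(x₁ = x₂ ∧ y₁ = W.negY x₂ y₂))
    (hD : slD W (-x₂ / y₂) (-1 / y₁) (-1 / y₂) ≠ 0)
    (hl : l * slD W (-x₂ / y₂) (-1 / y₁) (-1 / y₂) = slN W (-x₁ / y₁) (-x₂ / y₂) (-1 / y₁))
    (hc : cf3 W l ≠ 0) :
    W.negAddY x₁ x₂ y₁ (W.slope x₁ x₂ y₁ y₂) ≠ 0 ∧
      -(W.addX x₁ x₂ (W.slope x₁ x₂ y₁ y₂)) / W.negAddY x₁ x₂ y₁ (W.slope x₁ x₂ y₁ y₂) =
        -(cf2 W l (-1 / y₁ - l * (-x₁ / y₁)) / cf3 W l) - (-x₁ / y₁) - (-x₂ / y₂) ∧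
      -1 / W.negAddY x₁ x₂ y₁ (W.slope x₁ x₂ y₁ y₂) =
        l * (-(W.addX x₁ x₂ (W.slope x₁ x₂ y₁ y₂)) /
          W.negAddY x₁ x₂ y₁ (W.slope x₁ x₂ y₁ y₂)) + (-1 / y₁ - l * (-x₁ / y₁)) := by
  obtain ⟨hn, hs, hn₁, hn₂⟩ := slope_line h₁ h₂ hy₁ hy₂ hxy hD hl
  obtain ⟨v1, v2, v3⟩ := vieta_x h₁ h₂ hxy
  obtain ⟨p1, p2⟩ := vieta_z v1 v2 v3
  set s := W.slope x₁ x₂ y₁ y₂ with hsdef
  set n := (-1 / y₁ - l * (-x₁ / y₁)) with hndef
  set x₃ := W.addX x₁ x₂ s with hx₃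
  have hy₃ : W.negAddY x₁ x₂ y₁ s = s * x₃ + (y₁ - s * x₁) := by
    simp only [negAddY]; ring
  set y₃ := W.negAddY x₁ x₂ y₁ s with hy₃def
  set n' := y₁ - s * x₁ with hn'def
  have hn'0 : n' ≠ 0 := by rw [hn₁]; exact div_ne_zero (by simp) hn
  have hsn : s = -l * n' := by rw [hs, hn₁]; field_simp
  have hnn : n = -1 / n' := by rw [hn₁]; field_simp
  have e₁ : s * x₁ + n' = y₁ := by rw [hn'def]; ring
  have e₂ : s * x₂ + n' = y₂ := by rw [hn₁, ← hn₂]; ring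
  rw [e₁, e₂, ← hy₃] at p1 p2
  have hprod : y₁ * y₂ * y₃ = n' ^ 3 * cf3 W l := by
    rw [p1, hsn]; unfold cf3; ring
  have hsum : x₁ * y₂ * y₃ + x₂ * y₁ * y₃ + x₃ * y₁ * y₂ = n' ^ 3 * cf2 W l n := by
    rw [p2, hsn, hnn]; unfold cf2; field_simp; ring
  have hy₃0 : y₃ ≠ 0 := by
    intro h0
    rw [h0, mul_zero] at hprod
    exact (mul_ne_zero (pow_ne_zero 3 hn'0) hc) hprod.symm
  refine ⟨hy₃0, ?_, ?_⟩
  · have : cf2 W l n / cf3 W l = (x₁ * y₂ * y₃ + x₂ * y₁ * y₃ + x₃ * y₁ * y₂) / (y₁ * y₂ * y₃) := by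
      rw [hsum, hprod, mul_div_mul_left _ _ (pow_ne_zero 3 hn'0)]
    rw [this]
    field_simp
    ring
  · rw [hy₃, hsn, hnn]
    have h0 : -l * n' * x₃ + n' ≠ 0 := by
      rw [← hsn, ← hy₃]; exact hy₃0
    have h1 : 1 - l * x₃ ≠ 0 := by
      intro h; apply h0; linear_combination n' * h
    have h2 : -(l * x₃) + 1 ≠ 0 := by
      intro h; apply h1; linear_combination h
    field_simp
    ring

end Fermat.Agent.S05.H245
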