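import Fermat.Agent.S05.H245Basic
import Fermat.Agent.S05.H245Alg

/-!
# Valuation estimates in the kernel of reduction

Helper file for statement S05.
-/

set_option autoImplicit false

namespace Fermat.Agent.S05.H245

open WeierstrassCurve WeierstrassCurve.Affine

variable {K : Type*} [Field K] {Γ₀ : Type*} [LinearOrderedCommGroupWithZero Γ₀]

/-- integrality of the coefficients of a Weierstrass curve with respect to a valuation -/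
structure IntCoeffs (v : Valuation K Γ₀) (W : WeierstrassCurve.Affine K) : Prop where
  a₁ : v W.a₁ ≤ 1
  a₂ : v W.a₂ ≤ 1
  a₃ : v W.a₃ ≤ 1
  a₄ : v W.a₄ ≤ 1
  a₆ : v W.a₆ ≤ 1

variable {v : Valuation K Γ₀} {W : WeierstrassCurve.Affine K}

lemma val_lin_le (hW : IntCoeffs v W) {x : K} (hx : 1 ≤ v x) : v (W.a₁ * x + W.a₃) ≤ v x := by
  apply v.map_add_le
  · rw [map_mul]; exact mul_le_of_le_one_left' hW.a₁
  · exact le_trans hW.a₃ hx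

lemma val_lin_le_one (hW : IntCoeffs v W) {x : K} (hx : v x ≤ 1) : v (W.a₁ * x + W.a₃) ≤ 1 := by
  apply v.map_add_le
  · rw [map_mul]; exact mul_le_one' hW.a₁ hx
  · exact hW.a₃

lemma val_rhs_le_one (hW : IntCoeffs v W) {x : K} (hx : v x ≤ 1) :
    v (x ^ 3 + W.a₂ * x ^ 2 + W.a₄ * x + W.a₆) ≤ 1 := by
  refine v.map_add_le (v.map_add_le (v.map_add_le ?_ ?_) ?_) hW.a₆
  · rw [map_pow]; exact pow_le_one' hx 3
  · rw [map_mul, map_pow]; exact mul_le_one' hW.a₂ (pow_le_one' hx 2)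
  · rw [map_mul]; exact mul_le_one' hW.a₄ hx

/-- For a point with non-integral `x`, we have `v x < v y` and `v y ^ 2 = v x ^ 3`. -/
lemma val_xy (hW : IntCoeffs v W) {x y : K} (h : W.Equation x y) (hx : 1 < v x) :
    v x < v y ∧ v y ^ 2 = v x ^ 3 := by
  rw [equation_iff] at h
  have hx1 : (1 : Γ₀) ≤ v x := hx.le
  have hR : v (x ^ 3 + W.a₂ * x ^ 2 + W.a₄ * x + W.a₆) = v x ^ 3 := by
    have e : x ^ 3 + W.a₂ * x ^ 2 + W.a₄ * x + W.a₆ =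
        x ^ 3 + (W.a₂ * x ^ 2 + W.a₄ * x + W.a₆) := by ring
    rw [e]
    have hlt : v (W.a₂ * x ^ 2 + W.a₄ * x + W.a₆) < v (x ^ 3) := by
      have : v (W.a₂ * x ^ 2 + W.a₄ * x + W.a₆) ≤ v x ^ 2 := by
        refine v.map_add_le (v.map_add_le ?_ ?_) ?_
        · rw [map_mul, map_pow]; exact mul_le_of_le_one_left' hW.a₂
        · rw [map_mul]
          exact le_trans (mul_le_of_le_one_left' hW.a₄) (le_self_pow₀ hx1 (by norm_num))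
        · exact le_trans hW.a₆ (one_le_pow₀ hx1)
      rw [map_pow]
      exact lt_of_le_of_lt this (pow_lt_pow_right₀ hx (by norm_num))
    rw [v.map_add_eq_of_lt_left hlt, map_pow]
  have hL : y ^ 2 + W.a₁ * x * y + W.a₃ * y = y * (y + (W.a₁ * x + W.a₃)) := by ring
  rw [hL] at h
  have hb : v (W.a₁ * x + W.a₃) ≤ v x := val_lin_le hW hx1
  rcases le_or_gt (v y) (v x) with hyx | hyx
  · exfalso
    have : v (y * (y + (W.a₁ * x + W.a₃))) ≤ v x ^ 2 := by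
      rw [map_mul, pow_two]
      exact mul_le_mul' hyx (v.map_add_le hyx hb)
    rw [h, hR] at this
    exact absurd this (not_le.mpr (pow_lt_pow_right₀ hx (by norm_num)))
  · refine ⟨hyx, ?_⟩
    have : v (y + (W.a₁ * x + W.a₃)) = v y := v.map_add_eq_of_lt_left (lt_of_le_of_lt hb hyx)
    rw [← hR, ← h, map_mul, this, pow_two]

/-- If `x` is integral then so is `y`. -/
lemma val_y_le_one (hW : IntCoeffs v W) {x y : K} (h : W.Equation x y) (hx : v x ≤ 1) :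
    v y ≤ 1 := by
  rw [equation_iff] at h
  by_contra hy
  replace hy : 1 < v y := not_le.mp hy
  have hL : y ^ 2 + W.a₁ * x * y + W.a₃ * y = y * (y + (W.a₁ * x + W.a₃)) := by ring
  rw [hL] at h
  have hb : v (W.a₁ * x + W.a₃) ≤ 1 := val_lin_le_one hW hx
  have : v (y + (W.a₁ * x + W.a₃)) = v y := v.map_add_eq_of_lt_left (lt_of_le_of_lt hb hy)
  have h2 : v (y * (y + (W.a₁ * x + W.a₃))) = v y * v y := by rw [map_mul, this]
  rw [h] at h2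
  have h3 := val_rhs_le_one hW hx
  rw [h2] at h3
  have : (1 : Γ₀) < v y * v y := by
    calc (1 : Γ₀) = 1 * 1 := (one_mul 1).symm
      _ < v y * v y := mul_lt_mul'' hy hy zero_le zero_le
  exact absurd h3 (not_le.mpr this)

/-- If `y` is non-integral then so is `x`. -/
lemma one_lt_val_x (hW : IntCoeffs v W) {x y : K} (h : W.Equation x y) (hy : 1 < v y) :
    1 < v x := by
  by_contra hx
  replace hx : v x ≤ 1 := not_lt.mp hx
  exact absurd (val_y_le_one hW h hx) (not_le.mpr hy)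

/-- Basic facts on the `(z, w)` coordinates of a point in the kernel of reduction. -/
lemma val_zw (hW : IntCoeffs v W) {x y : K} (h : W.Equation x y) (hx : 1 < v x) :
    y ≠ 0 ∧ v (-x / y) < 1 ∧ v (-x / y) ≠ 0 ∧ v (-1 / y) = v (-x / y) ^ 3 := by
  obtain ⟨hxy, hpow⟩ := val_xy hW h hx
  have hx0 : 0 < v x := lt_trans zero_lt_one hx
  have hy0 : 0 < v y := lt_trans hx0 hxy
  have hyne : y ≠ 0 := by
    intro h0; rw [h0, map_zero] at hy0; exact lt_irrefl _ hy0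
  refine ⟨hyne, ?_, ?_, ?_⟩
  · rw [map_div₀, v.map_neg, div_lt_one₀ hy0]; exact hxy
  · rw [map_div₀, v.map_neg]; exact div_ne_zero hx0.ne' hy0.ne'
  · rw [map_div₀, map_div₀, v.map_neg, v.map_neg, map_one, div_pow, ← hpow]
    rw [eq_div_iff (pow_ne_zero 3 hy0.ne')]
    rw [one_div, pow_succ, ← mul_assoc, mul_comm ((v y)⁻¹) _, mul_assoc,
      inv_mul_cancel₀ hy0.ne', mul_one]


section bounds

variable {ρ : Γ₀}

lemma bd_slN (hW : IntCoeffs v W) (hρ : ρ ≤ 1) {z₁ z₂ w₁ : K} (hz₁ : Bd v ρ 1 z₁)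
    (hz₂ : Bd v ρ 1 z₂) (hw₁ : Bd v ρ 3 w₁) : Bd v ρ 2 (slN W z₁ z₂ w₁) := by
  unfold slN
  refine Bd.add (Bd.add (Bd.add (Bd.add (Bd.add ?_ ?_) ?_) ?_) ?_) ?_
  · exact hz₂.pow' hρ 2 (by norm_num)
  · exact hz₁.mul' hρ hz₂ (by norm_num)
  · exact hz₁.pow' hρ 2 (by norm_num)
  · exact Bd.smul hW.a₁ (hw₁.mono hρ (by norm_num))
  · exact Bd.mul' hρ (Bd.smul hW.a₂ (hz₁.add hz₂)) hw₁ (by norm_num)
  · exact Bd.smul hW.a₄ (hw₁.pow' hρ 2 (by norm_num))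

lemma bd_slE (hW : IntCoeffs v W) (hρ : ρ ≤ 1) {z₂ w₁ w₂ : K} (hz₂ : Bd v ρ 1 z₂)
    (hw₁ : Bd v ρ 3 w₁) (hw₂ : Bd v ρ 3 w₂) : Bd v ρ 1 (slE W z₂ w₁ w₂) := by
  unfold slE
  have hw₁' : Bd v ρ 1 w₁ := hw₁.mono hρ (by norm_num)
  have hw₂' : Bd v ρ 1 w₂ := hw₂.mono hρ (by norm_num)
  refine Bd.add (Bd.add (Bd.add (Bd.add ?_ ?_) ?_) ?_) ?_
  · exact Bd.smul hW.a₁ hz₂
  · exact Bd.smul hW.a₂ (hz₂.pow' hρ 2 (by norm_num))
  · exact Bd.smul hW.a₃ (hw₂'.add hw₁')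
  · exact Bd.mul' hρ (Bd.smul hW.a₄ hz₂) (hw₂'.add hw₁') (by norm_num)
  · refine Bd.smul hW.a₆ (Bd.add (Bd.add ?_ ?_) ?_)
    · exact hw₂'.pow' hρ 2 (by norm_num)
    · exact hw₂'.mul' hρ hw₁' (by norm_num)
    · exact hw₁'.pow' hρ 2 (by norm_num)

lemma bd_cf3E (hW : IntCoeffs v W) (hρ : ρ ≤ 1) {l : K} (hl : Bd v ρ 2 l) :
    Bd v ρ 2 (cf3E W l) := by
  unfold cf3E
  refine Bd.add (Bd.add ?_ ?_) ?_
  · exact Bd.smul hW.a₂ hl
  · exact Bd.smul hW.a₄ (hl.pow' hρ 2 (by norm_num))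
  · exact Bd.smul hW.a₆ (hl.pow' hρ 3 (by norm_num))

lemma bd_cf2 (hW : IntCoeffs v W) (hρ : ρ ≤ 1) {l n : K} (hl : Bd v ρ 2 l) (hn : Bd v ρ 3 n) :
    Bd v ρ 2 (cf2 W l n) := by
  unfold cf2
  have hn' : Bd v ρ 2 n := hn.mono hρ (by norm_num)
  have h2 : v (2 : K) ≤ 1 := bd_zero_iff.mp (Bd.ofNat (ρ := ρ) 2)
  have h3 : v (3 : K) ≤ 1 := bd_zero_iff.mp (Bd.ofNat (ρ := ρ) 3)
  refine Bd.add (Bd.add (Bd.add (Bd.add ?_ ?_) ?_) ?_) ?_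
  · exact Bd.smul hW.a₁ hl
  · exact Bd.smul hW.a₂ hn'
  · exact Bd.smul hW.a₃ (hl.pow' hρ 2 (by norm_num))
  · have : 2 * W.a₄ * l * n = 2 * (W.a₄ * (l * n)) := by ring
    rw [this]
    exact Bd.smul h2 (Bd.smul hW.a₄ (hl.mul' hρ hn' (by norm_num)))
  · have : 3 * W.a₆ * l ^ 2 * n = 3 * (W.a₆ * (l ^ 2 * n)) := by ring
    rw [this]
    exact Bd.smul h3 (Bd.smul hW.a₆ (Bd.mul' hρ (hl.pow 2) hn' (by norm_num)))

/-- negation: `z(-P) + z(P)` is of second order. -/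
lemma bd_neg (hW : IntCoeffs v W) {x y : K} (h : W.Equation x y) (hx : 1 < v x)
    (hz : Bd v ρ 1 (-x / y)) :
    v (-x / W.negY x y) = v (-x / y) ∧ Bd v ρ 2 (-x / W.negY x y + -x / y) := by
  obtain ⟨hxy, -⟩ := val_xy hW h hx
  obtain ⟨hy, -, -, -⟩ := val_zw hW h hx
  have hb : v (W.a₁ * x + W.a₃) ≤ v x := val_lin_le hW hx.le
  have hneg : W.negY x y = -(y + (W.a₁ * x + W.a₃)) := by simp only [negY]; ring
  have hvn : v (W.negY x y) = v y := by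
    rw [hneg, v.map_neg]
    exact v.map_add_eq_of_lt_left (lt_of_le_of_lt hb hxy)
  have hx0 : 0 < v x := lt_trans zero_lt_one hx
  have hy0 : 0 < v y := lt_trans hx0 hxy
  have hn0 : W.negY x y ≠ 0 := by
    intro h0; rw [h0, map_zero] at hvn; exact hy0.ne' hvn.symm
  refine ⟨by rw [map_div₀, map_div₀, hvn], ?_⟩
  have e : -x / W.negY x y + -x / y = -((-x / W.negY x y) * ((W.a₁ * x + W.a₃) / y)) := by
    rw [hneg] at hn0 ⊢
    have hn1 : y + (W.a₁ * x + W.a₃) ≠ 0 := neg_ne_zero.mp hn0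
    generalize W.a₁ * x + W.a₃ = L at hn1 ⊢
    field_simp
    ring
  have hz' : Bd v ρ 1 (-x / W.negY x y) := by
    unfold Bd at hz ⊢
    rw [map_div₀, hvn, ← map_div₀]; exact hz
  have hz'' : Bd v ρ 1 ((W.a₁ * x + W.a₃) / y) := by
    unfold Bd at hz ⊢
    refine le_trans ?_ hz
    rw [map_div₀, map_div₀, v.map_neg]
    exact div_le_div_of_nonneg_right hb zero_le
  rw [e]
  exact (hz'.mul hz'').neg

end bounds

section main

variable [DecidableEq K] {ρ : Γ₀}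

/-- Core estimate for the sum of two affine points in the kernel of reduction. -/
theorem add_some_E1 (hW : IntCoeffs v W) (hρ : ρ < 1) {x₁ y₁ x₂ y₂ : K}
    (h₁ : W.Equation x₁ y₁) (h₂ : W.Equation x₂ y₂) (hx₁ : 1 < v x₁) (hx₂ : 1 < v x₂)
    (hz₁ : v (-x₁ / y₁) ≤ ρ) (hz₂ : v (-x₂ / y₂) ≤ ρ)
    (hxy : ¬(x₁ = x₂ ∧ y₁ = W.negY x₂ y₂)) :
    1 < v (W.addX x₁ x₂ (W.slope x₁ x₂ y₁ y₂)) ∧
      v (-(W.addX x₁ x₂ (W.slope x₁ x₂ y₁ y₂)) / W.addY x₁ x₂ y₁ (W.slope x₁ x₂ y₁ y₂)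
        - -x₁ / y₁ - -x₂ / y₂) ≤ ρ ^ 2 := by
  have hρ' : ρ ≤ 1 := hρ.le
  obtain ⟨hy₁, -, -, hw₁⟩ := val_zw hW h₁ hx₁
  obtain ⟨hy₂, -, -, hw₂⟩ := val_zw hW h₂ hx₂
  have bz₁ : Bd v ρ 1 (-x₁ / y₁) := bd_one_iff.mpr hz₁
  have bz₂ : Bd v ρ 1 (-x₂ / y₂) := bd_one_iff.mpr hz₂
  have bw₁ : Bd v ρ 3 (-1 / y₁) := by
    unfold Bd; rw [hw₁]; exact pow_le_pow_left' hz₁ 3
  have bw₂ : Bd v ρ 3 (-1 / y₂) := by
    unfold Bd; rw [hw₂]; exact pow_le_pow_left' hz₂ 3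
  have bE := bd_slE hW hρ' bz₂ bw₁ bw₂
  have vD : v (slD W (-x₂ / y₂) (-1 / y₁) (-1 / y₂)) = 1 := by
    unfold slD; exact bE.one_sub hρ (by norm_num)
  have hD : slD W (-x₂ / y₂) (-1 / y₁) (-1 / y₂) ≠ 0 := by
    intro h0; rw [h0, map_zero] at vD; exact zero_ne_one vD
  have bN := bd_slN hW hρ' bz₁ bz₂ bw₁
  set l := slN W (-x₁ / y₁) (-x₂ / y₂) (-1 / y₁) / slD W (-x₂ / y₂) (-1 / y₁) (-1 / y₂) with hldef
  have hl : l * slD W (-x₂ / y₂) (-1 / y₁) (-1 / y₂) = slN W (-x₁ / y₁) (-x₂ / y₂) (-1 / y₁) :=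
    div_mul_cancel₀ _ hD
  have bl : Bd v ρ 2 l := bN.div_unit vD
  have bn : Bd v ρ 3 (-1 / y₁ - l * (-x₁ / y₁)) := bw₁.sub (bl.mul bz₁)
  have vc : v (cf3 W l) = 1 := by
    rw [cf3_eq]; exact (bd_cf3E hW hρ' bl).one_add hρ (by norm_num)
  have hc : cf3 W l ≠ 0 := by
    intro h0; rw [h0, map_zero] at vc; exact zero_ne_one vc
  obtain ⟨hy₃, hz₃, hw₃⟩ := third_point h₁ h₂ hy₁ hy₂ hxy hD hl hc
  have heq := equation_negAdd h₁ h₂ hxy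
  set x₃ := W.addX x₁ x₂ (W.slope x₁ x₂ y₁ y₂) with hx₃def
  set y₃ := W.negAddY x₁ x₂ y₁ (W.slope x₁ x₂ y₁ y₂) with hy₃def
  have bc : Bd v ρ 2 (cf2 W l (-1 / y₁ - l * (-x₁ / y₁)) / cf3 W l) :=
    (bd_cf2 hW hρ' bl bn).div_unit vc
  have bz₃ : Bd v ρ 1 (-x₃ / y₃) := by
    rw [hz₃]
    exact (((bc.mono hρ' (by norm_num)).neg).sub bz₁).sub bz₂
  have bw₃ : Bd v ρ 3 (-1 / y₃) := by
    rw [hw₃]
    exact (bl.mul bz₃).add bn
  have vy₃ : 1 < v y₃ := by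
    have h1 : v (-1 / y₃) < 1 := bw₃.lt_one hρ (by norm_num)
    rw [map_div₀, v.map_neg, map_one] at h1
    have hy0 : 0 < v y₃ := by
      rw [zero_lt_iff]; exact (v.ne_zero_iff).mpr hy₃
    rwa [div_lt_one₀ hy0] at h1
  have vx₃ : 1 < v x₃ := one_lt_val_x hW heq vy₃
  refine ⟨vx₃, ?_⟩
  obtain ⟨-, bneg⟩ := bd_neg hW heq vx₃ bz₃
  have e : -x₃ / W.addY x₁ x₂ y₁ (W.slope x₁ x₂ y₁ y₂) - -x₁ / y₁ - -x₂ / y₂ =
      (-x₃ / W.negY x₃ y₃ + -x₃ / y₃) +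
        (cf2 W l (-1 / y₁ - l * (-x₁ / y₁)) / cf3 W l) := by
    rw [hz₃]; unfold addY; ring
  rw [e]
  have := bneg.add bc
  unfold Bd at this
  exact this

end main

end Fermat.Agent.S05.H245
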