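import Fermat.Agent.S05.C3cNode
import Mathlib.GroupTheory.QuotientGroup.Defs
import Mathlib.Algebra.Group.Subgroup.ZPowers.Basic

/-!
# The crux (C3c): odd torsion points reducing to a node have "rational" valuation

Setting as in `Fermat.Agent.S05.C3c.NodeData`. For a point `P = (x, y)` with `n • P = 0`, `n` odd,
`v n = 1` and `v (x - e₁) < 1` we show `v α < v (x - e₁)` and `v (x - e₁) ^ n = v α ^ (2 * j)`
for some `j : ℕ`.

Method: unsigned "pair law" for the classes of `log v (x(Q) - e₁)` in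
`Additive Γ₀ˣ ⧸ ⟨2 log v α⟩`, up to sign, and induction on multiples of `P`.
-/

set_option autoImplicit false
set_option linter.unusedSectionVars false

namespace Fermat.Agent.S05.C3c

open WeierstrassCurve WeierstrassCurve.Affine
open Fermat.Agent.S05 Fermat.Agent.S05.XId

section sim

variable {G : Type*} [AddCommGroup G]

/-- Equality up to sign. -/
def Sim (a b : G) : Prop := a = b ∨ a = -b

lemma Sim.rfl' (a : G) : Sim a a := Or.inl rfl

lemma Sim.symm {a b : G} (h : Sim a b) : Sim b a := by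
  rcases h with h | h
  · exact Or.inl h.symm
  · exact Or.inr (by rw [h, neg_neg])

lemma Sim.trans {a b c : G} (h₁ : Sim a b) (h₂ : Sim b c) : Sim a c := by
  rcases h₁ with h₁ | h₁ <;> rcases h₂ with h₂ | h₂
  · exact Or.inl (h₁.trans h₂)
  · exact Or.inr (h₁.trans h₂)
  · exact Or.inr (by rw [h₁, h₂])
  · exact Or.inl (by rw [h₁, h₂, neg_neg])

lemma Sim.neg_right {a b : G} (h : Sim a b) : Sim a (-b) := by
  rcases h with h | h
  · exact Or.inr (by rw [h, neg_neg])
  · exact Or.inl h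

lemma sim_zero_iff {a : G} : Sim 0 a ↔ a = 0 := by
  constructor
  · rintro (h | h)
    · exact h.symm
    · exact neg_eq_zero.mp h.symm
  · rintro rfl
    exact Or.inl rfl

/-- The abstract induction: a sequence `h k` with `h 0 = 0`, `h 1 = c` satisfying the unsigned
pair law is, up to sign, `k • c`. -/
lemma sim_nsmul_of_pairLaw (h : ℕ → G) (c : G) (h0 : h 0 = 0) (h1 : h 1 = c)
    (hpl : ∀ k : ℕ, (Sim (h (k + 2)) (h (k + 1) + c) ∧ Sim (h k) (h (k + 1) - c)) ∨
      (Sim (h (k + 2)) (h (k + 1) - c) ∧ Sim (h k) (h (k + 1) + c))) (k : ℕ) :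
    Sim (h k) (k • c) ∧ Sim (h (k + 1)) ((k + 1) • c) := by
  induction k with
  | zero =>
    refine ⟨?_, ?_⟩
    · rw [h0, zero_nsmul]; exact Sim.rfl' _
    · rw [zero_add, h1, one_nsmul]; exact Sim.rfl' _
  | succ k ih =>
    obtain ⟨ih0, ih1⟩ := ih
    refine ⟨ih1, ?_⟩
    -- reduce to the symmetric statement
    have key : (Sim (h (k + 2)) ((k + 2) • c) ∧ Sim (h k) (k • c)) ∨
        (Sim (h (k + 2)) (k • c) ∧ Sim (h k) ((k + 2) • c)) := by
      have eA : (k + 1) • c + c = (k + 2) • c := by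
        rw [← succ_nsmul]
      have eB : (k + 1) • c - c = k • c := by
        rw [succ_nsmul]; abel
      rcases ih1 with e | e
      · have := hpl k
        rw [e, eA, eB] at this
        exact this
      · have eA' : -((k + 1) • c) + c = -(k • c) := by rw [← eB]; abel
        have eB' : -((k + 1) • c) - c = -((k + 2) • c) := by rw [← eA]; abel
        have := hpl k
        rw [e, eA', eB'] at this
        rcases this with ⟨a, b⟩ | ⟨a, b⟩
        · exact Or.inr ⟨by simpa using a.neg_right, by simpa using b.neg_right⟩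
        · exact Or.inl ⟨by simpa using a.neg_right, by simpa using b.neg_right⟩
    rcases key with ⟨a, -⟩ | ⟨a, b⟩
    · exact a
    · -- `h (k+2) ~ k c`, `h k ~ (k+2) c`, `h k ~ k c`
      exact a.trans (ih0.symm.trans b)

end sim

section main

variable {K : Type*} [Field K] [DecidableEq K] {Γ₀ : Type*} [LinearOrderedCommGroupWithZero Γ₀]
  {W : Affine K} {v : Valuation K Γ₀} {e₁ α β : K}

/-- The subgroup of `Additive Γ₀ˣ` generated by `2 log v α`. -/
noncomputable def Zsub (v : Valuation K Γ₀) (α : K) : AddSubgroup (Additive Γ₀ˣ) :=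
  AddSubgroup.zmultiples (L v α + L v α)

/-- The class of `log v (x(Q) - e₁)` modulo `2 log v α` (and `0` for `Q = 0`). -/
noncomputable def Hcls (v : Valuation K Γ₀) (e₁ α : K) : W.Point → (Additive Γ₀ˣ ⧸ Zsub v α)
  | .zero => 0
  | .some x _ _ => QuotientAddGroup.mk (L v (x - e₁))

lemma Hcls_zero : Hcls v e₁ α (0 : W.Point) = 0 := rfl

lemma Hcls_some {x y : K} (h : W.Nonsingular x y) :
    Hcls v e₁ α (Point.some x y h) = QuotientAddGroup.mk (L v (x - e₁)) := rfl

lemma Hcls_neg (Q : W.Point) : Hcls v e₁ α (-Q) = Hcls v e₁ α Q := by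
  rcases Q with _ | ⟨x, y, h⟩
  · rfl
  · rw [Point.neg_some]; rfl

lemma mk_two_log_eq_zero :
    (QuotientAddGroup.mk (L v α + L v α) : Additive Γ₀ˣ ⧸ Zsub v α) = 0 :=
  (QuotientAddGroup.eq_zero_iff _).mpr (AddSubgroup.mem_zmultiples _)

lemma sim_of_eq_add {w r g : Additive Γ₀ˣ}
    (h : w = r + g ∨ w + r + g = L v α + L v α) :
    Sim (QuotientAddGroup.mk w : Additive Γ₀ˣ ⧸ Zsub v α)
      (QuotientAddGroup.mk r + QuotientAddGroup.mk g) := by
  rcases h with h | h
  · left; rw [h]; rfl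
  · right
    have := congrArg (QuotientAddGroup.mk : _ → Additive Γ₀ˣ ⧸ Zsub v α) h
    rw [mk_two_log_eq_zero] at this
    have e : (QuotientAddGroup.mk (w + r + g) : Additive Γ₀ˣ ⧸ Zsub v α) =
        QuotientAddGroup.mk w + QuotientAddGroup.mk r + QuotientAddGroup.mk g := rfl
    rw [e] at this
    rw [eq_neg_iff_add_eq_zero, ← this]
    abel

lemma sim_of_eq_sub {w r g : Additive Γ₀ˣ} (h : w = r - g ∨ w = g - r) :
    Sim (QuotientAddGroup.mk w : Additive Γ₀ˣ ⧸ Zsub v α)
      (QuotientAddGroup.mk r - QuotientAddGroup.mk g) := by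
  rcases h with h | h
  · left; rw [h]; rfl
  · right
    rw [h]
    have e : (QuotientAddGroup.mk (g - r) : Additive Γ₀ˣ ⧸ Zsub v α) =
        QuotientAddGroup.mk g - QuotientAddGroup.mk r := rfl
    rw [e]; abel

/-- The unsigned pair law in the quotient group, including all degenerate cases. -/
theorem pairLaw_quot (hW : SameRed.IntegralCoeffs W v) (N : NodeData W v e₁ α β) {n : ℕ}
    (hn : Odd n) (hvn : v (n : K) = 1) (Q P : W.Point) (hQ : n • Q = 0) (hP : n • P = 0) :
    (Sim (Hcls v e₁ α (Q + P)) (Hcls v e₁ α Q + Hcls v e₁ α P) ∧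
      Sim (Hcls v e₁ α (Q - P)) (Hcls v e₁ α Q - Hcls v e₁ α P)) ∨
    (Sim (Hcls v e₁ α (Q + P)) (Hcls v e₁ α Q - Hcls v e₁ α P) ∧
      Sim (Hcls v e₁ α (Q - P)) (Hcls v e₁ α Q + Hcls v e₁ α P)) := by
  rcases P with _ | ⟨x₂, y₂, h₂⟩
  · left
    have e0 : (Point.zero : W.Point) = 0 := rfl
    rw [e0, add_zero, sub_zero, Hcls_zero, add_zero, sub_zero]
    exact ⟨Sim.rfl' _, Sim.rfl' _⟩
  rcases Q with _ | ⟨x₁, y₁, h₁⟩
  · left
    have e0 : (Point.zero : W.Point) = 0 := rfl
    rw [e0, zero_add, zero_sub, Hcls_zero, zero_add, zero_sub, Hcls_neg]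
    exact ⟨Sim.rfl' _, (Sim.rfl' _).neg_right⟩
  by_cases hx : x₁ = x₂
  · subst hx
    have hc : Hcls v e₁ α (Point.some x₁ y₁ h₁) = Hcls v e₁ α (Point.some x₁ y₂ h₂) := rfl
    obtain ⟨x', y', h', hPP, hlaw⟩ := dupLaw hW N hn hvn h₂ hP
    have hdup : Sim (Hcls v e₁ α (Point.some x₁ y₂ h₂ + Point.some x₁ y₂ h₂))
        (Hcls v e₁ α (Point.some x₁ y₂ h₂) + Hcls v e₁ α (Point.some x₁ y₂ h₂)) := by
      rw [hPP, Hcls_some, Hcls_some]
      exact sim_of_eq_add (by
        rcases hlaw with h | h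
        · exact Or.inl h
        · exact Or.inr h)
    by_cases hy : y₁ = y₂
    · subst hy
      left
      refine ⟨hdup, ?_⟩
      rw [sub_self, sub_self, Hcls_zero]
      exact Sim.rfl' _
    · have hy' : y₁ = W.negY x₁ y₂ := (Y_eq_of_X_eq h₁.1 h₂.1 rfl).resolve_left hy
      have hQneg : Point.some x₁ y₁ h₁ = -Point.some x₁ y₂ h₂ := by
        rw [Point.neg_some]
        congr 1
      right
      rw [hc]
      refine ⟨?_, ?_⟩
      · rw [hQneg, neg_add_cancel, sub_self, Hcls_zero]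
        exact Sim.rfl' _
      · have : Point.some x₁ y₁ h₁ - Point.some x₁ y₂ h₂ =
            -(Point.some x₁ y₂ h₂ + Point.some x₁ y₂ h₂) := by
          rw [hQneg]; abel
        rw [this, Hcls_neg]
        exact hdup
  · obtain ⟨x₃, y₃, x₄, y₄, h₃, h₄, hadd, hsub, hlaw⟩ := pairLaw hW N hn hvn h₁ h₂ hQ hP hx
    rw [hadd, hsub, Hcls_some, Hcls_some, Hcls_some, Hcls_some]
    rcases hlaw with ⟨a, b⟩ | ⟨a, b⟩
    · exact Or.inl ⟨sim_of_eq_add a, sim_of_eq_sub b⟩
    · exact Or.inr ⟨sim_of_eq_sub b, sim_of_eq_add a⟩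

/-- `n • P = 0` forces `n • log v (x - e₁) ∈ ℤ • 2 log v α`. -/
theorem exists_zsmul_eq (hW : SameRed.IntegralCoeffs W v) (N : NodeData W v e₁ α β) {n : ℕ}
    (hn : Odd n) (hvn : v (n : K) = 1) {x y : K} (h : W.Nonsingular x y)
    (hP : n • Point.some x y h = 0) :
    ∃ j : ℤ, j • (L v α + L v α) = n • L v (x - e₁) := by
  have hk : ∀ k : ℕ, n • (k • Point.some x y h) = 0 := fun k => by
    rw [smul_comm, hP, smul_zero]
  have key := sim_nsmul_of_pairLaw (fun k => Hcls v e₁ α (k • Point.some x y h))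
    (Hcls v e₁ α (Point.some x y h)) (by simp [Hcls_zero]) (by simp) (fun k => by
      have e2 : (k + 2) • Point.some x y h = (k + 1) • Point.some x y h + Point.some x y h :=
        succ_nsmul _ (k + 1)
      have e0 : k • Point.some x y h = (k + 1) • Point.some x y h - Point.some x y h := by
        rw [succ_nsmul]; abel
      have := pairLaw_quot hW N hn hvn ((k + 1) • Point.some x y h) (Point.some x y h)
        (hk (k + 1)) hP
      rw [← e2, ← e0] at this
      exact this) n
  have h0 := key.1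
  simp only [hP, Hcls_zero] at h0
  have h1 : n • Hcls v e₁ α (Point.some x y h) = 0 := sim_zero_iff.mp h0
  rw [Hcls_some, ← QuotientAddGroup.mk_nsmul, QuotientAddGroup.eq_zero_iff] at h1
  exact AddSubgroup.mem_zmultiples_iff.mp h1

end main

end Fermat.Agent.S05.C3c
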