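import Fermat.Agent.S05.C3c

/-!
# (C3c) in the integrator's form (#944)
-/

set_option autoImplicit false
set_option linter.unusedSectionVars false

namespace Fermat.Agent.S05.C3c

open WeierstrassCurve WeierstrassCurve.Affine
open Fermat.Agent.S05 Fermat.Agent.S05.XId

section ordered

variable {G : Type*} [AddCommGroup G] [LinearOrder G] [IsOrderedAddMonoid G]

lemma nsmul_nonneg' {a : G} (ha : 0 ≤ a) (m : ℕ) : 0 ≤ m • a := by
  induction m with
  | zero => simp
  | succ m ih => rw [succ_nsmul]; exact add_nonneg ih ha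

/-- If `j • b = a` with `a < 0`, `b < 0` then `j` is a positive natural number. -/
lemma exists_nat_of_zsmul_eq {a b : G} (ha : a < 0) (hb : b < 0) {j : ℤ} (h : j • b = a) :
    ∃ m : ℕ, m • b = a := by
  rcases Int.eq_nat_or_neg j with ⟨m, rfl | rfl⟩
  · exact ⟨m, by rwa [natCast_zsmul] at h⟩
  · exfalso
    rw [neg_zsmul, natCast_zsmul, ← smul_neg] at h
    have : 0 ≤ m • (-b) := nsmul_nonneg' (neg_nonneg.mpr hb.le) m
    rw [h] at this
    exact absurd ha (not_lt.mpr this)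

lemma nsmul_left_injective_of_neg {b : G} (hb : b < 0) {m n : ℕ} (h : m • b = n • b) :
    m = n := by
  have hb' : 0 < -b := neg_pos.mpr hb
  have h' : m • (-b) = n • (-b) := by rw [smul_neg, smul_neg, h]
  rcases lt_trichotomy m n with hlt | heq | hgt
  · exact absurd h' (nsmul_lt_nsmul_left hb' hlt).ne
  · exact heq
  · exact absurd h' (nsmul_lt_nsmul_left hb' hgt).ne'

end ordered

variable {K : Type*} [Field K] [DecidableEq K] {Γ₀ : Type*} [LinearOrderedCommGroupWithZero Γ₀]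
  {W : Affine K} {v : Valuation K Γ₀}

/-- **(C3c)**, structured form. -/
theorem node_torsion_valuation (hW : SameRed.IntegralCoeffs W v) {e₁ α β : K}
    (N : NodeData W v e₁ α β) {n : ℕ} (hn : Odd n) (hvn : v (n : K) = 1) {x y : K}
    (h : W.Nonsingular x y) (hP : n • Point.some x y h = 0) (hx : v (x - e₁) < 1) :
    v α < v (x - e₁) ∧ ∃ j : ℕ, v (x - e₁) ^ n = v α ^ (2 * j) := by
  obtain ⟨hξ, c1, -, -, -⟩ := classC hW N hn hvn h hP
  have hc : L v (x - e₁) < 0 := (L_neg_iff hξ).mpr hx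
  have hℓ : L v α < 0 := (L_neg_iff N.hα0).mpr N.hα
  have hℓ2 : L v α + L v α < 0 := add_neg hℓ hℓ
  have hn0 : n ≠ 0 := hn.pos.ne'
  obtain ⟨j, hj⟩ := exists_zsmul_eq hW N hn hvn h hP
  have hnc : n • L v (x - e₁) < 0 := nsmul_neg hc hn0
  obtain ⟨m, hm⟩ := exists_nat_of_zsmul_eq hnc hℓ2 hj
  have hm' : (2 * m) • L v α = n • L v (x - e₁) := by
    rw [← hm, nsmul_add, ← add_nsmul]
    congr 1
    ring
  refine ⟨?_, m, ?_⟩
  · rw [← L_lt_iff N.hα0 hξ]
    refine lt_of_le_of_ne c1 ?_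
    intro heq
    rw [← heq] at hm'
    have := nsmul_left_injective_of_neg hℓ hm'
    rw [← this] at hn
    exact (Nat.not_odd_iff_even.mpr (even_two_mul m)) hn
  · have : L v ((x - e₁) ^ n) = L v (α ^ (2 * m)) := by
      rw [L_pow hξ, L_pow N.hα0, hm']
    have := (L_eq_iff (pow_ne_zero n hξ) (pow_ne_zero (2 * m) N.hα0)).mp this
    rwa [map_pow, map_pow] at this

/-- **(C3c)** exactly in the form of the integrator's interface (#944). -/
theorem C3c_interface (hW : SameRed.IntegralCoeffs W v) (h2 : v (2 : K) = 1) (e₁ α β : K)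
    (hb2 : W.b₂ = -4 * (3 * e₁ + α + β))
    (hb4 : 2 * W.b₄ = 4 * (e₁ * (e₁ + α) + e₁ * (e₁ + β) + (e₁ + α) * (e₁ + β)))
    (hb6 : W.b₆ = -4 * (e₁ * (e₁ + α) * (e₁ + β)))
    (he : v e₁ ≤ 1) (hα0 : α ≠ 0) (hα : v α < 1) (hβ : v β = 1)
    (n : ℕ) (hn : Odd n) (hvn : v (n : K) = 1) (x y : K) (h : W.Nonsingular x y)
    (hP : n • Point.some x y h = 0) (hx : v (x - e₁) < 1) :
    v α < v (x - e₁) ∧ ∃ j : ℕ, v (x - e₁) ^ n = v α ^ (2 * j) :=
  node_torsion_valuation hW ⟨h2, hb2, hb4, hb6, he, hα0, hα, hβ⟩ hn hvn h hP hx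

end Fermat.Agent.S05.C3c
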