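import Mathlib.RingTheory.Valuation.Basic
import Mathlib.Algebra.Order.Group.Units
import Mathlib.Algebra.Order.Monoid.TypeTags
import Mathlib.Tactic.Ring
import Mathlib.Tactic.Abel
import Mathlib.Tactic.Linarith
import Mathlib.Algebra.Order.Monoid.Unbundled.TypeTags
import Mathlib.Algebra.Order.GroupWithZero.Canonical

/-!
# Additive logarithm of a valuation (S05 helper, used for the node-case crux C3c)

For a valuation `v : Valuation K Γ₀` we define `L v x : Additive Γ₀ˣ`, the "logarithm" of `v x`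
(with junk value `0` at `x = 0`), so that ultrametric case analysis becomes linear arithmetic in an
ordered additive commutative group.
-/

set_option autoImplicit false

namespace Fermat.Agent.S05.C3c

variable {K : Type*} [Field K] {Γ₀ : Type*} [LinearOrderedCommGroupWithZero Γ₀]
  (v : Valuation K Γ₀)

open Classical in
/-- The additive logarithm of the valuation (junk value `0` at `0`). -/
noncomputable def L (x : K) : Additive Γ₀ˣ :=
  if h : x = 0 then 0 else Additive.ofMul (Units.mk0 (v x) ((v.ne_zero_iff).mpr h))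

variable {v}

lemma L_of_ne {x : K} (h : x ≠ 0) :
    L v x = Additive.ofMul (Units.mk0 (v x) ((v.ne_zero_iff).mpr h)) := by
  rw [L, dif_neg h]

lemma L_mul {x y : K} (hx : x ≠ 0) (hy : y ≠ 0) : L v (x * y) = L v x + L v y := by
  rw [L_of_ne hx, L_of_ne hy, L_of_ne (mul_ne_zero hx hy), ← ofMul_mul]
  congr 1
  ext
  simp

lemma L_pow {x : K} (hx : x ≠ 0) (n : ℕ) : L v (x ^ n) = n • L v x := by
  induction n with
  | zero =>
    rw [pow_zero, zero_smul, L_of_ne one_ne_zero]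
    have : Units.mk0 (v (1 : K)) ((v.ne_zero_iff).mpr one_ne_zero) = 1 := by
      ext; simp
    rw [this]; rfl
  | succ n ih =>
    rw [pow_succ, L_mul (pow_ne_zero n hx) hx, ih, succ_nsmul]

lemma L_le_iff {x y : K} (hx : x ≠ 0) (hy : y ≠ 0) : L v x ≤ L v y ↔ v x ≤ v y := by
  rw [L_of_ne hx, L_of_ne hy, Additive.ofMul_le, ← Units.val_le_val]
  simp

lemma L_lt_iff {x y : K} (hx : x ≠ 0) (hy : y ≠ 0) : L v x < L v y ↔ v x < v y := by
  rw [lt_iff_not_ge, lt_iff_not_ge, L_le_iff hy hx]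

lemma L_eq_iff {x y : K} (hx : x ≠ 0) (hy : y ≠ 0) : L v x = L v y ↔ v x = v y := by
  rw [le_antisymm_iff, le_antisymm_iff, L_le_iff hx hy, L_le_iff hy hx]

lemma L_one : L v (1 : K) = 0 := by
  have := L_pow (v := v) (x := (1 : K)) one_ne_zero 0
  simpa using this

lemma L_nonpos_iff {x : K} (hx : x ≠ 0) : L v x ≤ 0 ↔ v x ≤ 1 := by
  rw [← L_one (v := v), L_le_iff hx one_ne_zero, map_one]

lemma L_neg_iff {x : K} (hx : x ≠ 0) : L v x < 0 ↔ v x < 1 := by
  rw [← L_one (v := v), L_lt_iff hx one_ne_zero, map_one]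

lemma L_eq_zero_iff {x : K} (hx : x ≠ 0) : L v x = 0 ↔ v x = 1 := by
  rw [← L_one (v := v), L_eq_iff hx one_ne_zero, map_one]

lemma L_neg (x : K) : L v (-x) = L v x := by
  by_cases hx : x = 0
  · simp [hx]
  · rw [L_of_ne hx, L_of_ne (neg_ne_zero.mpr hx)]
    congr 1
    ext
    simp

lemma L_add_le {x y : K} (hx : x ≠ 0) (hy : y ≠ 0) (hxy : x + y ≠ 0) :
    L v (x + y) ≤ max (L v x) (L v y) := by
  rcases v.map_add' x y with h | h
  · exact le_max_of_le_left ((L_le_iff hxy hx).mpr h)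
  · exact le_max_of_le_right ((L_le_iff hxy hy).mpr h)

lemma add_ne_zero_of_L_ne {x y : K} (h : L v x ≠ L v y) : x + y ≠ 0 := by
  intro h0
  have : x = -y := eq_neg_of_add_eq_zero_left h0
  rw [this, L_neg] at h
  exact h rfl

lemma L_add_eq {x y : K} (hx : x ≠ 0) (hy : y ≠ 0) (h : L v x ≠ L v y) :
    L v (x + y) = max (L v x) (L v y) := by
  have hxy := add_ne_zero_of_L_ne h
  have hv : v x ≠ v y := fun e => h ((L_eq_iff hx hy).mpr e)
  have hmax := v.map_add_of_distinct_val hv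
  rcases lt_or_gt_of_ne hv with hlt | hlt
  · rw [max_eq_right hlt.le] at hmax
    have hle : L v x ≤ L v y := (L_le_iff hx hy).mpr hlt.le
    rw [max_eq_right hle]
    exact (L_eq_iff hxy hy).mpr hmax
  · rw [max_eq_left hlt.le] at hmax
    have hle : L v y ≤ L v x := (L_le_iff hy hx).mpr hlt.le
    rw [max_eq_left hle]
    exact (L_eq_iff hxy hx).mpr hmax

lemma L_sub_le {x y : K} (hx : x ≠ 0) (hy : y ≠ 0) (hxy : x - y ≠ 0) :
    L v (x - y) ≤ max (L v x) (L v y) := by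
  have := L_add_le (v := v) hx (neg_ne_zero.mpr hy) (by rwa [← sub_eq_add_neg])
  rwa [← sub_eq_add_neg, L_neg] at this

lemma sub_ne_zero_of_L_ne {x y : K} (h : L v x ≠ L v y) : x - y ≠ 0 := by
  rw [sub_eq_add_neg]
  exact add_ne_zero_of_L_ne (v := v) (by rwa [L_neg])

lemma L_sub_eq {x y : K} (hx : x ≠ 0) (hy : y ≠ 0) (h : L v x ≠ L v y) :
    L v (x - y) = max (L v x) (L v y) := by
  have := L_add_eq (v := v) hx (neg_ne_zero.mpr hy) (by rwa [L_neg])
  rwa [← sub_eq_add_neg, L_neg] at this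

/-- Test: linear arithmetic in `Additive Γ₀ˣ` via `grind`. -/
example (M r g w3 w4 D E s : Additive Γ₀ˣ)
    (hr0 : 0 ≤ r) (hrM : r ≤ M) (hg0 : 0 ≤ g) (hgM : g ≤ M)
    (h30 : 0 ≤ w3) (h3M : w3 ≤ M) (h40 : 0 ≤ w4) (h4M : w4 ≤ M)
    (hPi : D + D + w3 + w4 = E + E) (hDelta : s + D + D = r + g)
    (hD : min r g ≤ D) (hD' : r ≠ g → D = min r g)
    (hE : min (r + g) M ≤ E) (hE' : r + g ≠ M → E = min (r + g) M)
    (hs : min w3 w4 ≤ s) (hs' : w3 ≠ w4 → s = min w3 w4) :
    ((w3 = r + g ∨ w3 + r + g = M + M) ∧ (w4 = r - g ∨ w4 = g - r)) ∨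
    ((w4 = r + g ∨ w4 + r + g = M + M) ∧ (w3 = r - g ∨ w3 = g - r)) := by
  grind

end Fermat.Agent.S05.C3c
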