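import Fermat.Agent.S05.C1b
import Fermat.Agent.S05.C3cLog
import Mathlib.Tactic.FieldSimp
import Mathlib.Tactic.LinearCombination

/-!
# The crux (C3c), part 1: polynomial identities at a node and the "class C" estimates

Setting: `W` a Weierstrass curve over a valued field `(K, v)` with `v`-integral coefficients,
`v 2 = 1`, and `4x³ + b₂x² + 2b₄x + b₆ = 4 (x - e₁) (x - e₁ - α) (x - e₁ - β)` with
`v e₁ ≤ 1`, `0 < v α < 1`, `v β = 1` (two of the 2-torsion points collide in the node `x ≡ e₁`).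
-/

set_option autoImplicit false

namespace Fermat.Agent.S05.C3c

open WeierstrassCurve WeierstrassCurve.Affine
open Fermat.Agent.S05 Fermat.Agent.S05.XId

variable {K : Type*} [Field K] {Γ₀ : Type*} [LinearOrderedCommGroupWithZero Γ₀]

/-- The data of a node at `x ≡ e₁`. -/
structure NodeData (W : Affine K) (v : Valuation K Γ₀) (e₁ α β : K) : Prop where
  h2 : v (2 : K) = 1
  hb2 : W.b₂ = -4 * (3 * e₁ + α + β)
  hb4 : 2 * W.b₄ = 4 * (e₁ * (e₁ + α) + e₁ * (e₁ + β) + (e₁ + α) * (e₁ + β))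
  hb6 : W.b₆ = -4 * (e₁ * (e₁ + α) * (e₁ + β))
  he : v e₁ ≤ 1
  hα0 : α ≠ 0
  hα : v α < 1
  hβ : v β = 1

namespace NodeData

variable {W : Affine K} {v : Valuation K Γ₀} {e₁ α β : K} (N : NodeData W v e₁ α β)
include N

lemma two_ne_zero : (2 : K) ≠ 0 := by
  intro h
  have := N.h2
  rw [h, map_zero] at this
  exact zero_ne_one this

lemma four_ne_zero : (4 : K) ≠ 0 := by
  have h := N.two_ne_zero
  have : (4 : K) = 2 * 2 := by norm_num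
  rw [this]
  exact mul_ne_zero h h

lemma v_four : v (4 : K) = 1 := by
  have : (4 : K) = 2 * 2 := by norm_num
  rw [this, map_mul, N.h2, mul_one]

lemma β_ne_zero : β ≠ 0 := by
  intro h
  have := N.hβ
  rw [h, map_zero] at this
  exact zero_ne_one this

lemma b₄_eq : W.b₄ = 2 * (e₁ * (e₁ + α) + e₁ * (e₁ + β) + (e₁ + α) * (e₁ + β)) := by
  apply mul_left_cancel₀ N.two_ne_zero
  rw [N.hb4]; ring

lemma b₈_eq : W.b₈ = (W.b₂ * W.b₆ - W.b₄ ^ 2) / 4 := by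
  have h4 := N.four_ne_zero
  field_simp
  linear_combination W.b_relation

lemma dblDen_eq (x : K) :
    dblDen W x = 4 * ((x - e₁) * ((x - e₁ - α) * (x - e₁ - β))) := by
  simp only [dblDen, N.hb2, N.b₄_eq, N.hb6]
  ring

lemma dblNum_eq (x : K) :
    dblNum W x - e₁ * dblDen W x = ((x - e₁) ^ 2 - α * β) ^ 2 := by
  have h4 := N.four_ne_zero
  simp only [dblNum, dblDen, N.b₈_eq, N.hb2, N.b₄_eq, N.hb6]
  field_simp
  ring

lemma prod_eq (x₁ x₂ : K) :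
    prodNum W x₁ x₂ - e₁ * sumNum W x₁ x₂ + e₁ ^ 2 * (x₁ - x₂) ^ 2 =
      ((x₁ - e₁) * (x₂ - e₁) - α * β) ^ 2 := by
  have h4 := N.four_ne_zero
  simp only [prodNum, sumNum, N.b₈_eq, N.hb2, N.b₄_eq, N.hb6]
  field_simp
  ring

lemma delta_eq (x₁ x₂ : K) :
    sumNum W x₁ x₂ ^ 2 - 4 * (x₁ - x₂) ^ 2 * prodNum W x₁ x₂ = dblDen W x₁ * dblDen W x₂ := by
  have h4 := N.four_ne_zero
  simp only [prodNum, sumNum, dblDen, N.b₈_eq, N.hb2, N.b₄_eq, N.hb6]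
  field_simp
  ring

end NodeData

section torsion

variable [DecidableEq K] {W : Affine K} {v : Valuation K Γ₀} {e₁ α β : K}

/-- A point of odd order which is killed by `2` is zero. -/
lemma eq_zero_of_add_self_eq_zero {n : ℕ} (hn : Odd n) (Q : W.Point) (hQ : n • Q = 0)
    (h2 : Q + Q = 0) : Q = 0 := by
  obtain ⟨m, rfl⟩ := hn
  have : (2 * m + 1) • Q = m • (Q + Q) + Q := by
    rw [add_nsmul, one_nsmul, mul_comm, mul_nsmul, two_nsmul, nsmul_add]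
  rw [this, h2, nsmul_zero, zero_add] at hQ
  exact hQ

/-- A nonzero point of odd order is not 2-torsion. -/
lemma Y_ne_negY_of_odd_torsion {n : ℕ} (hn : Odd n) {x y : K} (h : W.Nonsingular x y)
    (hQ : n • Point.some x y h = 0) : y ≠ W.negY x y := by
  intro hy
  have := Point.add_self_of_Y_eq (h₁ := h) hy
  exact Point.some_ne_zero h (eq_zero_of_add_self_eq_zero hn _ hQ this)

lemma dblDen_ne_zero_of_odd_torsion {n : ℕ} (hn : Odd n) {x y : K} (h : W.Nonsingular x y)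
    (hQ : n • Point.some x y h = 0) : dblDen W x ≠ 0 := by
  rw [← sub_negY_sq W h.1]
  exact pow_ne_zero 2 (sub_ne_zero.mpr (Y_ne_negY_of_odd_torsion hn h hQ))

/-- **Class C**: a nonzero torsion point `Q = (x, y)` of odd order prime to the residue
characteristic satisfies `v α ≤ v (x - e₁) ≤ 1` and `v (ψ₂(Q))² = v (x - e₁)²`. -/
theorem classC (hW : SameRed.IntegralCoeffs W v) (N : NodeData W v e₁ α β) {n : ℕ}
    (hn : Odd n) (hvn : v (n : K) = 1) {x y : K} (h : W.Nonsingular x y)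
    (hQ : n • Point.some x y h = 0) :
    x - e₁ ≠ 0 ∧ L v α ≤ L v (x - e₁) ∧ L v (x - e₁) ≤ 0 ∧ dblDen W x ≠ 0 ∧
      L v (dblDen W x) = L v (x - e₁) + L v (x - e₁) := by
  have hx1 : v x ≤ 1 := (C1b.val_x_le_one_of_nsmul_eq_zero hW hvn h hQ).1
  have hy2 := Y_ne_negY_of_odd_torsion hn h hQ
  have hden := dblDen_ne_zero_of_odd_torsion hn h hQ
  obtain ⟨x', y', h', hPP, hdbl, -⟩ := add_self_some h hy2
  have hQ' : n • Point.some x' y' h' = 0 := by rw [← hPP, nsmul_add, hQ, add_zero]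
  have hx'1 : v x' ≤ 1 := (C1b.val_x_le_one_of_nsmul_eq_zero hW hvn h' hQ').1
  have hden' := dblDen_ne_zero_of_odd_torsion hn h' hQ'
  have e_den : dblDen W x = 4 * ((x - e₁) * ((x - e₁ - α) * (x - e₁ - β))) := N.dblDen_eq x
  have e_den' := N.dblDen_eq x'
  have h4 := N.four_ne_zero
  have hξ : x - e₁ ≠ 0 := by
    intro h0; apply hden; rw [e_den, h0]; ring
  have hξα : x - e₁ - α ≠ 0 := by
    intro h0; apply hden; rw [e_den, h0]; ring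
  have hξβ : x - e₁ - β ≠ 0 := by
    intro h0; apply hden; rw [e_den, h0]; ring
  have hξ' : x' - e₁ ≠ 0 := by
    intro h0; apply hden'; rw [e_den', h0]; ring
  have key : (x' - e₁) * dblDen W x = ((x - e₁) ^ 2 - α * β) ^ 2 := by
    rw [← N.dblNum_eq, ← hdbl]; ring
  have hE0 : (x - e₁) ^ 2 - α * β ≠ 0 := by
    intro h0
    rw [h0] at key
    have : (x' - e₁) * dblDen W x ≠ 0 := mul_ne_zero hξ' hden
    exact this (by rw [key]; ring)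
  have La' : L v (x' - e₁) ≤ 0 := (L_nonpos_iff hξ').mpr (v.map_sub_le hx'1 N.he)
  have La : L v (x - e₁) ≤ 0 := (L_nonpos_iff hξ).mpr (v.map_sub_le hx1 N.he)
  have Lℓ : L v α < 0 := (L_neg_iff N.hα0).mpr N.hα
  have Lβ : L v β = 0 := (L_eq_zero_iff N.β_ne_zero).mpr N.hβ
  have L4 : L v (4 : K) = 0 := (L_eq_zero_iff h4).mpr N.v_four
  have Lden : L v (dblDen W x) = L v (x - e₁) + (L v (x - e₁ - α) + L v (x - e₁ - β)) := by
    rw [e_den, L_mul h4 (mul_ne_zero hξ (mul_ne_zero hξα hξβ)), L4, zero_add,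
      L_mul hξ (mul_ne_zero hξα hξβ), L_mul hξα hξβ]
  have hkey : L v (x' - e₁) + (L v (x - e₁) + (L v (x - e₁ - α) + L v (x - e₁ - β))) =
      L v ((x - e₁) ^ 2 - α * β) + L v ((x - e₁) ^ 2 - α * β) := by
    have := congrArg (L v) key
    rwa [L_mul hξ' hden, Lden, L_pow hE0, two_nsmul] at this
  have Lsq : L v ((x - e₁) ^ 2) = L v (x - e₁) + L v (x - e₁) := by
    rw [L_pow hξ, two_nsmul]
  have Lαβ : L v (α * β) = L v α := by
    rw [L_mul N.hα0 N.β_ne_zero, Lβ, add_zero]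
  have h1 : L v (x - e₁ - α) ≤ max (L v (x - e₁)) (L v α) := L_sub_le hξ N.hα0 hξα
  have h1' : L v (x - e₁) ≠ L v α → L v (x - e₁ - α) = max (L v (x - e₁)) (L v α) :=
    L_sub_eq hξ N.hα0
  have h2 : L v (x - e₁ - β) ≤ max (L v (x - e₁)) (L v β) := L_sub_le hξ N.β_ne_zero hξβ
  have h2' : L v (x - e₁) ≠ L v β → L v (x - e₁ - β) = max (L v (x - e₁)) (L v β) :=
    L_sub_eq hξ N.β_ne_zero
  have h3 : L v ((x - e₁) ^ 2 - α * β) ≤ max (L v ((x - e₁) ^ 2)) (L v (α * β)) :=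
    L_sub_le (pow_ne_zero 2 hξ) (mul_ne_zero N.hα0 N.β_ne_zero) hE0
  have h3' : L v ((x - e₁) ^ 2) ≠ L v (α * β) →
      L v ((x - e₁) ^ 2 - α * β) = max (L v ((x - e₁) ^ 2)) (L v (α * β)) :=
    L_sub_eq (pow_ne_zero 2 hξ) (mul_ne_zero N.hα0 N.β_ne_zero)
  rw [Lsq, Lαβ] at h3 h3'
  rw [Lβ] at h2 h2'
  refine ⟨hξ, ?_, La, hden, ?_⟩
  · grind
  · rw [Lden]
    grind

/-- **Duplication law** for odd-order torsion points near/away from the node. -/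
theorem dupLaw (hW : SameRed.IntegralCoeffs W v) (N : NodeData W v e₁ α β) {n : ℕ}
    (hn : Odd n) (hvn : v (n : K) = 1) {x y : K} (h : W.Nonsingular x y)
    (hQ : n • Point.some x y h = 0) :
    ∃ (x' y' : K) (h' : W.Nonsingular x' y'),
      Point.some x y h + Point.some x y h = Point.some x' y' h' ∧
      (L v (x' - e₁) = L v (x - e₁) + L v (x - e₁) ∨
        L v (x' - e₁) + L v (x - e₁) + L v (x - e₁) = L v α + L v α) := by
  have hy2 := Y_ne_negY_of_odd_torsion hn h hQ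
  obtain ⟨x', y', h', hPP, hdbl, -⟩ := add_self_some h hy2
  have hQ' : n • Point.some x' y' h' = 0 := by rw [← hPP, nsmul_add, hQ, add_zero]
  obtain ⟨hξ, c1, c2, hden, c3⟩ := classC hW N hn hvn h hQ
  obtain ⟨hξ', c1', c2', hden', c3'⟩ := classC hW N hn hvn h' hQ'
  refine ⟨x', y', h', hPP, ?_⟩
  have key : (x' - e₁) * dblDen W x = ((x - e₁) ^ 2 - α * β) ^ 2 := by
    rw [← N.dblNum_eq, ← hdbl]; ring
  have hE0 : (x - e₁) ^ 2 - α * β ≠ 0 := by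
    intro h0
    rw [h0] at key
    have : (x' - e₁) * dblDen W x ≠ 0 := mul_ne_zero hξ' hden
    exact this (by rw [key]; ring)
  have Lℓ : L v α < 0 := (L_neg_iff N.hα0).mpr N.hα
  have Lβ : L v β = 0 := (L_eq_zero_iff N.β_ne_zero).mpr N.hβ
  have hkey : L v (x' - e₁) + (L v (x - e₁) + L v (x - e₁)) =
      L v ((x - e₁) ^ 2 - α * β) + L v ((x - e₁) ^ 2 - α * β) := by
    have := congrArg (L v) key
    rwa [L_mul hξ' hden, c3, L_pow hE0, two_nsmul] at this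
  have Lsq : L v ((x - e₁) ^ 2) = L v (x - e₁) + L v (x - e₁) := by
    rw [L_pow hξ, two_nsmul]
  have Lαβ : L v (α * β) = L v α := by
    rw [L_mul N.hα0 N.β_ne_zero, Lβ, add_zero]
  have h3 : L v ((x - e₁) ^ 2 - α * β) ≤ max (L v ((x - e₁) ^ 2)) (L v (α * β)) :=
    L_sub_le (pow_ne_zero 2 hξ) (mul_ne_zero N.hα0 N.β_ne_zero) hE0
  have h3' : L v ((x - e₁) ^ 2) ≠ L v (α * β) →
      L v ((x - e₁) ^ 2 - α * β) = max (L v ((x - e₁) ^ 2)) (L v (α * β)) :=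
    L_sub_eq (pow_ne_zero 2 hξ) (mul_ne_zero N.hα0 N.β_ne_zero)
  rw [Lsq, Lαβ] at h3 h3'
  grind

/-- **Pair law** (unsigned): for odd-order torsion points `Q₁ = (x₁, y₁)`, `Q₂ = (x₂, y₂)` with
`x₁ ≠ x₂`, the logarithmic valuations of `x(Q₁ ± Q₂) - e₁` are, in some order and up to sign and
multiples of `2 log v α`, the sum and the difference of those of `x₁ - e₁`, `x₂ - e₁`. -/
theorem pairLaw (hW : SameRed.IntegralCoeffs W v) (N : NodeData W v e₁ α β) {n : ℕ}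
    (hn : Odd n) (hvn : v (n : K) = 1) {x₁ y₁ x₂ y₂ : K} (h₁ : W.Nonsingular x₁ y₁)
    (h₂ : W.Nonsingular x₂ y₂) (hQ₁ : n • Point.some x₁ y₁ h₁ = 0)
    (hQ₂ : n • Point.some x₂ y₂ h₂ = 0) (hx : x₁ ≠ x₂) :
    ∃ (x₃ y₃ x₄ y₄ : K) (h₃ : W.Nonsingular x₃ y₃) (h₄ : W.Nonsingular x₄ y₄),
      Point.some x₁ y₁ h₁ + Point.some x₂ y₂ h₂ = Point.some x₃ y₃ h₃ ∧
      Point.some x₁ y₁ h₁ - Point.some x₂ y₂ h₂ = Point.some x₄ y₄ h₄ ∧
      (((L v (x₃ - e₁) = L v (x₁ - e₁) + L v (x₂ - e₁) ∨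
          L v (x₃ - e₁) + L v (x₁ - e₁) + L v (x₂ - e₁) = L v α + L v α) ∧
        (L v (x₄ - e₁) = L v (x₁ - e₁) - L v (x₂ - e₁) ∨
          L v (x₄ - e₁) = L v (x₂ - e₁) - L v (x₁ - e₁))) ∨
       ((L v (x₄ - e₁) = L v (x₁ - e₁) + L v (x₂ - e₁) ∨
          L v (x₄ - e₁) + L v (x₁ - e₁) + L v (x₂ - e₁) = L v α + L v α) ∧
        (L v (x₃ - e₁) = L v (x₁ - e₁) - L v (x₂ - e₁) ∨
          L v (x₃ - e₁) = L v (x₂ - e₁) - L v (x₁ - e₁)))) := by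
  obtain ⟨x₃, y₃, x₄, y₄, h₃, h₄, hadd, hsub, hsum, hprod⟩ := add_sub_some h₁ h₂ hx
  have hQ₃ : n • Point.some x₃ y₃ h₃ = 0 := by rw [← hadd, nsmul_add, hQ₁, hQ₂, add_zero]
  have hQ₄ : n • Point.some x₄ y₄ h₄ = 0 := by rw [← hsub, nsmul_sub, hQ₁, hQ₂, sub_zero]
  obtain ⟨hξ₁, a1, b1, hden₁, d1⟩ := classC hW N hn hvn h₁ hQ₁
  obtain ⟨hξ₂, a2, b2, hden₂, d2⟩ := classC hW N hn hvn h₂ hQ₂
  obtain ⟨hξ₃, a3, b3, hden₃, d3⟩ := classC hW N hn hvn h₃ hQ₃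
  obtain ⟨hξ₄, a4, b4, hden₄, d4⟩ := classC hW N hn hvn h₄ hQ₄
  refine ⟨x₃, y₃, x₄, y₄, h₃, h₄, hadd, hsub, ?_⟩
  have hD0 : x₁ - x₂ ≠ 0 := sub_ne_zero.mpr hx
  have hPi : (x₁ - x₂) ^ 2 * ((x₃ - e₁) * (x₄ - e₁)) =
      ((x₁ - e₁) * (x₂ - e₁) - α * β) ^ 2 := by
    rw [← N.prod_eq, ← hsum, ← hprod]; ring
  have hDel : (x₁ - x₂) ^ 4 * (x₃ - x₄) ^ 2 = dblDen W x₁ * dblDen W x₂ := by
    rw [← N.delta_eq, ← hsum, ← hprod]; ring
  have hE0 : (x₁ - e₁) * (x₂ - e₁) - α * β ≠ 0 := by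
    intro h0
    rw [h0] at hPi
    have : (x₁ - x₂) ^ 2 * ((x₃ - e₁) * (x₄ - e₁)) ≠ 0 :=
      mul_ne_zero (pow_ne_zero 2 hD0) (mul_ne_zero hξ₃ hξ₄)
    exact this (by rw [hPi]; ring)
  have hs0 : x₃ - x₄ ≠ 0 := by
    intro h0
    rw [h0] at hDel
    have : dblDen W x₁ * dblDen W x₂ ≠ 0 := mul_ne_zero hden₁ hden₂
    exact this (by rw [← hDel]; ring)
  have Lℓ : L v α < 0 := (L_neg_iff N.hα0).mpr N.hα
  have Lβ : L v β = 0 := (L_eq_zero_iff N.β_ne_zero).mpr N.hβ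
  have LPi : (L v (x₁ - x₂) + L v (x₁ - x₂)) + (L v (x₃ - e₁) + L v (x₄ - e₁)) =
      L v ((x₁ - e₁) * (x₂ - e₁) - α * β) + L v ((x₁ - e₁) * (x₂ - e₁) - α * β) := by
    have := congrArg (L v) hPi
    rwa [L_mul (pow_ne_zero 2 hD0) (mul_ne_zero hξ₃ hξ₄), L_pow hD0, L_mul hξ₃ hξ₄,
      L_pow hE0, two_nsmul, two_nsmul] at this
  have LDel : (L v (x₁ - x₂) + L v (x₁ - x₂) + L v (x₁ - x₂) + L v (x₁ - x₂)) +
      (L v (x₃ - x₄) + L v (x₃ - x₄)) =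
      (L v (x₁ - e₁) + L v (x₁ - e₁)) + (L v (x₂ - e₁) + L v (x₂ - e₁)) := by
    have := congrArg (L v) hDel
    rw [L_mul (pow_ne_zero 4 hD0) (pow_ne_zero 2 hs0), L_pow hD0, L_pow hs0,
      L_mul hden₁ hden₂, d1, d2, two_nsmul] at this
    rw [← this]
    simp only [succ_nsmul, zero_nsmul, zero_add]
  have eD : x₁ - x₂ = (x₁ - e₁) - (x₂ - e₁) := by ring
  have es : x₃ - x₄ = (x₃ - e₁) - (x₄ - e₁) := by ring
  have hD : L v (x₁ - x₂) ≤ max (L v (x₁ - e₁)) (L v (x₂ - e₁)) := by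
    rw [eD]; exact L_sub_le hξ₁ hξ₂ (by rwa [← eD])
  have hD' : L v (x₁ - e₁) ≠ L v (x₂ - e₁) →
      L v (x₁ - x₂) = max (L v (x₁ - e₁)) (L v (x₂ - e₁)) := by
    rw [eD]; exact L_sub_eq hξ₁ hξ₂
  have hs : L v (x₃ - x₄) ≤ max (L v (x₃ - e₁)) (L v (x₄ - e₁)) := by
    rw [es]; exact L_sub_le hξ₃ hξ₄ (by rwa [← es])
  have hs' : L v (x₃ - e₁) ≠ L v (x₄ - e₁) →
      L v (x₃ - x₄) = max (L v (x₃ - e₁)) (L v (x₄ - e₁)) := by
    rw [es]; exact L_sub_eq hξ₃ hξ₄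
  have Lαβ : L v (α * β) = L v α := by
    rw [L_mul N.hα0 N.β_ne_zero, Lβ, add_zero]
  have L12 : L v ((x₁ - e₁) * (x₂ - e₁)) = L v (x₁ - e₁) + L v (x₂ - e₁) := L_mul hξ₁ hξ₂
  have hE : L v ((x₁ - e₁) * (x₂ - e₁) - α * β) ≤
      max (L v ((x₁ - e₁) * (x₂ - e₁))) (L v (α * β)) :=
    L_sub_le (mul_ne_zero hξ₁ hξ₂) (mul_ne_zero N.hα0 N.β_ne_zero) hE0
  have hE' : L v ((x₁ - e₁) * (x₂ - e₁)) ≠ L v (α * β) →
      L v ((x₁ - e₁) * (x₂ - e₁) - α * β) =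
        max (L v ((x₁ - e₁) * (x₂ - e₁))) (L v (α * β)) :=
    L_sub_eq (mul_ne_zero hξ₁ hξ₂) (mul_ne_zero N.hα0 N.β_ne_zero)
  rw [L12, Lαβ] at hE hE'
  grind

end torsion

end Fermat.Agent.S05.C3c
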