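import Mathlib.RingTheory.Valuation.Basic
import Mathlib.Tactic

/-!
# Core valuation lemmas for the component homomorphism at a node

Abstract setting: a field `K` with a valuation `v`, a cubic `η² = ξ (ξ - α) (ξ - β)`
with `v α < 1 = v β`, `γ² = -β`, `v 2 = 1`.  Three collinear points
`(ξᵢ, ηᵢ)` on the line `η = l ξ + n` satisfy Vieta's relations.
-/

set_option autoImplicit false

namespace Fermat.Agent.S05.Comp

variable {K : Type*} [Field K] {Γ₀ : Type*} [LinearOrderedCommGroupWithZero Γ₀]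
  {v : Valuation K Γ₀}

/-- The data of three collinear points on the cubic `η² = ξ (ξ - α) (ξ - β)`. -/
structure Coll (α β : K) (x₁ y₁ x₂ y₂ x₃ y₃ l n : K) : Prop where
  L1 : y₁ = l * x₁ + n
  L2 : y₂ = l * x₂ + n
  L3 : y₃ = l * x₃ + n
  E1 : y₁ ^ 2 = x₁ * (x₁ - α) * (x₁ - β)
  E2 : y₂ ^ 2 = x₂ * (x₂ - α) * (x₂ - β)
  E3 : y₃ ^ 2 = x₃ * (x₃ - α) * (x₃ - β)
  V1 : x₁ + x₂ + x₃ = l ^ 2 + α + β
  V2 : x₁ * x₂ + x₁ * x₃ + x₂ * x₃ = α * β - 2 * l * n
  V3 : x₁ * x₂ * x₃ = n ^ 2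

namespace Coll

variable {α β x₁ y₁ x₂ y₂ x₃ y₃ l n : K}

lemma swap12 (h : Coll α β x₁ y₁ x₂ y₂ x₃ y₃ l n) : Coll α β x₂ y₂ x₁ y₁ x₃ y₃ l n where
  L1 := h.L2
  L2 := h.L1
  L3 := h.L3
  E1 := h.E2
  E2 := h.E1
  E3 := h.E3
  V1 := by rw [← h.V1]; ring
  V2 := by rw [← h.V2]; ring
  V3 := by rw [← h.V3]; ring

lemma swap23 (h : Coll α β x₁ y₁ x₂ y₂ x₃ y₃ l n) : Coll α β x₁ y₁ x₃ y₃ x₂ y₂ l n where
  L1 := h.L1
  L2 := h.L3
  L3 := h.L2
  E1 := h.E1
  E2 := h.E3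
  E3 := h.E2
  V1 := by rw [← h.V1]; ring
  V2 := by rw [← h.V2]; ring
  V3 := by rw [← h.V3]; ring

lemma swap13 (h : Coll α β x₁ y₁ x₂ y₂ x₃ y₃ l n) : Coll α β x₃ y₃ x₂ y₂ x₁ y₁ l n where
  L1 := h.L3
  L2 := h.L2
  L3 := h.L1
  E1 := h.E3
  E2 := h.E2
  E3 := h.E1
  V1 := by rw [← h.V1]; ring
  V2 := by rw [← h.V2]; ring
  V3 := by rw [← h.V3]; ring

lemma rot (h : Coll α β x₁ y₁ x₂ y₂ x₃ y₃ l n) : Coll α β x₂ y₂ x₃ y₃ x₁ y₁ l n :=
  h.swap12.swap23

lemma rot' (h : Coll α β x₁ y₁ x₂ y₂ x₃ y₃ l n) : Coll α β x₃ y₃ x₁ y₁ x₂ y₂ l n :=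
  h.swap23.swap12

end Coll


variable {α β γ x₁ y₁ x₂ y₂ x₃ y₃ l n : K}

/-- if `a - b = c` and `v c < v a` then `v b = v a`. -/
lemma val_eq_of_sub_lt {a b c : K} (h : a - b = c) (hc : v c < v a) : v b = v a := by
  have e : b = a - c := by rw [← h]; ring
  rw [e]
  exact Valuation.map_sub_eq_of_lt_left v hc

/-- if `a - b = c` and `v a < v c` then `v b = v c`. -/
lemma val_eq_of_sub_gt {a b c : K} (h : a - b = c) (hc : v a < v c) : v b = v c := by
  have e : b = a - c := by rw [← h]; ring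
  rw [e]
  exact Valuation.map_sub_eq_of_lt_right v hc

lemma val_add3_le {a b c : K} {g : Γ₀} (ha : v a ≤ g) (hb : v b ≤ g) (hc : v c ≤ g) :
    v (a + b + c) ≤ g :=
  Valuation.map_add_le _ (Valuation.map_add_le _ ha hb) hc

lemma val_add3_lt {a b c : K} {g : Γ₀} (ha : v a < g) (hb : v b < g) (hc : v c < g) :
    v (a + b + c) < g :=
  Valuation.map_add_lt _ (Valuation.map_add_lt _ ha hb) hc

lemma Coll.vl_vn (h : Coll α β x₁ y₁ x₂ y₂ x₃ y₃ l n) (h2 : v 2 = 1) :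
    v l * v n = v (α * β - (x₁ * x₂ + x₁ * x₃ + x₂ * x₃)) := by
  rw [h.V2]
  have e : α * β - (α * β - 2 * l * n) = 2 * l * n := by ring
  rw [e, map_mul, map_mul, h2, one_mul]

lemma Coll.vn_sq (h : Coll α β x₁ y₁ x₂ y₂ x₃ y₃ l n) :
    v n ^ 2 = v x₁ * v x₂ * v x₃ := by
  rw [← map_pow, ← h.V3, map_mul, map_mul]

lemma Coll.l_sq (h : Coll α β x₁ y₁ x₂ y₂ x₃ y₃ l n) :
    l ^ 2 = x₁ + x₂ + x₃ - α - β := by rw [h.V1]; ring

/-- If all three points are at the node then `v l = 1`. -/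
lemma Coll.vl_eq_one (h : Coll α β x₁ y₁ x₂ y₂ x₃ y₃ l n) (hα : v α < 1) (hβ : v β = 1)
    (h1 : v x₁ < 1) (h2 : v x₂ < 1) (h3 : v x₃ < 1) : v l = 1 := by
  have e : l ^ 2 = (x₁ + x₂ + x₃ - α) - β := by rw [h.V1]; ring
  have h4 : v (x₁ + x₂ + x₃ - α) < v β := by
    rw [hβ]
    exact Valuation.map_sub_lt _ (val_add3_lt h1 h2 h3) hα
  have h5 : v (l ^ 2) = 1 := by
    rw [e, Valuation.map_sub_eq_of_lt_right _ h4, hβ]
  rw [map_pow] at h5
  exact (pow_eq_one_iff_of_nonneg zero_le (by norm_num)).mp h5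

/-- Key inequality: if `x₁` is strictly smaller than `x₂, x₃`, `x₃` is not at the node and
`v α < v x₂ * v x₃`, contradiction. Covers "exactly one point at the node" and
"two at the node with different valuations". -/
lemma factD (h : Coll α β x₁ y₁ x₂ y₂ x₃ y₃ l n) (h2 : v 2 = 1) (hα : v α < 1) (hβ : v β = 1)
    (h12 : v x₁ < v x₂) (h13 : v x₁ < v x₃) (h23 : v x₂ ≤ v x₃) (h3 : 1 ≤ v x₃)
    (hμ : v α < v x₂ * v x₃) : False := by
  have hr2 : 0 < v x₂ := lt_of_le_of_lt zero_le h12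
  have hr3 : 0 < v x₃ := lt_of_lt_of_le zero_lt_one h3
  have hne : v x₂ * v x₃ ≠ 0 := (mul_pos hr2 hr3).ne'
  have hd1 : v (x₁ * x₂) < v (x₂ * x₃) := by
    rw [map_mul, map_mul, mul_comm (v x₁)]
    exact mul_lt_mul_of_pos_left h13 hr2
  have hd2 : v (x₁ * x₃) < v (x₂ * x₃) := by
    rw [map_mul, map_mul]
    exact mul_lt_mul_of_pos_right h12 hr3
  have hαβ : v (α * β) < v (x₂ * x₃) := by
    rw [map_mul, hβ, mul_one, map_mul]; exact hμ
  have hln : v l * v n = v x₂ * v x₃ := by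
    rw [h.vl_vn h2, ← map_mul]
    have e : α * β - (x₁ * x₂ + x₁ * x₃ + x₂ * x₃) = (α * β - (x₁ * x₂ + x₁ * x₃)) - x₂ * x₃ := by
      ring
    rw [e]
    apply Valuation.map_sub_eq_of_lt_right
    exact Valuation.map_sub_lt _ hαβ (Valuation.map_add_lt _ hd1 hd2)
  have hl2 : v l ^ 2 * v x₁ = v x₂ * v x₃ := by
    have e1 : (v l * v n) ^ 2 = (v x₂ * v x₃) ^ 2 := by rw [hln]
    rw [mul_pow, h.vn_sq] at e1
    have e2 : (v l ^ 2 * v x₁) * (v x₂ * v x₃) = (v x₂ * v x₃) * (v x₂ * v x₃) := by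
      rw [← pow_two, ← e1]; simp only [mul_assoc]
    exact mul_right_cancel₀ hne e2
  have hl2le : v l ^ 2 ≤ v x₃ := by
    rw [← map_pow, h.l_sq]
    refine Valuation.map_sub_le _ (Valuation.map_sub_le _ (val_add3_le ?_ h23 le_rfl) ?_) ?_
    · exact h13.le
    · exact hα.le.trans h3
    · rw [hβ]; exact h3
  have : v l ^ 2 * v x₁ < v x₂ * v x₃ := by
    rcases eq_or_ne (v l ^ 2) 0 with h0 | h0
    · rw [h0, zero_mul]; exact mul_pos hr2 hr3
    · calc v l ^ 2 * v x₁ < v l ^ 2 * v x₂ := mul_lt_mul_of_pos_left h12 (zero_lt_iff.mpr h0)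
        _ ≤ v x₃ * v x₂ := mul_le_mul_left hl2le _
        _ = v x₂ * v x₃ := mul_comm _ _
  exact absurd hl2 this.ne

/-- Exactly one point at the node is impossible. -/
lemma factC (h : Coll α β x₁ y₁ x₂ y₂ x₃ y₃ l n) (h2 : v 2 = 1) (hα : v α < 1) (hβ : v β = 1)
    (h1 : v x₁ < 1) (h2' : 1 ≤ v x₂) (h3 : 1 ≤ v x₃) : False := by
  have h23 : 1 ≤ v x₂ * v x₃ := one_le_mul_of_one_le_of_one_le h2' h3
  rcases le_total (v x₂) (v x₃) with h' | h'
  · exact factD h h2 hα hβ (lt_of_lt_of_le h1 h2') (lt_of_lt_of_le h1 h3) h' h3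
      (lt_of_lt_of_le hα h23)
  · exact factD h.swap23 h2 hα hβ (lt_of_lt_of_le h1 h3) (lt_of_lt_of_le h1 h2') h' h2'
      (lt_of_lt_of_le hα (by rwa [mul_comm]))


/-- All three points in the `M`-range (`v x ≤ v α`) is impossible. -/
lemma factMMM (h : Coll α β x₁ y₁ x₂ y₂ x₃ y₃ l n) (h2 : v 2 = 1) (hα : v α < 1)
    (hα0 : α ≠ 0) (hβ : v β = 1)
    (h1 : v x₁ ≤ v α) (h2' : v x₂ ≤ v α) (h3 : v x₃ ≤ v α) : False := by
  have hμ : 0 < v α := by rw [Valuation.pos_iff]; exact hα0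
  have hl : v l = 1 := h.vl_eq_one hα hβ (h1.trans_lt hα) (h2'.trans_lt hα) (h3.trans_lt hα)
  -- v n < μ
  have hn : v n < v α := by
    by_contra hcon
    rw [not_lt] at hcon
    have e1 : v α ^ 2 ≤ v n ^ 2 := pow_le_pow_left₀ zero_le hcon 2
    rw [h.vn_sq] at e1
    have e2 : v x₁ * v x₂ * v x₃ ≤ v α * v α * v α :=
      mul_le_mul' (mul_le_mul' h1 h2') h3
    have e3 : v α * v α * v α < v α ^ 2 := by
      rw [pow_two]
      calc v α * v α * v α < v α * v α * 1 := mul_lt_mul_of_pos_left hα (mul_pos hμ hμ)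
        _ = v α * v α := mul_one _
    exact absurd (e1.trans e2) (not_le.mpr e3)
  have hln := h.vl_vn h2
  rw [hl, one_mul] at hln
  have hs : v (x₁ * x₂ + x₁ * x₃ + x₂ * x₃) < v α := by
    have hh : ∀ a b : K, v a ≤ v α → v b ≤ v α → v (a * b) < v α := by
      intro a b ha hb
      rw [map_mul]
      calc v a * v b ≤ v α * v α := mul_le_mul' ha hb
        _ < v α * 1 := mul_lt_mul_of_pos_left hα hμ
        _ = v α := mul_one _
    exact val_add3_lt (hh _ _ h1 h2') (hh _ _ h1 h3) (hh _ _ h2' h3)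
  have hαβ : v (α * β) = v α := by rw [map_mul, hβ, mul_one]
  rw [Valuation.map_sub_eq_of_lt_left _ (by rw [hαβ]; exact hs), hαβ] at hln
  exact absurd hln hn.ne

/-- Two points in the `M`-range and one in the middle range is impossible. -/
lemma factMMmid (h : Coll α β x₁ y₁ x₂ y₂ x₃ y₃ l n) (h2 : v 2 = 1) (hα : v α < 1)
    (hα0 : α ≠ 0) (hβ : v β = 1)
    (h1 : v x₁ ≤ v α) (h2' : v x₂ ≤ v α) (h3 : v x₃ < 1) : False := by
  have hμ : 0 < v α := by rw [Valuation.pos_iff]; exact hα0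
  have hl : v l = 1 := h.vl_eq_one hα hβ (h1.trans_lt hα) (h2'.trans_lt hα) h3
  have hln := h.vl_vn h2
  rw [hl, one_mul] at hln
  have hh : ∀ a b : K, v a ≤ v α → v b < 1 → v (a * b) < v α := by
    intro a b ha hb
    rw [map_mul]
    calc v a * v b ≤ v α * v b := mul_le_mul' ha le_rfl
      _ < v α * 1 := mul_lt_mul_of_pos_left hb hμ
      _ = v α := mul_one _
  have hs : v (x₁ * x₂ + x₁ * x₃ + x₂ * x₃) < v α :=
    val_add3_lt (hh _ _ h1 (h2'.trans_lt hα)) (hh _ _ h1 h3) (hh _ _ h2' h3)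
  have hαβ : v (α * β) = v α := by rw [map_mul, hβ, mul_one]
  rw [Valuation.map_sub_eq_of_lt_left _ (by rw [hαβ]; exact hs), hαβ] at hln
  -- now v n = μ, but v n ^ 2 = r₁ r₂ r₃ < μ²
  have e1 := h.vn_sq (v := v)
  rw [hln] at e1
  have e2 : v x₁ * v x₂ * v x₃ < v α ^ 2 := by
    rw [pow_two]
    calc v x₁ * v x₂ * v x₃ ≤ v α * v α * v x₃ := mul_le_mul' (mul_le_mul' h1 h2') le_rfl
      _ < v α * v α * 1 := mul_lt_mul_of_pos_left h3 (mul_pos hμ hμ)
      _ = v α * v α := mul_one _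
  exact absurd e1.symm e2.ne


/-- In the middle range, one of the two branches of the node is chosen. -/
lemma sign_exists {x y : K} (hα : v α < 1) (hβ : v β = 1) (hγ : γ ^ 2 = -β)
    (hE : y ^ 2 = x * (x - α) * (x - β)) (hlo : v α < v x) (hhi : v x < 1) :
    v (y - γ * x) < v x ∨ v (y - (-γ) * x) < v x := by
  have hx : 0 < v x := lt_of_le_of_lt zero_le hlo
  have e : (y - γ * x) * (y - (-γ) * x) = x * (x ^ 2 - α * x + α * β) := by
    have : (y - γ * x) * (y - (-γ) * x) = y ^ 2 - γ ^ 2 * x ^ 2 := by ring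
    rw [this, hE, hγ]; ring
  have h1 : v (x ^ 2 - α * x + α * β) < v x := by
    apply Valuation.map_add_lt _ (Valuation.map_sub_lt _ _ _)
    · rw [map_mul, hβ, mul_one]; exact hlo
    · rw [map_pow, pow_two]
      calc v x * v x < v x * 1 := mul_lt_mul_of_pos_left hhi hx
        _ = v x := mul_one _
    · rw [map_mul]
      calc v α * v x < 1 * v x := mul_lt_mul_of_pos_right hα hx
        _ = v x := one_mul _
  by_contra hcon
  rw [not_or, not_lt, not_lt] at hcon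
  have h2 : v x * v x ≤ v ((y - γ * x) * (y - (-γ) * x)) := by
    rw [map_mul]; exact mul_le_mul' hcon.1 hcon.2
  rw [e, map_mul] at h2
  exact absurd h2 (not_le.mpr (mul_lt_mul_of_pos_left h1 hx))

/-- In the middle range, the two branches of the node are exclusive. -/
lemma sign_exclusive {x y : K} (h2 : v 2 = 1) (hβ : v β = 1) (hγ : γ ^ 2 = -β) :
    ¬ (v (y - γ * x) < v x ∧ v (y - (-γ) * x) < v x) := by
  rintro ⟨h1, h3⟩
  have hγ1 : v γ = 1 := by
    have : v (γ ^ 2) = 1 := by rw [hγ, Valuation.map_neg, hβ]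
    rw [map_pow] at this
    exact (pow_eq_one_iff_of_nonneg zero_le (by norm_num)).mp this
  have e : 2 * γ * x = (y - (-γ) * x) - (y - γ * x) := by ring
  have h4 : v (2 * γ * x) < v x := by
    rw [e]; exact Valuation.map_sub_lt _ h3 h1
  rw [map_mul, map_mul, h2, hγ1, one_mul, one_mul] at h4
  exact lt_irrefl _ h4

lemma val_gamma (hβ : v β = 1) (hγ : γ ^ 2 = -β) : v γ = 1 := by
  have : v (γ ^ 2) = 1 := by rw [hγ, Valuation.map_neg, hβ]
  rw [map_pow] at this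
  exact (pow_eq_one_iff_of_nonneg zero_le (by norm_num)).mp this

/-- Two points at the node with the same valuation `< 1` and third point away from the
node cannot lie on the same branch. -/
lemma factBsign (h : Coll α β x₁ y₁ x₂ y₂ x₃ y₃ l n) (h2 : v 2 = 1) (hα : v α < 1)
    (hβ : v β = 1) (hγ : γ ^ 2 = -β)
    (h12 : v x₁ = v x₂) (h1 : v x₁ < 1) (hx1 : x₁ ≠ 0) (h3 : 1 ≤ v x₃)
    (hP1 : v (y₁ - γ * x₁) < v x₁) (hP2 : v (y₂ - γ * x₂) < v x₂) : False := by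
  have hr : 0 < v x₁ := by rw [Valuation.pos_iff]; exact hx1
  have hγ1 : v γ = 1 := val_gamma hβ hγ
  set κ := l - γ with hκ
  set θ₁ := y₁ - γ * x₁ with hθ₁
  set θ₂ := y₂ - γ * x₂ with hθ₂
  set δ := α - x₁ - x₂ with hδ
  have hθ₁' : θ₁ = κ * x₁ + n := by rw [hθ₁, h.L1, hκ]; ring
  have hθ₂' : θ₂ = κ * x₂ + n := by rw [hθ₂, h.L2, hκ]; ring
  have hx3 : x₃ = κ ^ 2 + 2 * γ * κ + δ := by
    have := h.V1
    have e : x₃ = l ^ 2 + α + β - x₁ - x₂ := by rw [← this]; ring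
    rw [e, hκ, hδ]
    have : β = -γ ^ 2 := by rw [hγ]; ring
    rw [this]; ring
  have hid : θ₁ * θ₂ - κ * (x₁ * θ₂ + x₂ * θ₁) = x₁ * x₂ * (2 * γ * κ + δ) := by
    have hn1 : n = θ₁ - κ * x₁ := by rw [hθ₁']; ring
    have e3 := h.V3
    rw [hx3] at e3
    have : θ₁ * θ₂ - κ * (x₁ * θ₂ + x₂ * θ₁) = n ^ 2 - κ ^ 2 * (x₁ * x₂) := by
      rw [hθ₁', hθ₂']; ring
    rw [this, ← e3]; ring
  have hδ1 : v δ < 1 := by
    rw [hδ]; exact Valuation.map_sub_lt _ (Valuation.map_sub_lt _ hα h1) (h12 ▸ h1)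
  -- v κ ≥ 1
  have hκ1 : 1 ≤ v κ := by
    by_contra hcon
    rw [not_le] at hcon
    have hn : v n < v x₁ := by
      have e : n = θ₁ - κ * x₁ := by rw [hθ₁']; ring
      rw [e]
      apply Valuation.map_sub_lt _ hP1
      rw [map_mul]
      calc v κ * v x₁ < 1 * v x₁ := mul_lt_mul_of_pos_right hcon hr
        _ = v x₁ := one_mul _
    have e1 := h.vn_sq (v := v)
    have e2 : v n ^ 2 < v x₁ * v x₂ * v x₃ := by
      rw [← h12, pow_two]
      calc v n * v n ≤ v n * v x₁ := mul_le_mul' le_rfl hn.le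
        _ < v x₁ * v x₁ := mul_lt_mul_of_pos_right hn hr
        _ = v x₁ * v x₁ * 1 := (mul_one _).symm
        _ ≤ v x₁ * v x₁ * v x₃ := mul_le_mul' le_rfl h3
    exact absurd e1 e2.ne
  have hκpos : 0 < v κ := lt_of_lt_of_le zero_lt_one hκ1
  have hR : v (x₁ * x₂ * (2 * γ * κ + δ)) = v x₁ * v x₁ * v κ := by
    rw [map_mul, map_mul, ← h12]
    congr 1
    have : v δ < v (2 * γ * κ) := by
      rw [map_mul, map_mul, h2, hγ1, one_mul, one_mul]; exact lt_of_lt_of_le hδ1 hκ1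
    rw [Valuation.map_add_eq_of_lt_left _ this, map_mul, map_mul, h2, hγ1, one_mul, one_mul]
  have hL : v (θ₁ * θ₂ - κ * (x₁ * θ₂ + x₂ * θ₁)) < v x₁ * v x₁ * v κ := by
    apply Valuation.map_sub_lt
    · rw [map_mul]
      calc v θ₁ * v θ₂ ≤ v θ₁ * v x₁ := mul_le_mul' le_rfl (h12 ▸ hP2.le)
        _ < v x₁ * v x₁ := mul_lt_mul_of_pos_right hP1 hr
        _ = v x₁ * v x₁ * 1 := (mul_one _).symm
        _ ≤ v x₁ * v x₁ * v κ := mul_le_mul' le_rfl hκ1
    · rw [map_mul, mul_comm]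
      apply mul_lt_mul_of_pos_right _ hκpos
      apply Valuation.map_add_lt
      · rw [map_mul]
        exact mul_lt_mul_of_pos_left (h12 ▸ hP2) hr
      · rw [map_mul, ← h12]
        exact mul_lt_mul_of_pos_left hP1 hr
  rw [hid, hR] at hL
  exact lt_irrefl _ hL


/-- A point in the `M`-range has `v y ≤ v α`. -/
lemma val_y_le_of_M {x y : K} (hα : v α < 1) (hβ : v β = 1)
    (hE : y ^ 2 = x * (x - α) * (x - β)) (hx : v x ≤ v α) : v y ≤ v α := by
  have h1 : v (y ^ 2) ≤ v α ^ 2 := by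
    rw [hE, map_mul, map_mul, pow_two]
    have hb : v (x - β) ≤ 1 := Valuation.map_sub_le _ ((hx.trans hα.le)) hβ.le
    calc v x * v (x - α) * v (x - β) ≤ v α * v α * 1 :=
          mul_le_mul' (mul_le_mul' hx (Valuation.map_sub_le _ hx le_rfl)) hb
      _ = v α * v α := mul_one _
  rw [map_pow] at h1
  exact (pow_le_pow_iff_left₀ zero_le zero_le (by norm_num)).mp h1

/-- `M`, mid, mid: the two middle points have `v x₂ * v x₃ = v α`. -/
lemma factA'_val (h : Coll α β x₁ y₁ x₂ y₂ x₃ y₃ l n) (h2 : v 2 = 1) (hα : v α < 1)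
    (hα0 : α ≠ 0) (hβ : v β = 1)
    (h1 : v x₁ ≤ v α) (h2lo : v α < v x₂) (h2hi : v x₂ < 1) (h3lo : v α < v x₃)
    (h3hi : v x₃ < 1) : v x₂ * v x₃ = v α := by
  have hμ : 0 < v α := by rw [Valuation.pos_iff]; exact hα0
  have hr2 : 0 < v x₂ := hμ.trans h2lo
  have hr3 : 0 < v x₃ := hμ.trans h3lo
  have hl : v l = 1 := h.vl_eq_one hα hβ (h1.trans_lt hα) h2hi h3hi
  have hy1 : v y₁ ≤ v α := val_y_le_of_M hα hβ h.E1 h1
  have hn : v n ≤ v α := by
    have e : n = y₁ - l * x₁ := by rw [h.L1]; ring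
    rw [e]
    apply Valuation.map_sub_le _ hy1
    rw [map_mul, hl, one_mul]; exact h1
  have hαβ : v (α * β) = v α := by rw [map_mul, hβ, mul_one]
  have h12 : v (x₁ * x₂) < v α := by
    rw [map_mul]
    calc v x₁ * v x₂ ≤ v α * v x₂ := mul_le_mul' h1 le_rfl
      _ < v α * 1 := mul_lt_mul_of_pos_left h2hi hμ
      _ = v α := mul_one _
  have h13 : v (x₁ * x₃) < v α := by
    rw [map_mul]
    calc v x₁ * v x₃ ≤ v α * v x₃ := mul_le_mul' h1 le_rfl
      _ < v α * 1 := mul_lt_mul_of_pos_left h3hi hμ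
      _ = v α := mul_one _
  have hle : v x₂ * v x₃ ≤ v α := by
    have e : x₂ * x₃ = α * β - 2 * l * n - x₁ * x₂ - x₁ * x₃ := by rw [← h.V2]; ring
    rw [← map_mul, e]
    apply Valuation.map_sub_le _ (Valuation.map_sub_le _ (Valuation.map_sub_le _ hαβ.le _) h12.le)
      h13.le
    rw [map_mul, map_mul, h2, hl, one_mul, one_mul]; exact hn
  rcases hle.lt_or_eq with hlt | heq
  · exfalso
    have hln := h.vl_vn h2
    rw [hl, one_mul] at hln
    have hs : v (x₁ * x₂ + x₁ * x₃ + x₂ * x₃) < v α :=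
      val_add3_lt h12 h13 (by rw [map_mul]; exact hlt)
    rw [Valuation.map_sub_eq_of_lt_left _ (by rw [hαβ]; exact hs), hαβ] at hln
    have e1 := h.vn_sq (v := v)
    rw [hln] at e1
    have e2 : v x₁ * v x₂ * v x₃ < v α ^ 2 := by
      rw [pow_two, mul_assoc]
      calc v x₁ * (v x₂ * v x₃) ≤ v α * (v x₂ * v x₃) := mul_le_mul' h1 le_rfl
        _ < v α * v α := mul_lt_mul_of_pos_left hlt hμ
    exact absurd e1.symm e2.ne
  · exact heq

/-- `M`, mid, mid: the two middle points lie on the same branch. -/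
lemma factA'_sign (h : Coll α β x₁ y₁ x₂ y₂ x₃ y₃ l n) (h2 : v 2 = 1) (hα : v α < 1)
    (hβ : v β = 1) (hγ : γ ^ 2 = -β)
    (h1 : v x₁ ≤ v α) (h2lo : v α < v x₂) (h2hi : v x₂ < 1) (h3lo : v α < v x₃)
    (h3hi : v x₃ < 1)
    (hP2 : v (y₂ - γ * x₂) < v x₂) (hN3 : v (y₃ - (-γ) * x₃) < v x₃) : False := by
  have hr2 : 0 < v x₂ := lt_of_le_of_lt zero_le h2lo
  have hr3 : 0 < v x₃ := lt_of_le_of_lt zero_le h3lo
  have hγ1 : v γ = 1 := val_gamma hβ hγ
  have hl : v l = 1 := h.vl_eq_one hα hβ (h1.trans_lt hα) h2hi h3hi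
  have hy1 : v y₁ ≤ v α := val_y_le_of_M hα hβ h.E1 h1
  have hn : v n ≤ v α := by
    have e : n = y₁ - l * x₁ := by rw [h.L1]; ring
    rw [e]
    apply Valuation.map_sub_le _ hy1
    rw [map_mul, hl, one_mul]; exact h1
  have hk : v (l - γ) < 1 := by
    have e : (l - γ) * x₂ = (y₂ - γ * x₂) - n := by rw [h.L2]; ring
    have : v ((l - γ) * x₂) < v x₂ := by
      rw [e]; exact Valuation.map_sub_lt _ hP2 (hn.trans_lt h2lo)
    rw [map_mul] at this
    by_contra hcon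
    rw [not_lt] at hcon
    exact absurd (le_mul_of_one_le_left hr2.le hcon) (not_le.mpr this)
  have hk' : v (l + γ) < 1 := by
    have e : (l + γ) * x₃ = (y₃ - (-γ) * x₃) - n := by rw [h.L3]; ring
    have : v ((l + γ) * x₃) < v x₃ := by
      rw [e]; exact Valuation.map_sub_lt _ hN3 (hn.trans_lt h3lo)
    rw [map_mul] at this
    by_contra hcon
    rw [not_lt] at hcon
    exact absurd (le_mul_of_one_le_left hr3.le hcon) (not_le.mpr this)
  have e : 2 * γ = (l + γ) - (l - γ) := by ring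
  have : v (2 * γ) < 1 := by rw [e]; exact Valuation.map_sub_lt _ hk' hk
  rw [map_mul, h2, hγ1, one_mul] at this
  exact lt_irrefl _ this


/-- When all three points are at the node, the slope is congruent to exactly one of `±γ`. -/
lemma Coll.kappa_dichotomy (h : Coll α β x₁ y₁ x₂ y₂ x₃ y₃ l n) (h2 : v 2 = 1)
    (hα : v α < 1) (hβ : v β = 1) (hγ : γ ^ 2 = -β)
    (h1 : v x₁ < 1) (h2' : v x₂ < 1) (h3 : v x₃ < 1) :
    (v (l - γ) < 1 ∧ v (l - (-γ)) = 1) ∨ (v (l - γ) = 1 ∧ v (l - (-γ)) < 1) := by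
  have hγ1 : v γ = 1 := val_gamma hβ hγ
  have h2γ : v (2 * γ) = 1 := by rw [map_mul, h2, hγ1, one_mul]
  have hprod : v ((l - γ) * (l - (-γ))) < 1 := by
    have e : (l - γ) * (l - (-γ)) = x₁ + x₂ + x₃ - α := by
      have : (l - γ) * (l - (-γ)) = l ^ 2 - γ ^ 2 := by ring
      rw [this, hγ, h.l_sq]; ring
    rw [e]
    exact Valuation.map_sub_lt _ (val_add3_lt h1 h2' h3) hα
  rcases lt_or_ge (v (l - γ)) 1 with hk | hk
  · left
    refine ⟨hk, ?_⟩
    have e : l - (-γ) = (l - γ) + 2 * γ := by ring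
    rw [e, Valuation.map_add_eq_of_lt_right _ (by rw [h2γ]; exact hk), h2γ]
  · right
    have hk' : v (l - (-γ)) < 1 := by
      by_contra hcon
      rw [not_lt] at hcon
      rw [map_mul] at hprod
      exact absurd (one_le_mul_of_one_le_of_one_le hk hcon) (not_le.mpr hprod)
    refine ⟨?_, hk'⟩
    have e : l - γ = (l - (-γ)) - 2 * γ := by ring
    rw [e, Valuation.map_sub_eq_of_lt_right _ (by rw [h2γ]; exact hk'), h2γ]

/-- If `v κ < 1` and `v (κ x + n) < v x` then `v n < v x`. -/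
lemma val_n_lt_of_small {κ x n : K} (hκ : v κ < 1) (hx : 0 < v x)
    (h : v (κ * x + n) < v x) : v n < v x := by
  have e : n = (κ * x + n) - κ * x := by ring
  rw [e]
  apply Valuation.map_sub_lt _ h
  rw [map_mul]
  calc v κ * v x < 1 * v x := mul_lt_mul_of_pos_right hκ hx
    _ = v x := one_mul _

/-- If `v κ = 1` and `v (κ x + n) < v x` then `v n = v x`. -/
lemma val_n_eq_of_unit {κ x n : K} (hκ : v κ = 1)
    (h : v (κ * x + n) < v x) : v n = v x := by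
  have e : n = (κ * x + n) - κ * x := by ring
  have hκx : v (κ * x) = v x := by rw [map_mul, hκ, one_mul]
  rw [e, Valuation.map_sub_eq_of_lt_right _ (by rw [hκx]; exact h), hκx]

/-- mid, mid, mid, all on the same branch: `v x₁ * v x₂ * v x₃ = v α ^ 2`. -/
lemma factA_same (h : Coll α β x₁ y₁ x₂ y₂ x₃ y₃ l n) (h2 : v 2 = 1) (hα : v α < 1)
    (hβ : v β = 1) (hγ : γ ^ 2 = -β)
    (h1lo : v α < v x₁) (h1hi : v x₁ < 1)
    (h2lo : v α < v x₂) (h2hi : v x₂ < 1) (h3lo : v α < v x₃) (h3hi : v x₃ < 1)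
    (hP1 : v (y₁ - γ * x₁) < v x₁) (hP2 : v (y₂ - γ * x₂) < v x₂)
    (hP3 : v (y₃ - γ * x₃) < v x₃) : v x₁ * v x₂ * v x₃ = v α ^ 2 := by
  have hr1 : 0 < v x₁ := lt_of_le_of_lt zero_le h1lo
  have hr2 : 0 < v x₂ := lt_of_le_of_lt zero_le h2lo
  have hr3 : 0 < v x₃ := lt_of_le_of_lt zero_le h3lo
  have hl : v l = 1 := h.vl_eq_one hα hβ h1hi h2hi h3hi
  have e1 : y₁ - γ * x₁ = (l - γ) * x₁ + n := by rw [h.L1]; ring
  have e2 : y₂ - γ * x₂ = (l - γ) * x₂ + n := by rw [h.L2]; ring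
  have e3 : y₃ - γ * x₃ = (l - γ) * x₃ + n := by rw [h.L3]; ring
  rw [e1] at hP1
  rw [e2] at hP2
  rw [e3] at hP3
  rcases h.kappa_dichotomy h2 hα hβ hγ h1hi h2hi h3hi with ⟨hk, -⟩ | ⟨hk, -⟩
  · have hn1 := val_n_lt_of_small hk hr1 hP1
    have hn2 := val_n_lt_of_small hk hr2 hP2
    have hn3 := val_n_lt_of_small hk hr3 hP3
    have hnsq := h.vn_sq (v := v)
    have hnpos : 0 < v n := by
      rcases eq_or_ne (v n) 0 with h0 | h0
      · rw [h0] at hnsq
        exact absurd hnsq.symm (by simpa using (mul_pos (mul_pos hr1 hr2) hr3).ne')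
      · exact zero_lt_iff.mpr h0
    -- each pairwise product is < v n
    have key : ∀ a b c : Γ₀, 0 < a → 0 < b → v n ^ 2 = a * b * c → v n < c → a * b < v n := by
      intro a b c ha hb habc hc
      by_contra hcon
      rw [not_lt] at hcon
      have : v n ^ 2 < a * b * c := by
        rw [pow_two]
        calc v n * v n ≤ a * b * v n := mul_le_mul' hcon le_rfl
          _ < a * b * c := mul_lt_mul_of_pos_left hc (mul_pos ha hb)
      exact absurd habc this.ne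
    have k12 : v (x₁ * x₂) < v n := by
      rw [map_mul]; exact key _ _ _ hr1 hr2 hnsq hn3
    have k13 : v (x₁ * x₃) < v n := by
      rw [map_mul]; exact key _ _ _ hr1 hr3 (by rw [hnsq]; exact mul_right_comm _ _ _) hn2
    have k23 : v (x₂ * x₃) < v n := by
      rw [map_mul]
      exact key _ _ _ hr2 hr3 (by rw [hnsq]; exact mul_rotate _ _ _) hn1
    have hs : v (x₁ * x₂ + x₁ * x₃ + x₂ * x₃) < v n := val_add3_lt k12 k13 k23
    have h2ln : v (2 * l * n) = v n := by rw [map_mul, map_mul, h2, hl, one_mul, one_mul]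
    have hαβ : v (α * β) = v α := by rw [map_mul, hβ, mul_one]
    have : v (α * β) = v (2 * l * n) := by
      have e : α * β = (α * β - 2 * l * n) + 2 * l * n := by ring
      rw [e]
      apply Valuation.map_add_eq_of_lt_right
      rw [← h.V2, h2ln]; exact hs
    rw [hαβ, h2ln] at this
    rw [← hnsq, this]
  · exfalso
    have hn1 := val_n_eq_of_unit hk hP1
    have hn2 := val_n_eq_of_unit hk hP2
    have hn3 := val_n_eq_of_unit hk hP3
    have hnsq := h.vn_sq (v := v)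
    rw [← hn1, ← hn2, ← hn3, pow_two] at hnsq
    have hnpos : 0 < v n := hn1 ▸ hr1
    have : v n * v n * 1 = v n * v n * v n := by rw [mul_one]; exact hnsq
    have := mul_left_cancel₀ (mul_pos hnpos hnpos).ne' this
    rw [← this] at hn1
    exact absurd hn1.symm h1hi.ne

/-- mid, mid, mid, two on one branch and the third on the other: `v x₃ = v x₁ * v x₂`. -/
lemma factA_mixed (h : Coll α β x₁ y₁ x₂ y₂ x₃ y₃ l n) (h2 : v 2 = 1) (hα : v α < 1)
    (hβ : v β = 1) (hγ : γ ^ 2 = -β)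
    (h1lo : v α < v x₁) (h1hi : v x₁ < 1)
    (h2lo : v α < v x₂) (h2hi : v x₂ < 1) (h3lo : v α < v x₃) (h3hi : v x₃ < 1)
    (hP1 : v (y₁ - γ * x₁) < v x₁) (hP2 : v (y₂ - γ * x₂) < v x₂)
    (hN3 : v (y₃ - (-γ) * x₃) < v x₃) : v x₃ = v x₁ * v x₂ := by
  have hr1 : 0 < v x₁ := lt_of_le_of_lt zero_le h1lo
  have hr2 : 0 < v x₂ := lt_of_le_of_lt zero_le h2lo
  have hr3 : 0 < v x₃ := lt_of_le_of_lt zero_le h3lo
  have e1 : y₁ - γ * x₁ = (l - γ) * x₁ + n := by rw [h.L1]; ring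
  have e2 : y₂ - γ * x₂ = (l - γ) * x₂ + n := by rw [h.L2]; ring
  have e3 : y₃ - (-γ) * x₃ = (l - (-γ)) * x₃ + n := by rw [h.L3]; ring
  rw [e1] at hP1
  rw [e2] at hP2
  rw [e3] at hN3
  have hnsq := h.vn_sq (v := v)
  rcases h.kappa_dichotomy h2 hα hβ hγ h1hi h2hi h3hi with ⟨-, hk'⟩ | ⟨hk, hk'⟩
  · have hn3 := val_n_eq_of_unit hk' hN3
    rw [hn3, pow_two] at hnsq
    have : v x₃ * v x₃ = v x₁ * v x₂ * v x₃ := hnsq
    exact mul_right_cancel₀ hr3.ne' this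
  · exfalso
    have hn1 := val_n_eq_of_unit hk hP1
    have hn2 := val_n_eq_of_unit hk hP2
    rw [← hn1, ← hn2, pow_two] at hnsq
    have hnpos : 0 < v n := hn1 ▸ hr1
    have : v n * v n * 1 = v n * v n * v x₃ := by rw [mul_one]; exact hnsq
    have := mul_left_cancel₀ (mul_pos hnpos hnpos).ne' this
    exact absurd this.symm h3hi.ne

end Fermat.Agent.S05.Comp
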