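import Fermat.Agent.S05.CompXY
import Mathlib.AlgebraicGeometry.EllipticCurve.Affine.Point

/-!
# The component homomorphism on the points of a Weierstrass curve with nodal reduction
-/

set_option autoImplicit false

namespace Fermat.Agent.S05.Comp

open WeierstrassCurve WeierstrassCurve.Affine

variable {K : Type*} [Field K] {Γ₀ : Type*} [LinearOrderedCommGroupWithZero Γ₀]

/-- A Weierstrass curve over a valued field together with a factorisation
`(y + (a₁ x + a₃)/2)² = (x - e) (x - e - α) (x - e - β)` with `v α < 1 = v β`: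
the reduction has a node at `x ≡ e`. -/
structure NodalModel (v : Valuation K Γ₀) (W : Affine K) where
  e : K
  α : K
  β : K
  γ : K
  h2 : v 2 = 1
  hα : v α < 1
  hα0 : α ≠ 0
  hβ : v β = 1
  hγ : γ ^ 2 = -β
  hb2 : W.a₂ + W.a₁ ^ 2 / 4 = -(3 * e + α + β)
  hb4 : W.a₄ + W.a₁ * W.a₃ / 2 = 3 * e ^ 2 + 2 * e * (α + β) + α * β
  hb6 : W.a₆ + W.a₃ ^ 2 / 4 = -(e * (e + α) * (e + β))

namespace NodalModel

variable {v : Valuation K Γ₀} {W : Affine K}

/-- The shifted `x`-coordinate. -/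
def xi (M : NodalModel v W) (x : K) : K := x - M.e

/-- The `y`-coordinate after completing the square. -/
def eta (_M : NodalModel v W) (x y : K) : K := y + (W.a₁ * x + W.a₃) / 2

lemma two_ne_zero (M : NodalModel v W) : (2 : K) ≠ 0 := by
  intro h
  have := M.h2
  rw [h, map_zero] at this
  exact zero_ne_one this

lemma four_ne_zero (M : NodalModel v W) : (4 : K) ≠ 0 := by
  have : (4 : K) = 2 * 2 := by norm_num
  rw [this]
  exact mul_ne_zero M.two_ne_zero M.two_ne_zero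

lemma a₂_eq (M : NodalModel v W) : W.a₂ = -(3 * M.e + M.α + M.β) - W.a₁ ^ 2 / 4 := by
  rw [← M.hb2]; ring

lemma a₄_eq (M : NodalModel v W) :
    W.a₄ = 3 * M.e ^ 2 + 2 * M.e * (M.α + M.β) + M.α * M.β - W.a₁ * W.a₃ / 2 := by
  rw [← M.hb4]; ring

lemma a₆_eq (M : NodalModel v W) :
    W.a₆ = -(M.e * (M.e + M.α) * (M.e + M.β)) - W.a₃ ^ 2 / 4 := by
  rw [← M.hb6]; ring

lemma key_id (M : NodalModel v W) (x y : K) :
    M.eta x y ^ 2 - M.xi x * (M.xi x - M.α) * (M.xi x - M.β) =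
      (y ^ 2 + W.a₁ * x * y + W.a₃ * y) - (x ^ 3 + W.a₂ * x ^ 2 + W.a₄ * x + W.a₆) := by
  have h2 := M.two_ne_zero
  have h4 := M.four_ne_zero
  rw [xi, eta, M.a₂_eq, M.a₄_eq, M.a₆_eq]
  field_simp
  ring

lemma equation_iff (M : NodalModel v W) (x y : K) :
    W.Equation x y ↔ M.eta x y ^ 2 = M.xi x * (M.xi x - M.α) * (M.xi x - M.β) := by
  rw [Affine.equation_iff, ← sub_eq_zero, ← M.key_id x y, sub_eq_zero]

lemma eta_negY (M : NodalModel v W) (x y : K) : M.eta x (W.negY x y) = - M.eta x y := by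
  have h2 := M.two_ne_zero
  simp only [eta, Affine.negY]
  field_simp
  ring

end NodalModel

variable {v : Valuation K Γ₀}

lemma compXY_neg {α β γ x y : K} (h2 : v 2 = 1) (hα : v α < 1) (hα0 : α ≠ 0) (hβ : v β = 1)
    (hγ : γ ^ 2 = -β) (hE : y ^ 2 = x * (x - α) * (x - β)) :
    compXY v α γ x (-y) = (compXY v α γ x y)⁻¹ := by
  rcases compXY_cases h2 hα hβ hγ hE with ⟨hZ, e⟩ | ⟨hM, e⟩ | ⟨hlo, hhi, hP, e⟩ |
    ⟨hlo, hhi, hN, e⟩
  · rw [e, compXY_of_Z hZ, inv_one]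
  · rw [e, compXY_of_M hα hM, cls_alpha_inv v α hα0]
  · rw [e]
    apply compXY_of_N h2 hβ hγ hlo hhi
    have : -y - -γ * x = -(y - γ * x) := by ring
    rw [this, Valuation.map_neg]; exact hP
  · rw [e, inv_inv]
    apply compXY_of_P hlo hhi
    have : -y - γ * x = -(y - (-γ) * x) := by ring
    rw [this, Valuation.map_neg]; exact hN

namespace NodalModel

variable {W : Affine K}

/-- The component of a point. -/
noncomputable def comp (M : NodalModel v W) : W.Point → CompGroup v M.α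
  | .zero => 1
  | .some x y _ => compXY v M.α M.γ (M.xi x) (M.eta x y)

@[simp] lemma comp_zero (M : NodalModel v W) : M.comp 0 = 1 := rfl

lemma comp_some (M : NodalModel v W) {x y : K} (h : W.Nonsingular x y) :
    M.comp (.some x y h) = compXY v M.α M.γ (M.xi x) (M.eta x y) := rfl

lemma comp_neg (M : NodalModel v W) (P : W.Point) : M.comp (-P) = (M.comp P)⁻¹ := by
  rcases P with _ | ⟨x, y, h⟩
  · change M.comp 0 = (M.comp 0)⁻¹
    simp
  · rw [Point.neg_some, comp_some, comp_some, M.eta_negY]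
    exact compXY_neg M.h2 M.hα M.hα0 M.hβ M.hγ ((M.equation_iff x y).mp h.1)

variable [DecidableEq K]

/-- The collinearity data attached to a sum of two affine points. -/
lemma coll_of_add (M : NodalModel v W) {x₁ y₁ x₂ y₂ : K} (h₁ : W.Equation x₁ y₁)
    (h₂ : W.Equation x₂ y₂) (hxy : ¬(x₁ = x₂ ∧ y₁ = W.negY x₂ y₂)) :
    Coll M.α M.β (M.xi x₁) (M.eta x₁ y₁) (M.xi x₂) (M.eta x₂ y₂)
      (M.xi (W.addX x₁ x₂ (W.slope x₁ x₂ y₁ y₂)))
      (M.eta (W.addX x₁ x₂ (W.slope x₁ x₂ y₁ y₂)) (W.negAddY x₁ x₂ y₁ (W.slope x₁ x₂ y₁ y₂)))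
      (W.slope x₁ x₂ y₁ y₂ + W.a₁ / 2)
      (M.eta x₁ y₁ - (W.slope x₁ x₂ y₁ y₂ + W.a₁ / 2) * M.xi x₁) := by
  have h2 := M.two_ne_zero
  have h4 := M.four_ne_zero
  set ℓ := W.slope x₁ x₂ y₁ y₂ with hℓ
  -- the line passes through the second point
  have hline : y₂ = ℓ * (x₂ - x₁) + y₁ := by
    by_cases hx : x₁ = x₂
    · have hy : y₁ ≠ W.negY x₂ y₂ := fun h => hxy ⟨hx, h⟩
      have := Y_eq_of_Y_ne h₁ h₂ hx hy
      rw [hx, this]; ring
    · rw [hℓ, slope_of_X_ne hx]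
      have : x₁ - x₂ ≠ 0 := sub_ne_zero.mpr hx
      field_simp
      ring
  -- Vieta
  have hV := addPolynomial_slope h₁ h₂ hxy
  rw [addPolynomial_eq, neg_inj, Cubic.prod_X_sub_C_eq, Cubic.toPoly_injective] at hV
  have hVc := congrArg Cubic.c hV
  have hVd := congrArg Cubic.d hV
  simp only at hVc hVd
  rw [← hℓ] at hVc hVd
  have hE3 : W.Equation (W.addX x₁ x₂ ℓ) (W.negAddY x₁ x₂ y₁ ℓ) := equation_negAdd h₁ h₂ hxy
  refine ⟨?_, ?_, ?_, (M.equation_iff _ _).mp h₁, (M.equation_iff _ _).mp h₂,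
    (M.equation_iff _ _).mp hE3, ?_, ?_, ?_⟩
  · ring
  · simp only [eta, xi]
    rw [hline]; ring
  · simp only [eta, xi, negAddY]
    ring
  · simp only [xi, addX]
    rw [M.a₂_eq]
    field_simp
    ring
  · simp only [xi, eta]
    have e1 : (x₁ - M.e) * (x₂ - M.e) + (x₁ - M.e) * (W.addX x₁ x₂ ℓ - M.e) +
        (x₂ - M.e) * (W.addX x₁ x₂ ℓ - M.e) =
        (x₁ * x₂ + x₁ * W.addX x₁ x₂ ℓ + x₂ * W.addX x₁ x₂ ℓ)
          - 2 * M.e * (x₁ + x₂ + W.addX x₁ x₂ ℓ) + 3 * M.e ^ 2 := by ring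
    rw [e1, ← hVc]
    simp only [addX]
    rw [M.a₂_eq, M.a₄_eq]
    field_simp
    ring
  · simp only [xi, eta]
    have e1 : (x₁ - M.e) * (x₂ - M.e) * (W.addX x₁ x₂ ℓ - M.e) =
        -(-(x₁ * x₂ * W.addX x₁ x₂ ℓ))
          - M.e * (x₁ * x₂ + x₁ * W.addX x₁ x₂ ℓ + x₂ * W.addX x₁ x₂ ℓ)
          + M.e ^ 2 * (x₁ + x₂ + W.addX x₁ x₂ ℓ) - M.e ^ 3 := by ring
    rw [e1, ← hVc, ← hVd]
    simp only [addX]
    rw [M.a₂_eq, M.a₄_eq, M.a₆_eq]
    field_simp
    ring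

/-- **The component map is additive.** -/
theorem comp_add (M : NodalModel v W) (P Q : W.Point) :
    M.comp (P + Q) = M.comp P * M.comp Q := by
  rcases P with _ | ⟨x₁, y₁, h₁⟩
  · change M.comp (0 + Q) = M.comp 0 * M.comp Q
    rw [zero_add, comp_zero, one_mul]
  rcases Q with _ | ⟨x₂, y₂, h₂⟩
  · change M.comp (_ + 0) = M.comp _ * M.comp 0
    rw [add_zero, comp_zero, mul_one]
  by_cases hxy : x₁ = x₂ ∧ y₁ = W.negY x₂ y₂
  · rw [Point.add_of_Y_eq hxy.1 hxy.2, comp_zero]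
    have : Point.some x₁ y₁ h₁ = -Point.some x₂ y₂ h₂ := by
      rw [Point.neg_some]
      obtain ⟨rfl, rfl⟩ := hxy
      rfl
    rw [this, comp_neg, inv_mul_cancel]
  · rw [Point.add_some hxy, comp_some, comp_some, comp_some]
    have hc := M.coll_of_add h₁.1 h₂.1 hxy
    have h3 := compXY_mul hc M.h2 M.hα M.hα0 M.hβ M.hγ (γ := M.γ)
    rw [addY, M.eta_negY, compXY_neg M.h2 M.hα M.hα0 M.hβ M.hγ hc.E3]
    exact (mul_eq_one_iff_eq_inv.mp h3).symm

/-- The component map as a homomorphism. -/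
noncomputable def compHom (M : NodalModel v W) : W.Point →+ Additive (CompGroup v M.α) where
  toFun P := Additive.ofMul (M.comp P)
  map_zero' := rfl
  map_add' P Q := by
    rw [M.comp_add P Q]; rfl

lemma comp_nsmul (M : NodalModel v W) (k : ℕ) (P : W.Point) :
    M.comp (k • P) = M.comp P ^ k := by
  induction k with
  | zero => simp
  | succ k ih =>
    rw [succ_nsmul, comp_add, ih]
    exact (pow_succ _ _).symm

lemma comp_sub (M : NodalModel v W) (P Q : W.Point) :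
    M.comp (P - Q) = M.comp P * (M.comp Q)⁻¹ := by
  rw [sub_eq_add_neg, comp_add, comp_neg]

end NodalModel

end Fermat.Agent.S05.Comp
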