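import Mathlib.AlgebraicGeometry.EllipticCurve.Affine.Point
import Mathlib.RingTheory.Valuation.ValuationSubring

/-!
# Valuation bounds: a small calculus for `v e ≤ ρ ^ k`

Helper file for statement S05 (kernel of reduction has no prime-to-residue-characteristic torsion).
-/

set_option autoImplicit false

namespace Fermat.Agent.S05.H245

variable {K : Type*} [Field K] {Γ₀ : Type*} [LinearOrderedCommGroupWithZero Γ₀]
  (v : Valuation K Γ₀)

/-- `Bd v ρ k e` means `v e ≤ ρ ^ k`. -/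
def Bd (ρ : Γ₀) (k : ℕ) (e : K) : Prop := v e ≤ ρ ^ k

variable {v} {ρ : Γ₀} {j k m : ℕ} {a b e : K}

lemma Bd.add (ha : Bd v ρ k a) (hb : Bd v ρ k b) : Bd v ρ k (a + b) :=
  v.map_add_le ha hb

lemma Bd.sub (ha : Bd v ρ k a) (hb : Bd v ρ k b) : Bd v ρ k (a - b) :=
  v.map_sub_le ha hb

lemma Bd.neg (ha : Bd v ρ k a) : Bd v ρ k (-a) := by
  unfold Bd at *; rwa [v.map_neg]

lemma Bd.mul (ha : Bd v ρ j a) (hb : Bd v ρ k b) : Bd v ρ (j + k) (a * b) := by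
  unfold Bd at *
  rw [map_mul, pow_add]
  exact mul_le_mul' ha hb

lemma Bd.mono (hρ : ρ ≤ 1) (hjk : j ≤ k) (ha : Bd v ρ k a) : Bd v ρ j a :=
  le_trans ha (pow_le_pow_right_of_le_one' hρ hjk)

lemma Bd.mul' (hρ : ρ ≤ 1) (ha : Bd v ρ j a) (hb : Bd v ρ k b) (hm : m ≤ j + k) :
    Bd v ρ m (a * b) :=
  (ha.mul hb).mono hρ hm

lemma Bd.pow (ha : Bd v ρ j a) (n : ℕ) : Bd v ρ (j * n) (a ^ n) := by
  unfold Bd at *
  rw [map_pow, pow_mul]
  exact pow_le_pow_left' ha n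

lemma Bd.pow' (hρ : ρ ≤ 1) (ha : Bd v ρ j a) (n : ℕ) (hm : m ≤ j * n) : Bd v ρ m (a ^ n) :=
  (ha.pow n).mono hρ hm

lemma bd_zero_iff : Bd v ρ 0 a ↔ v a ≤ 1 := by
  unfold Bd; rw [pow_zero]

lemma Bd.of_le_one (ha : v a ≤ 1) : Bd v ρ 0 a := bd_zero_iff.mpr ha

lemma bd_one_iff : Bd v ρ 1 a ↔ v a ≤ ρ := by
  unfold Bd; rw [pow_one]

lemma Bd.zero_mem : Bd v ρ k (0 : K) := by
  unfold Bd; rw [map_zero]; exact zero_le

lemma Bd.one_mem : Bd v ρ 0 (1 : K) := by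
  unfold Bd; rw [map_one, pow_zero]

lemma Bd.natCast (n : ℕ) : Bd v ρ 0 (n : K) := by
  induction n with
  | zero => simpa using (Bd.zero_mem : Bd v ρ 0 (0 : K))
  | succ n ih => simpa using ih.add Bd.one_mem

lemma Bd.ofNat (n : ℕ) [n.AtLeastTwo] : Bd v ρ 0 (OfNat.ofNat n : K) := by
  rw [← Nat.cast_ofNat (R := K)]
  exact Bd.natCast _

/-- multiplication by an integral element -/
lemma Bd.smul (ha : v a ≤ 1) (hb : Bd v ρ k b) : Bd v ρ k (a * b) := by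
  have := (Bd.of_le_one (ρ := ρ) ha).mul hb
  simpa using this

lemma Bd.lt_one (hρ : ρ < 1) (hk : 0 < k) (ha : Bd v ρ k a) : v a < 1 :=
  lt_of_le_of_lt ha (pow_lt_one' hρ hk.ne')

/-- `1 - a` is a unit when `a` is small. -/
lemma Bd.one_sub (hρ : ρ < 1) (hk : 0 < k) (ha : Bd v ρ k a) : v (1 - a) = 1 :=
  v.map_one_sub_of_lt (ha.lt_one hρ hk)

lemma Bd.one_add (hρ : ρ < 1) (hk : 0 < k) (ha : Bd v ρ k a) : v (1 + a) = 1 :=
  v.map_one_add_of_lt (ha.lt_one hρ hk)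

lemma Bd.div_unit (ha : Bd v ρ k a) (hb : v b = 1) : Bd v ρ k (a / b) := by
  unfold Bd at *
  rw [map_div₀, hb, div_one]; exact ha

end Fermat.Agent.S05.H245
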