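import Fermat.Agent.S05.H245Val

/-!
# The kernel of reduction has no torsion of order prime to the residue characteristic

Helper file for statement S05.  Main results:

* `Fermat.Agent.S05.H245.zc_add`: formal-group estimate `z(P + Q) = z(P) + z(Q) + O(ρ ^ 2)`.
* `Fermat.Agent.S05.H245.no_torsion_val`: valuation form.
* `Fermat.Agent.S05.H245.no_torsion_in_E1`: `ValuationSubring` form.
-/

set_option autoImplicit false

namespace Fermat.Agent.S05.H245

open WeierstrassCurve WeierstrassCurve.Affine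

variable {K : Type*} [Field K] {Γ₀ : Type*} [LinearOrderedCommGroupWithZero Γ₀]
variable {v : Valuation K Γ₀} {W : WeierstrassCurve.Affine K}

/-- the `z`-coordinate `-x / y` of a point (`0` at the origin) -/
noncomputable def zc : W.Point → K
  | .zero => 0
  | .some x y _ => -x / y

/-- membership in the kernel of reduction: the origin, or a point with non-integral `x` -/
def InE1 (v : Valuation K Γ₀) : W.Point → Prop
  | .zero => True
  | .some x _ _ => 1 < v x

@[simp] lemma zc_zero : zc (0 : W.Point) = 0 := rfl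

@[simp] lemma zc_some {x y : K} (h : W.Nonsingular x y) : zc (Point.some x y h) = -x / y := rfl

@[simp] lemma inE1_zero : InE1 v (0 : W.Point) := trivial

@[simp] lemma inE1_some {x y : K} (h : W.Nonsingular x y) :
    InE1 v (Point.some x y h) ↔ 1 < v x := Iff.rfl

lemma zc_lt_one (hW : IntCoeffs v W) {P : W.Point} (hP : InE1 v P) : v (zc P) < 1 := by
  cases P with
  | zero => simp [zc]
  | some x y h => exact (val_zw hW h.1 hP).2.1

lemma zc_ne_zero (hW : IntCoeffs v W) {x y : K} (h : W.Nonsingular x y) (hx : 1 < v x) :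
    v (zc (Point.some x y h)) ≠ 0 :=
  (val_zw hW h.1 hx).2.2.1

lemma val_natCast_le_one (v : Valuation K Γ₀) (n : ℕ) : v (n : K) ≤ 1 :=
  bd_zero_iff.mp (Bd.natCast (v := v) (ρ := (1 : Γ₀)) n)

variable [DecidableEq K] {ρ : Γ₀}

/-- The formal group estimate: on the kernel of reduction, `z(P + Q) ≡ z(P) + z(Q)` modulo
second order terms. -/
theorem zc_add (hW : IntCoeffs v W) (hρ : ρ < 1) {P Q : W.Point} (hP : InE1 v P)
    (hQ : InE1 v Q) (hPρ : v (zc P) ≤ ρ) (hQρ : v (zc Q) ≤ ρ) :
    InE1 v (P + Q) ∧ v (zc (P + Q) - zc P - zc Q) ≤ ρ ^ 2 := by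
  cases P with
  | zero =>
    rw [← Point.zero_def, zero_add]
    refine ⟨hQ, ?_⟩
    simp
  | some x₁ y₁ h₁ =>
    cases Q with
    | zero =>
      rw [← Point.zero_def, add_zero]
      refine ⟨hP, ?_⟩
      simp
    | some x₂ y₂ h₂ =>
      by_cases hxy : x₁ = x₂ ∧ y₁ = W.negY x₂ y₂
      · rw [Point.add_of_Y_eq hxy.1 hxy.2]
        refine ⟨trivial, ?_⟩
        obtain ⟨-, hb⟩ := bd_neg (ρ := ρ) hW h₂.1 hQ (bd_one_iff.mpr hQρ)
        simp only [zc_zero, zc_some]
        have e : (0 : K) - -x₁ / y₁ - -x₂ / y₂ = -(-x₂ / W.negY x₂ y₂ + -x₂ / y₂) := by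
          rw [hxy.1, hxy.2]; ring
        rw [e]
        exact hb.neg
      · rw [Point.add_some hxy]
        exact add_some_E1 hW hρ h₁.1 h₂.1 hP hQ hPρ hQρ hxy

/-- Multiples: `z(n P) ≡ n z(P)` modulo second order terms. -/
theorem zc_nsmul (hW : IntCoeffs v W) {P : W.Point} (hP : InE1 v P) (n : ℕ) :
    InE1 v (n • P) ∧ v (zc (n • P) - n * zc P) ≤ v (zc P) ^ 2 := by
  have hρ : v (zc P) < 1 := zc_lt_one hW hP
  induction n with
  | zero => simp
  | succ n ih =>
    obtain ⟨ih1, ih2⟩ := ih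
    have hsq : v (zc P) ^ 2 ≤ v (zc P) := by
      rw [pow_two]; exact mul_le_of_le_one_left' hρ.le
    have hn : v (zc (n • P)) ≤ v (zc P) := by
      have e : zc (n • P) = (zc (n • P) - n * zc P) + n * zc P := by ring
      rw [e]
      refine v.map_add_le (le_trans ih2 hsq) ?_
      rw [map_mul]
      exact mul_le_of_le_one_left' (val_natCast_le_one v n)
    obtain ⟨h1, h2⟩ := zc_add hW hρ ih1 hP hn le_rfl
    rw [succ_nsmul]
    refine ⟨h1, ?_⟩
    have e : zc (n • P + P) - ((n + 1 : ℕ) : K) * zc P =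
        (zc (n • P + P) - zc (n • P) - zc P) + (zc (n • P) - n * zc P) := by
      push_cast; ring
    rw [e]
    exact v.map_add_le h2 ih2

/-- **No torsion in the kernel of reduction** (valuation form): if `n` is a unit for the
valuation and `n • P = 0` for an affine point `P = (x, y)`, then `x` and `y` are integral. -/
theorem no_torsion_val (hW : IntCoeffs v W) {n : ℕ} (hn : v (n : K) = 1) {x y : K}
    (h : W.Nonsingular x y) (hP : n • Point.some x y h = 0) : v x ≤ 1 ∧ v y ≤ 1 := by
  have hx : v x ≤ 1 := by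
    by_contra hx
    replace hx : 1 < v x := not_le.mp hx
    have hE : InE1 v (Point.some x y h) := hx
    obtain ⟨-, h2⟩ := zc_nsmul hW hE n
    have hρ : v (zc (Point.some x y h)) < 1 := zc_lt_one hW hE
    have hρ0 : v (zc (Point.some x y h)) ≠ 0 := zc_ne_zero hW h hx
    rw [hP, zc_zero, zero_sub, v.map_neg, map_mul, hn, one_mul, pow_two] at h2
    have : v (zc (Point.some x y h)) * v (zc (Point.some x y h)) <
        v (zc (Point.some x y h)) :=
      mul_lt_of_lt_one_left (zero_lt_iff.mpr hρ0) hρ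
    exact absurd h2 (not_le.mpr this)
  exact ⟨hx, val_y_le_one hW h.1 hx⟩

/-- **No torsion in the kernel of reduction** (`ValuationSubring` form). -/
theorem no_torsion_in_E1 (A : ValuationSubring K) (W : WeierstrassCurve.Affine K)
    (h1 : W.a₁ ∈ A) (h2 : W.a₂ ∈ A) (h3 : W.a₃ ∈ A) (h4 : W.a₄ ∈ A) (h6 : W.a₆ ∈ A)
    {n : ℕ} (hn : A.valuation (n : K) = 1) {x y : K} (h : W.Nonsingular x y)
    (hP : n • Point.some x y h = 0) : x ∈ A ∧ y ∈ A := by
  have hW : IntCoeffs A.valuation W :=
    ⟨(A.valuation_le_one_iff _).mpr h1, (A.valuation_le_one_iff _).mpr h2,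
      (A.valuation_le_one_iff _).mpr h3, (A.valuation_le_one_iff _).mpr h4,
      (A.valuation_le_one_iff _).mpr h6⟩
  obtain ⟨hx, hy⟩ := no_torsion_val hW hn h hP
  exact ⟨(A.valuation_le_one_iff _).mp hx, (A.valuation_le_one_iff _).mp hy⟩

/-- Variant with an integer multiple. -/
theorem no_torsion_in_E1_zsmul (A : ValuationSubring K) (W : WeierstrassCurve.Affine K)
    (h1 : W.a₁ ∈ A) (h2 : W.a₂ ∈ A) (h3 : W.a₃ ∈ A) (h4 : W.a₄ ∈ A) (h6 : W.a₆ ∈ A)
    {n : ℕ} (hn : A.valuation (n : K) = 1) {x y : K} (h : W.Nonsingular x y)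
    (hP : (n : ℤ) • Point.some x y h = 0) : x ∈ A ∧ y ∈ A := by
  rw [natCast_zsmul] at hP
  exact no_torsion_in_E1 A W h1 h2 h3 h4 h6 hn h hP

/-- The kernel of reduction meets the `n`-torsion trivially (point form). -/
theorem eq_zero_of_inE1_of_nsmul (hW : IntCoeffs v W) {n : ℕ} (hn : v (n : K) = 1)
    {P : W.Point} (hE : InE1 v P) (hP : n • P = 0) : P = 0 := by
  cases P with
  | zero => rfl
  | some x y h =>
    exfalso
    have := (no_torsion_val hW hn h hP).1
    exact absurd this (not_le.mpr hE)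

end Fermat.Agent.S05.H245
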