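import Fermat.Agent.S05.XOnlyFormulas
import Mathlib.RingTheory.Valuation.Integers
import Mathlib.Tactic

/-!
# The kernel of reduction has no prime-to-residue-characteristic torsion (x-only proof)

Let `K` be a field with a valuation `v`, and `W` a Weierstrass curve over `K` whose
`b`-invariants are integral, and assume `v 2 = 1`.  For an affine point `P = (x, y)` with
`1 < v x` (i.e. in the kernel of reduction) we show by induction on `k`, using only the
`x`-coordinate addition formulas, that `k • P` is in the kernel of reduction and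
`v (ρ(k • P) - k² ρ(P)) < v (ρ(P))` where `ρ = 1/x` (and `ρ(0) = 0`).
Consequently, if `n • P = 0` with `v n = 1` then `v x ≤ 1`.
-/

set_option autoImplicit false

namespace Fermat.Agent.S05.XOnly

open WeierstrassCurve

section Cert

variable {K : Type*} [Field K] {Γ₀ : Type*} [LinearOrderedCommGroupWithZero Γ₀]
  (v : Valuation K Γ₀)

lemma val_mul_int_lt {g : Γ₀} {a X : K} (ha : v a < g) (hX : X ∈ v.integer) :
    v (a * X) < g := by
  rw [map_mul]
  have hX' : v X ≤ 1 := hX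
  calc v a * v X ≤ v a * 1 := by gcongr
    _ = v a := mul_one _
    _ < g := ha

lemma lt_of_cert1 {g : Γ₀} {z a X : K} (h : z = a * X) (ha : v a < g) (hX : X ∈ v.integer) :
    v z < g := by
  rw [h]; exact val_mul_int_lt v ha hX

lemma lt_of_cert2 {g : Γ₀} {z a₁ X₁ a₂ X₂ : K} (h : z = a₁ * X₁ + a₂ * X₂)
    (ha₁ : v a₁ < g) (hX₁ : X₁ ∈ v.integer) (ha₂ : v a₂ < g) (hX₂ : X₂ ∈ v.integer) :
    v z < g := by
  rw [h]; exact v.map_add_lt (val_mul_int_lt v ha₁ hX₁) (val_mul_int_lt v ha₂ hX₂)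

lemma lt_of_cert3 {g : Γ₀} {z a₁ X₁ a₂ X₂ a₃ X₃ : K} (h : z = a₁ * X₁ + a₂ * X₂ + a₃ * X₃)
    (ha₁ : v a₁ < g) (hX₁ : X₁ ∈ v.integer) (ha₂ : v a₂ < g) (hX₂ : X₂ ∈ v.integer)
    (ha₃ : v a₃ < g) (hX₃ : X₃ ∈ v.integer) :
    v z < g := by
  rw [h]
  exact v.map_add_lt (v.map_add_lt (val_mul_int_lt v ha₁ hX₁) (val_mul_int_lt v ha₂ hX₂))
    (val_mul_int_lt v ha₃ hX₃)

lemma val_inv_lt_one {x : K} (hx : 1 < v x) : v x⁻¹ < 1 := by
  rw [map_inv₀]
  exact inv_lt_one_of_one_lt₀ hx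

lemma ne_zero_of_one_lt {x : K} (hx : 1 < v x) : x ≠ 0 := by
  rintro rfl
  simp at hx

lemma one_lt_val_of_inv_lt_one {x : K} (hx : x ≠ 0) (h : v x⁻¹ < 1) : 1 < v x := by
  rw [map_inv₀] at h
  have h0 : 0 < v x := by
    rw [Valuation.pos_iff]; exact hx
  exact (inv_lt_one₀ h0).mp h

lemma natCast_mem_integer (n : ℕ) : (n : K) ∈ v.integer := natCast_mem _ n

end Cert

section Main

variable {K : Type*} [Field K] {Γ₀ : Type*} [LinearOrderedCommGroupWithZero Γ₀]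
  (v : Valuation K Γ₀) (W : WeierstrassCurve.Affine K)

/-- Integrality of the `b`-invariants of `W` with respect to `v`. -/
structure IntB : Prop where
  b₂ : W.b₂ ∈ v.integer
  b₄ : W.b₄ ∈ v.integer
  b₆ : W.b₆ ∈ v.integer
  b₈ : W.b₈ ∈ v.integer

/-- If the `a`-invariants are integral then so are the `b`-invariants. -/
lemma IntB.of_a (h₁ : v W.a₁ ≤ 1) (h₂ : v W.a₂ ≤ 1) (h₃ : v W.a₃ ≤ 1) (h₄ : v W.a₄ ≤ 1)
    (h₆ : v W.a₆ ≤ 1) : IntB v W := by
  have h₁' : W.a₁ ∈ v.integer := h₁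
  have h₂' : W.a₂ ∈ v.integer := h₂
  have h₃' : W.a₃ ∈ v.integer := h₃
  have h₄' : W.a₄ ∈ v.integer := h₄
  have h₆' : W.a₆ ∈ v.integer := h₆
  refine ⟨?_, ?_, ?_, ?_⟩
  · simp only [WeierstrassCurve.b₂]; aesop
  · simp only [WeierstrassCurve.b₄]; aesop
  · simp only [WeierstrassCurve.b₆]; aesop
  · simp only [WeierstrassCurve.b₈]; aesop

variable {v W}

lemma val_four (h2 : v 2 = 1) : v (4 : K) = 1 := by
  have : (4 : K) = 2 * 2 := by norm_num
  rw [this, map_mul, h2, mul_one]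

lemma twoF_eq (W : WeierstrassCurve.Affine K) {x : K} (hx : x ≠ 0) :
    twoF W x = x ^ 3 * (4 + x⁻¹ * (W.b₂ + 2 * W.b₄ * x⁻¹ + W.b₆ * x⁻¹ ^ 2)) := by
  simp only [twoF]
  field_simp
  ring

lemma dupNum_eq (W : WeierstrassCurve.Affine K) {x : K} (hx : x ≠ 0) :
    dupNum W x = x ^ 4 * (1 - x⁻¹ * (x⁻¹ * (W.b₄ + 2 * W.b₆ * x⁻¹ + W.b₈ * x⁻¹ ^ 2))) := by
  simp only [dupNum]
  field_simp
  ring

/-- Duplication in the kernel of reduction. -/
theorem dup_E1 [DecidableEq K] (hb : IntB v W) (h2 : v 2 = 1) {x y : K}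
    (h : W.Nonsingular x y) (hx : 1 < v x) :
    ∃ (x' y' : K) (h' : W.Nonsingular x' y'),
      Affine.Point.some x y h + Affine.Point.some x y h = Affine.Point.some x' y' h' ∧
        1 < v x' ∧ v (x'⁻¹ - 4 * x⁻¹) < v x⁻¹ := by
  have hx0 : x ≠ 0 := ne_zero_of_one_lt v hx
  have hr : v x⁻¹ < 1 := val_inv_lt_one v hx
  have hr0 : x⁻¹ ≠ 0 := inv_ne_zero hx0
  have hrpos : 0 < v x⁻¹ := by rw [Valuation.pos_iff]; exact hr0
  have hrint : x⁻¹ ∈ v.integer := le_of_lt hr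
  obtain ⟨hb₂, hb₄, hb₆, hb₈⟩ := hb
  have h2int : (2 : K) ∈ v.integer := le_of_eq h2
  set r := x⁻¹ with hrdef
  set ε := r * (W.b₂ + 2 * W.b₄ * r + W.b₆ * r ^ 2) with hε
  set δ := r * (r * (W.b₄ + 2 * W.b₆ * r + W.b₈ * r ^ 2)) with hδ
  have hεlt : v ε < 1 := by
    refine val_mul_int_lt v hr ?_
    repeat (first | assumption | apply add_mem | apply sub_mem | apply mul_mem | apply pow_mem | apply ofNat_mem | apply natCast_mem | apply neg_mem | apply one_mem)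
  have hδlt : v δ < 1 := by
    refine val_mul_int_lt v hr ?_
    repeat (first | assumption | apply add_mem | apply sub_mem | apply mul_mem | apply pow_mem | apply ofNat_mem | apply natCast_mem | apply neg_mem | apply one_mem)
  have h4ε : v (4 + ε) = 1 := by
    rw [Valuation.map_add_eq_of_lt_left, val_four h2]
    rw [val_four h2]; exact hεlt
  have h1δ : v (1 - δ) = 1 := v.map_one_sub_of_lt hδlt
  have h4ε0 : 4 + ε ≠ 0 := by
    intro h0; rw [h0] at h4ε; simp at h4ε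
  have h1δ0 : 1 - δ ≠ 0 := by
    intro h0; rw [h0] at h1δ; simp at h1δ
  have hF : twoF W x = x ^ 3 * (4 + ε) := twoF_eq W hx0
  have hD : dupNum W x = x ^ 4 * (1 - δ) := dupNum_eq W hx0
  have hF0 : twoF W x ≠ 0 := by
    rw [hF]; exact mul_ne_zero (pow_ne_zero _ hx0) h4ε0
  have hη : eta W x y ≠ 0 := by
    intro h0
    apply hF0
    rw [← eta_sq W h.1, h0]; ring
  obtain ⟨x', y', h', hadd, hx'⟩ := add_self_of_eta_ne W h hη
  refine ⟨x', y', h', hadd, ?_⟩
  rw [hF, hD] at hx'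
  have hx'eq : x' = x * (1 - δ) / (4 + ε) := by
    field_simp
    have hx3 : x ^ 3 ≠ 0 := pow_ne_zero _ hx0
    apply mul_left_cancel₀ hx3
    linear_combination hx'
  have hx'0 : x' ≠ 0 := by
    rw [hx'eq]; exact div_ne_zero (mul_ne_zero hx0 h1δ0) h4ε0
  have hvx' : v x' = v x := by
    rw [hx'eq, map_div₀, map_mul, h1δ, h4ε, mul_one, div_one]
  refine ⟨by rw [hvx']; exact hx, ?_⟩
  have hinv : x'⁻¹ - 4 * r = r * ((ε + 4 * δ) * (1 - δ)⁻¹) := by
    rw [hx'eq, hrdef]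
    field_simp
    ring
  have h1δinv : (1 - δ)⁻¹ ∈ v.integer := by
    show v (1 - δ)⁻¹ ≤ 1
    rw [map_inv₀, h1δ, inv_one]
  have hsmall : v ((ε + 4 * δ) * (1 - δ)⁻¹) < 1 := by
    have h4δ : v (4 * δ) < 1 := by
      rw [map_mul, val_four h2, one_mul]; exact hδlt
    exact val_mul_int_lt v (v.map_add_lt hεlt h4δ) h1δinv
  rw [hinv, map_mul]
  calc v r * v ((ε + 4 * δ) * (1 - δ)⁻¹) < v r * 1 := by
        exact mul_lt_mul_of_pos_left hsmall hrpos
    _ = v r := mul_one _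

/-- The sum formula in terms of the inverses of the `x`-coordinates. -/
lemma rho_sum_identity (W : WeierstrassCurve.Affine K) {x₁ x₂ xp xm : K}
    (hx₁ : x₁ ≠ 0) (hx₂ : x₂ ≠ 0) (hxp : xp ≠ 0) (hxm : xm ≠ 0)
    (hd : x₁ - x₂ ≠ 0)
    (hS : (x₁ - x₂) ^ 2 * (xp + xm) = sumNum W x₁ x₂)
    (hP : (x₁ - x₂) ^ 2 * ((x₁ - x₂) ^ 2 * (xp * xm)) = (x₁ - x₂) ^ 2 * prodNum W x₁ x₂) :
    (1 - x₁⁻¹ * x₂⁻¹ * (W.b₄ + W.b₆ * (x₁⁻¹ + x₂⁻¹) + W.b₈ * (x₁⁻¹ * x₂⁻¹))) * (xp⁻¹ + xm⁻¹) =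
      2 * (x₁⁻¹ + x₂⁻¹) +
        x₁⁻¹ * x₂⁻¹ * (W.b₂ + W.b₄ * (x₁⁻¹ + x₂⁻¹) + W.b₆ * (x₁⁻¹ * x₂⁻¹)) := by
  have hd2 : (x₁ - x₂) ^ 2 ≠ 0 := pow_ne_zero _ hd
  have hP' : (x₁ - x₂) ^ 2 * (xp * xm) = prodNum W x₁ x₂ := mul_left_cancel₀ hd2 hP
  have key : prodNum W x₁ x₂ * (xp + xm) = sumNum W x₁ x₂ * (xp * xm) := by
    apply mul_left_cancel₀ hd2
    linear_combination (-(x₁ - x₂) ^ 2 * (xp + xm)) * hP' + ((x₁ - x₂) ^ 2 * (xp * xm)) * hS
  simp only [sumNum, prodNum] at key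
  field_simp
  linear_combination key

/-- Chord step in the kernel of reduction. -/
theorem chord_E1 (hb : IntB v W) {x x₁ xp xm : K} (k : ℕ)
    (hx : 1 < v x) (hx₁ : 1 < v x₁) (hxm : 1 < v xm) (hd : x₁ ≠ x)
    (hS : (x₁ - x) ^ 2 * (xp + xm) = sumNum W x₁ x)
    (hP : (x₁ - x) ^ 2 * ((x₁ - x) ^ 2 * (xp * xm)) = (x₁ - x) ^ 2 * prodNum W x₁ x)
    (h₁ : v (x₁⁻¹ - ((k : K) + 1) ^ 2 * x⁻¹) < v x⁻¹)
    (hm : v (xm⁻¹ - (k : K) ^ 2 * x⁻¹) < v x⁻¹) :
    1 < v xp ∧ v (xp⁻¹ - ((k : K) + 2) ^ 2 * x⁻¹) < v x⁻¹ := by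
  have hx0 : x ≠ 0 := ne_zero_of_one_lt v hx
  have hx₁0 : x₁ ≠ 0 := ne_zero_of_one_lt v hx₁
  have hxm0 : xm ≠ 0 := ne_zero_of_one_lt v hxm
  have hd0 : x₁ - x ≠ 0 := sub_ne_zero.mpr hd
  have hd2 : (x₁ - x) ^ 2 ≠ 0 := pow_ne_zero _ hd0
  have hr : v x⁻¹ < 1 := val_inv_lt_one v hx
  have hr₁ : v x₁⁻¹ < 1 := val_inv_lt_one v hx₁
  have hrm : v xm⁻¹ < 1 := val_inv_lt_one v hxm
  have hr0 : x⁻¹ ≠ 0 := inv_ne_zero hx0
  have hrpos : 0 < v x⁻¹ := by rw [Valuation.pos_iff]; exact hr0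
  have hrint : x⁻¹ ∈ v.integer := le_of_lt hr
  have hr₁int : x₁⁻¹ ∈ v.integer := le_of_lt hr₁
  have hrmint : xm⁻¹ ∈ v.integer := le_of_lt hrm
  have hkint : (k : K) ∈ v.integer := natCast_mem _ k
  obtain ⟨hb₂, hb₄, hb₆, hb₈⟩ := hb
  set r := x⁻¹ with hrdef
  set r₁ := x₁⁻¹ with hr₁def
  set rm := xm⁻¹ with hrmdef
  set δ := r₁ * r * (W.b₄ + W.b₆ * (r₁ + r) + W.b₈ * (r₁ * r)) with hδ
  set ε := r₁ * r * (W.b₂ + W.b₄ * (r₁ + r) + W.b₆ * (r₁ * r)) with hε
  have hr₁r : v (r₁ * r) < v r := by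
    rw [map_mul]
    calc v r₁ * v r < 1 * v r := mul_lt_mul_of_pos_right hr₁ hrpos
      _ = v r := one_mul _
  have hδlt : v δ < 1 := by
    refine val_mul_int_lt v (lt_trans hr₁r hr) ?_
    repeat (first | assumption | apply add_mem | apply sub_mem | apply mul_mem | apply pow_mem | apply ofNat_mem | apply natCast_mem | apply neg_mem | apply one_mem)
  have h1δ : v (1 - δ) = 1 := v.map_one_sub_of_lt hδlt
  have h1δ0 : 1 - δ ≠ 0 := by
    intro h0; rw [h0] at h1δ; simp at h1δ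
  -- the product is nonzero
  have hP' : (x₁ - x) ^ 2 * (xp * xm) = prodNum W x₁ x := mul_left_cancel₀ hd2 hP
  have hprod : prodNum W x₁ x = (x₁ * x) ^ 2 * (1 - δ) := by
    simp only [prodNum, hδ, hrdef, hr₁def]
    field_simp
    ring
  have hprod0 : prodNum W x₁ x ≠ 0 := by
    rw [hprod]; exact mul_ne_zero (pow_ne_zero _ (mul_ne_zero hx₁0 hx0)) h1δ0
  have hxp0 : xp ≠ 0 := by
    rintro rfl
    apply hprod0
    rw [← hP']; ring
  have hsum := rho_sum_identity W hx₁0 hx0 hxp0 hxm0 hd0 hS hP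
  rw [← hrdef, ← hr₁def, ← hrmdef, ← hδ, ← hε] at hsum
  have hkey : (1 - δ) * (xp⁻¹ - ((k : K) + 2) ^ 2 * r) =
      (r₁ - ((k : K) + 1) ^ 2 * r) * 2 + (rm - (k : K) ^ 2 * r) * (-1) +
        (r₁ * r) * ((W.b₂ + W.b₄ * (r₁ + r) + W.b₆ * (r₁ * r)) +
          (W.b₄ + W.b₆ * (r₁ + r) + W.b₈ * (r₁ * r)) * (rm + ((k : K) + 2) ^ 2 * r)) := by
    linear_combination hsum
  have hlt : v ((1 - δ) * (xp⁻¹ - ((k : K) + 2) ^ 2 * r)) < v r := by
    refine lt_of_cert3 v hkey h₁ ?_ hm ?_ hr₁r ?_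
    · repeat (first | assumption | apply add_mem | apply sub_mem | apply mul_mem | apply pow_mem | apply ofNat_mem | apply natCast_mem | apply neg_mem | apply one_mem)
    · repeat (first | assumption | apply add_mem | apply sub_mem | apply mul_mem | apply pow_mem | apply ofNat_mem | apply natCast_mem | apply neg_mem | apply one_mem)
    · repeat (first | assumption | apply add_mem | apply sub_mem | apply mul_mem | apply pow_mem | apply ofNat_mem | apply natCast_mem | apply neg_mem | apply one_mem)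
  rw [map_mul, h1δ, one_mul] at hlt
  refine ⟨?_, hlt⟩
  apply one_lt_val_of_inv_lt_one v hxp0
  have hk2 : ((k : K) + 2) ^ 2 * r = r * ((k : K) + 2) ^ 2 := mul_comm _ _
  have : xp⁻¹ = (xp⁻¹ - ((k : K) + 2) ^ 2 * r) * 1 + r * ((k : K) + 2) ^ 2 := by ring
  refine lt_of_cert2 v this (lt_trans hlt hr) (one_mem _) hr ?_
  repeat (first | assumption | apply add_mem | apply sub_mem | apply mul_mem | apply pow_mem | apply ofNat_mem | apply natCast_mem | apply neg_mem | apply one_mem)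

/-- `1/x` (and `0` at the point at infinity). -/
def rho : W.Point → K
  | .zero => 0
  | .some x _ _ => x⁻¹

/-- The kernel of reduction: the point at infinity and the affine points with non-integral
`x`-coordinate. -/
def InE1 (v : Valuation K Γ₀) : W.Point → Prop
  | .zero => True
  | .some x _ _ => 1 < v x

@[simp] lemma rho_zero : rho (0 : W.Point) = 0 := rfl

@[simp] lemma rho_some {x y : K} (h : W.Nonsingular x y) :
    rho (Affine.Point.some x y h) = x⁻¹ := rfl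

@[simp] lemma InE1_zero : InE1 v (0 : W.Point) := trivial

@[simp] lemma InE1_some {x y : K} (h : W.Nonsingular x y) :
    InE1 v (Affine.Point.some x y h) ↔ 1 < v x := Iff.rfl

lemma rho_neg (P : W.Point) : rho (-P) = rho P := by
  cases P <;> rfl

lemma InE1_neg (P : W.Point) : InE1 v (-P) ↔ InE1 v P := by
  cases P <;> rfl

lemma val_lt_one_of_sq_mul_lt {c r : K} (hr : r ≠ 0) (h : v (c ^ 2 * r) < v r) : v c < 1 := by
  have hrpos : 0 < v r := by rw [Valuation.pos_iff]; exact hr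
  rw [map_mul, map_pow] at h
  by_contra hc
  rw [not_lt] at hc
  have : v r ≤ v c ^ 2 * v r := by
    calc v r = 1 * v r := (one_mul _).symm
      _ ≤ v c ^ 2 * v r := by
        gcongr
        exact one_le_pow₀ hc
  exact absurd h (not_lt.mpr this)

lemma val_mul_lt_of_lt_one {c r : K} (hr : r ≠ 0) (hc : v c < 1) : v (c * r) < v r := by
  have hrpos : 0 < v r := by rw [Valuation.pos_iff]; exact hr
  rw [map_mul]
  calc v c * v r < 1 * v r := mul_lt_mul_of_pos_right hc hrpos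
    _ = v r := one_mul _

variable [DecidableEq K]

/-- The induction step: from `Q - P` and `Q` to `Q + P`. -/
theorem step_E1 (hb : IntB v W) (h2 : v 2 = 1) {x y : K} (h : W.Nonsingular x y)
    (hx : 1 < v x) (k : ℕ) (Q : W.Point)
    (hQ : InE1 v Q) (hQρ : v (rho Q - ((k : K) + 1) ^ 2 * x⁻¹) < v x⁻¹)
    (hQ' : InE1 v (Q - Affine.Point.some x y h))
    (hQ'ρ : v (rho (Q - Affine.Point.some x y h) - (k : K) ^ 2 * x⁻¹) < v x⁻¹) :
    InE1 v (Q + Affine.Point.some x y h) ∧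
      v (rho (Q + Affine.Point.some x y h) - ((k : K) + 2) ^ 2 * x⁻¹) < v x⁻¹ := by
  have hx0 : x ≠ 0 := ne_zero_of_one_lt v hx
  have hr : v x⁻¹ < 1 := val_inv_lt_one v hx
  have hr0 : x⁻¹ ≠ 0 := inv_ne_zero hx0
  have hkint : (k : K) ∈ v.integer := natCast_mem _ k
  have h2int : (2 : K) ∈ v.integer := le_of_eq h2
  have h2ne : (2 : K) ≠ 0 := by
    intro h0; rw [h0] at h2; simp at h2
  rcases Q with _ | ⟨x₁, y₁, h₁⟩
  · -- `Q = 0`
    rw [← Affine.Point.zero_def, zero_add]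
    rw [← Affine.Point.zero_def] at hQρ
    refine ⟨hx, ?_⟩
    simp only [rho_zero, rho_some, zero_sub, Valuation.map_neg] at hQρ ⊢
    have hc : v ((k : K) + 1) < 1 := val_lt_one_of_sq_mul_lt hr0 hQρ
    have hcr := val_mul_lt_of_lt_one hr0 hc
    have e : x⁻¹ - ((k : K) + 2) ^ 2 * x⁻¹ = (((k : K) + 1) * x⁻¹) * (-((k : K) + 3)) := by ring
    refine lt_of_cert1 v e hcr ?_
    repeat (first | assumption | apply add_mem | apply sub_mem | apply mul_mem | apply pow_mem | apply ofNat_mem | apply natCast_mem | apply neg_mem | apply one_mem)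
  · have hx₁ : 1 < v x₁ := hQ
    simp only [rho_some] at hQρ
    by_cases hxx : x₁ = x
    · -- `Q = ± P`
      obtain ⟨x', y', h', hdup, hx', hx'ρ⟩ := dup_E1 hb h2 h hx
      rcases (Affine.Point.X_eq_iff (h₁ := h₁) (h₂ := h)).mp hxx with hQP | hQP
      · -- `Q = P`
        rw [hQP, sub_self] at hQ'ρ
        rw [hQP, hdup]
        refine ⟨hx', ?_⟩
        simp only [rho_zero, rho_some, zero_sub, Valuation.map_neg] at hQ'ρ ⊢
        have hc : v (k : K) < 1 := val_lt_one_of_sq_mul_lt hr0 hQ'ρ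
        have hcr := val_mul_lt_of_lt_one hr0 hc
        have e : x'⁻¹ - ((k : K) + 2) ^ 2 * x⁻¹ =
            (x'⁻¹ - 4 * x⁻¹) * 1 + ((k : K) * x⁻¹) * (-((k : K) + 4)) := by ring
        refine lt_of_cert2 v e hx'ρ (one_mem _) hcr ?_
        repeat (first | assumption | apply add_mem | apply sub_mem | apply mul_mem | apply pow_mem | apply ofNat_mem | apply natCast_mem | apply neg_mem | apply one_mem)
      · -- `Q = -P`
        rw [hQP, neg_add_cancel]
        refine ⟨trivial, ?_⟩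
        have hQ'eq : (-Affine.Point.some x y h) - Affine.Point.some x y h =
            -Affine.Point.some x' y' h' := by
          rw [← hdup, neg_add, sub_eq_add_neg]
        rw [hQP, hQ'eq, rho_neg] at hQ'ρ
        simp only [rho_zero, rho_some, zero_sub, Valuation.map_neg] at hQ'ρ ⊢
        rw [hxx] at hQρ
        have e2 : (2 * ((k : K) + 2)) * x⁻¹ =
            (x'⁻¹ - (k : K) ^ 2 * x⁻¹) * 1 + (x'⁻¹ - 4 * x⁻¹) * (-1) +
              (x⁻¹ - ((k : K) + 1) ^ 2 * x⁻¹) * (-1) := by ring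
        have h2k : v ((2 * ((k : K) + 2)) * x⁻¹) < v x⁻¹ := by
          refine lt_of_cert3 v e2 hQ'ρ (one_mem _) hx'ρ ?_ hQρ ?_
          · repeat (first | assumption | apply add_mem | apply sub_mem | apply mul_mem | apply pow_mem | apply ofNat_mem | apply natCast_mem | apply neg_mem | apply one_mem)
          · repeat (first | assumption | apply add_mem | apply sub_mem | apply mul_mem | apply pow_mem | apply ofNat_mem | apply natCast_mem | apply neg_mem | apply one_mem)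
        have hk2 : v ((k : K) + 2) < 1 := by
          rw [map_mul, map_mul, h2, one_mul] at h2k
          have hrpos : 0 < v x⁻¹ := by rw [Valuation.pos_iff]; exact hr0
          by_contra hc
          rw [not_lt] at hc
          have : v x⁻¹ ≤ v ((k : K) + 2) * v x⁻¹ := by
            calc v x⁻¹ = 1 * v x⁻¹ := (one_mul _).symm
              _ ≤ v ((k : K) + 2) * v x⁻¹ := by gcongr
          exact absurd h2k (not_lt.mpr this)
        have hcr := val_mul_lt_of_lt_one hr0 hk2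
        have e : ((k : K) + 2) ^ 2 * x⁻¹ = (((k : K) + 2) * x⁻¹) * ((k : K) + 2) := by ring
        refine lt_of_cert1 v e hcr ?_
        repeat (first | assumption | apply add_mem | apply sub_mem | apply mul_mem | apply pow_mem | apply ofNat_mem | apply natCast_mem | apply neg_mem | apply one_mem)
    · -- chord case
      obtain ⟨xp, yp, xm, ym, hp, hm, hadd, hsub, hfp, hfm⟩ := add_sub_of_X_ne W h₁ h hxx
      obtain ⟨hS, hP⟩ := sum_prod_of_add_sub W h2ne h₁.1 h.1 hfp hfm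
      rw [hsub] at hQ' hQ'ρ
      rw [hadd]
      simp only [rho_some, InE1_some] at hQ' hQ'ρ ⊢
      exact chord_E1 hb k hx hx₁ hQ' hxx hS hP hQρ hQ'ρ

/-- Multiples of a point in the kernel of reduction stay in the kernel of reduction, and
`ρ(k • P) ≡ k² ρ(P)` modulo elements of valuation `< v (ρ(P))`. -/
theorem nsmul_E1 (hb : IntB v W) (h2 : v 2 = 1) {x y : K} (h : W.Nonsingular x y)
    (hx : 1 < v x) (k : ℕ) :
    (InE1 v (k • Affine.Point.some x y h) ∧
      v (rho (k • Affine.Point.some x y h) - (k : K) ^ 2 * x⁻¹) < v x⁻¹) ∧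
    (InE1 v ((k + 1) • Affine.Point.some x y h) ∧
      v (rho ((k + 1) • Affine.Point.some x y h) - ((k : K) + 1) ^ 2 * x⁻¹) < v x⁻¹) := by
  have hx0 : x ≠ 0 := ne_zero_of_one_lt v hx
  have hr0 : x⁻¹ ≠ 0 := inv_ne_zero hx0
  have hrpos : 0 < v x⁻¹ := by rw [Valuation.pos_iff]; exact hr0
  induction k with
  | zero =>
    refine ⟨⟨?_, ?_⟩, ?_, ?_⟩
    · rw [zero_smul]; trivial
    · rw [zero_smul]; simpa using hrpos
    · rw [zero_add, one_smul]; exact hx
    · rw [zero_add, one_smul]; simpa using hrpos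
  | succ k ih =>
    obtain ⟨⟨ih1, ih1ρ⟩, ih2, ih2ρ⟩ := ih
    have hsub : (k + 1) • Affine.Point.some x y h - Affine.Point.some x y h =
        k • Affine.Point.some x y h := by
      rw [succ_nsmul, add_sub_cancel_right]
    have hadd : (k + 1 + 1) • Affine.Point.some x y h =
        (k + 1) • Affine.Point.some x y h + Affine.Point.some x y h := succ_nsmul _ _
    have := step_E1 hb h2 h hx k ((k + 1) • Affine.Point.some x y h) ih2 ih2ρ
      (by rw [hsub]; exact ih1) (by rw [hsub]; exact ih1ρ)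
    refine ⟨⟨?_, ?_⟩, ?_, ?_⟩
    · exact ih2
    · push_cast; exact ih2ρ
    · rw [hadd]; exact this.1
    · rw [hadd]
      have e : ((k + 1 : ℕ) : K) + 1 = (k : K) + 2 := by push_cast; ring
      rw [e]; exact this.2

/-- **C1**: a point killed by an integer `n` which is a `v`-unit has integral `x`-coordinate. -/
theorem x_integral_of_nsmul_eq_zero (hb : IntB v W) (h2 : v 2 = 1) {n : ℕ} (hn : v (n : K) = 1)
    {x y : K} (h : W.Nonsingular x y) (hP : n • Affine.Point.some x y h = 0) : v x ≤ 1 := by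
  by_contra hx
  rw [not_le] at hx
  have hx0 : x ≠ 0 := ne_zero_of_one_lt v hx
  have hr0 : x⁻¹ ≠ 0 := inv_ne_zero hx0
  have := (nsmul_E1 hb h2 h hx n).1.2
  rw [hP] at this
  simp only [rho_zero, zero_sub, Valuation.map_neg, map_mul, map_pow, hn, one_pow, one_mul] at this
  exact lt_irrefl _ this

omit [DecidableEq K] in
/-- If `x` and the `a`-invariants are integral, then so is `y` for a point `(x, y)` on `W`. -/
theorem y_integral_of_x_integral (h₁ : v W.a₁ ≤ 1) (h₂ : v W.a₂ ≤ 1) (h₃ : v W.a₃ ≤ 1)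
    (h₄ : v W.a₄ ≤ 1) (h₆ : v W.a₆ ≤ 1) {x y : K} (h : W.Equation x y) (hx : v x ≤ 1) :
    v y ≤ 1 := by
  by_contra hy
  rw [not_le] at hy
  rw [Affine.equation_iff] at h
  have hy0 : y ≠ 0 := ne_zero_of_one_lt v hy
  have hyinv : v y⁻¹ < 1 := val_inv_lt_one v hy
  have h₁' : W.a₁ ∈ v.integer := h₁
  have h₂' : W.a₂ ∈ v.integer := h₂
  have h₃' : W.a₃ ∈ v.integer := h₃
  have h₄' : W.a₄ ∈ v.integer := h₄
  have h₆' : W.a₆ ∈ v.integer := h₆
  have hx' : x ∈ v.integer := hx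
  have hyi : y⁻¹ ∈ v.integer := le_of_lt hyinv
  -- `1 = y⁻¹ * (...)` with the bracket integral
  have e : (1 : K) = y⁻¹ * (y⁻¹ * (x ^ 3 + W.a₂ * x ^ 2 + W.a₄ * x + W.a₆) - W.a₁ * x - W.a₃) := by
    field_simp
    linear_combination h
  have : v (1 : K) < 1 := by
    refine lt_of_cert1 v e hyinv ?_
    repeat (first | assumption | apply add_mem | apply sub_mem | apply mul_mem | apply pow_mem | apply ofNat_mem | apply natCast_mem | apply neg_mem | apply one_mem)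
  simp at this

/-- **C1**, in terms of the `a`-invariants: a point killed by an integer `n` which is a
`v`-unit has integral coordinates. -/
theorem integral_of_nsmul_eq_zero (h₁ : v W.a₁ ≤ 1) (h₂ : v W.a₂ ≤ 1) (h₃ : v W.a₃ ≤ 1)
    (h₄ : v W.a₄ ≤ 1) (h₆ : v W.a₆ ≤ 1) (h2 : v 2 = 1) {n : ℕ} (hn : v (n : K) = 1)
    {x y : K} (h : W.Nonsingular x y) (hP : n • Affine.Point.some x y h = 0) :
    v x ≤ 1 ∧ v y ≤ 1 := by
  have hx := x_integral_of_nsmul_eq_zero (IntB.of_a v W h₁ h₂ h₃ h₄ h₆) h2 hn h hP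
  exact ⟨hx, y_integral_of_x_integral h₁ h₂ h₃ h₄ h₆ h.1 hx⟩

end Main

end Fermat.Agent.S05.XOnly
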