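import Fermat.Agent.S05.XOnlyC1
import Fermat.Agent.S05.SameRed

/-!
# C1 in the form used by `GoodRed`

`hC1_of_val_eq_one`: if the coefficients of `W` are `v`-integral, `v 2 = 1` and `v n = 1`,
then the kernel of reduction `InKer W v` has no nonzero point killed by `n : ℤ`.
-/

set_option autoImplicit false
set_option linter.unusedSectionVars false

namespace Fermat.Agent.S05.XOnly

open WeierstrassCurve Fermat.Agent.S05.SameRed

variable {K : Type*} [Field K] [DecidableEq K] {Γ₀ : Type*} [LinearOrderedCommGroupWithZero Γ₀]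
  {W : WeierstrassCurve.Affine K} {v : Valuation K Γ₀}

lemma intB_of_integralCoeffs (hW : IntegralCoeffs W v) : IntB v W :=
  IntB.of_a v W hW.a₁ hW.a₂ hW.a₃ hW.a₄ hW.a₆

/-- **C1** for natural numbers, in terms of `InKer`. -/
theorem inKer_nsmul_eq_zero (hW : IntegralCoeffs W v) (h2 : v 2 = 1) {n : ℕ}
    (hn : v (n : K) = 1) (Q : W.Point) (hQ : InKer W v Q) (hnQ : n • Q = 0) : Q = 0 := by
  rcases Q with _ | ⟨x, y, h⟩
  · rfl
  · exfalso
    have hx : 1 < v x := hQ
    have := x_integral_of_nsmul_eq_zero (intB_of_integralCoeffs hW) h2 hn h hnQ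
    exact absurd hx (not_lt.mpr this)

/-- **C1** for integers, in the form of the hypothesis `hC1` of
`Fermat.Agent.S05.GoodRed.smul_eq_self_of_nonsingular_reduction`. -/
theorem hC1_of_val_eq_one (hW : IntegralCoeffs W v) (h2 : v 2 = 1) (n : ℤ)
    (hn : v (n : K) = 1) : ∀ Q : W.Point, InKer W v Q → n • Q = 0 → Q = 0 := by
  intro Q hQ hnQ
  have hn' : v ((n.natAbs : ℕ) : K) = 1 := by
    rcases Int.natAbs_eq n with h | h
    · rw [← hn]
      conv_rhs => rw [h]
      simp
    · rw [← hn]
      conv_rhs => rw [h]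
      simp
  refine inKer_nsmul_eq_zero hW h2 hn' Q hQ ?_
  rcases Int.natAbs_eq n with h | h
  · rw [h] at hnQ
    simpa using hnQ
  · rw [h] at hnQ
    simpa using hnQ

/-- The multiples of a point of the kernel of reduction are in the kernel of reduction. -/
theorem inKer_nsmul (hW : IntegralCoeffs W v) (h2 : v 2 = 1) (k : ℕ) (Q : W.Point)
    (hQ : InKer W v Q) : InKer W v (k • Q) := by
  rcases Q with _ | ⟨x, y, h⟩
  · rw [← Affine.Point.zero_def, smul_zero]; trivial
  · have hx : 1 < v x := hQ
    have := (nsmul_E1 (intB_of_integralCoeffs hW) h2 h hx k).1.1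
    revert this
    generalize k • Affine.Point.some x y h = R
    intro hR
    rcases R with _ | ⟨x', y', h'⟩
    · trivial
    · exact hR

end Fermat.Agent.S05.XOnly
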